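import Fermat.Agent.JacRep.Defs
import Fermat.Agent.JacRep.Ops
import Mathlib

/-!
# Modifying a bundle by a pair of invertible ideals

`IdealPair` is a pair of invertible ideals of the two charts agreeing on the overlap;
`twist` multiplies a bundle by it. Twisting commutes with pullback (`isPullback_twist`) and is
the tensor product with the twisted trivial bundle (`isTensor_twist`).
-/

set_option autoImplicit false
set_option linter.style.haveILetI false
set_option linter.unusedSectionVars false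

noncomputable section

open scoped TensorProduct

universe u

namespace FLTAgent.JacRep

variable {k : Type u} [Field k] {C : Cover k} {R : Type u} [CommRing R] [Algebra k R]
  {R' : Type u} [CommRing R'] [Algebra k R']

theorem Cover.resB₀_mapB₀ (φ : R →ₐ[k] R') (b : C.B₀ R) :
    C.resB₀ R' (C.mapB₀ φ b) = C.mapB φ (C.resB₀ R b) := by
  induction b using TensorProduct.induction_on with
  | zero => simp
  | tmul r a => simp [Cover.resB₀, Cover.mapB₀, Cover.mapB]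
  | add u v hu hv => simp [map_add, hu, hv]

theorem Cover.resB₁_mapB₁ (φ : R →ₐ[k] R') (b : C.B₁ R) :
    C.resB₁ R' (C.mapB₁ φ b) = C.mapB φ (C.resB₁ R b) := by
  induction b using TensorProduct.induction_on with
  | zero => simp
  | tmul r a => simp [Cover.resB₁, Cover.mapB₁, Cover.mapB]
  | add u v hu hv => simp [map_add, hu, hv]

theorem Cover.resB_xy (R : Type u) [CommRing R] [Algebra k R] :
    C.resB₀ R (C.xB R) * C.resB₁ R (C.yB R) = 1 := by
  show Algebra.TensorProduct.map (AlgHom.id k R) C.res₀ (1 ⊗ₜ[k] C.x) *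
    Algebra.TensorProduct.map (AlgHom.id k R) C.res₁ (1 ⊗ₜ[k] C.y) = 1
  rw [Algebra.TensorProduct.map_tmul, Algebra.TensorProduct.map_tmul,
    Algebra.TensorProduct.tmul_mul_tmul, C.x_mul_y, map_one, one_mul]
  rfl

variable (C R) in
/-- A pair of invertible ideals of the charts agreeing on the overlap. -/
structure IdealPair : Type u where
  J₀ : Ideal (C.B₀ R)
  J₁ : Ideal (C.B₁ R)
  J : Ideal (C.B R)
  inv₀ : Module.Invertible (C.B₀ R) J₀
  inv₁ : Module.Invertible (C.B₁ R) J₁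
  inv : Module.Invertible (C.B R) J
  mem₀ : ∀ a ∈ J₀, C.resB₀ R a ∈ J
  mem₁ : ∀ a ∈ J₁, C.resB₁ R a ∈ J
  loc₀ : ∀ b ∈ J, ∃ n : ℕ, ∃ a ∈ J₀, C.resB₀ R (C.xB R) ^ n * b = C.resB₀ R a
  loc₁ : ∀ b ∈ J, ∃ n : ℕ, ∃ a ∈ J₁, C.resB₁ R (C.yB R) ^ n * b = C.resB₁ R a

/-- A product of an invertible ideal and an invertible module is invertible. -/
theorem invertible_ideal_smul {S N : Type u} [CommRing S] [AddCommGroup N] [Module S N]
    [Module.Invertible S N] (I : Ideal S) [Module.Invertible S I] :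
    Module.Invertible S (I • ⊤ : Submodule S N) := by
  let f : I ⊗[S] N →ₗ[S] N := (TensorProduct.lid S N).toLinearMap ∘ₗ I.subtype.rTensor N
  have hinj : Function.Injective f :=
    (TensorProduct.lid S N).injective.comp
      (Module.Flat.rTensor_preserves_injective_linearMap _ Subtype.val_injective)
  have hrange : LinearMap.range f = (I • ⊤ : Submodule S N) := by
    apply le_antisymm
    · rintro _ ⟨z, rfl⟩
      induction z using TensorProduct.induction_on with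
      | zero => simp
      | tmul a n => exact Submodule.smul_mem_smul a.2 trivial
      | add u v hu hv => rw [map_add]; exact add_mem hu hv
    · rw [Submodule.smul_le]
      exact fun a ha n _ => ⟨⟨a, ha⟩ ⊗ₜ n, rfl⟩
  exact Module.Invertible.congr
    ((LinearEquiv.ofInjective f hinj).trans (LinearEquiv.ofEq _ _ hrange))

/-- A semilinear map with spanning image maps a product onto a spanning set of the product. -/
theorem span_image_smul_top {S S' N N' : Type*} [CommRing S] [CommRing S'] [AddCommGroup N]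
    [Module S N] [AddCommGroup N'] [Module S' N'] {σ : S →+* S'} (f : N →ₛₗ[σ] N')
    (hf : Submodule.span S' (Set.range f) = ⊤) (I : Ideal S) :
    Submodule.span S' (f '' (I • ⊤ : Submodule S N)) = I.map σ • (⊤ : Submodule S' N') := by
  apply le_antisymm
  · rw [Submodule.span_le]
    rintro _ ⟨z, hz, rfl⟩
    refine Submodule.smul_induction_on hz (fun a ha n _ => ?_) (fun u v hu hv => ?_)
    · rw [f.map_smulₛₗ]
      exact Submodule.smul_mem_smul (Ideal.mem_map_of_mem σ ha) trivial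
    · rw [map_add]; exact add_mem hu hv
  · rw [Ideal.map, ← hf, Submodule.span_smul_span, Submodule.span_le]
    intro w hw
    obtain ⟨_, ⟨a, ha, rfl⟩, _, ⟨n, rfl⟩, rfl⟩ := hw
    show σ a • f n ∈ _
    rw [← f.map_smulₛₗ]
    exact Submodule.subset_span ⟨_, Submodule.smul_mem_smul ha trivial, rfl⟩

/-- A set spans a submodule as soon as its image does. -/
theorem span_eq_top_of_le_span_image {S N : Type*} [CommRing S] [AddCommGroup N] [Module S N]
    (P : Submodule S N) (s : Set P) (h : P ≤ Submodule.span S (Subtype.val '' s)) :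
    Submodule.span S s = ⊤ := by
  refine eq_top_iff.2 fun z _ => ?_
  have hz : (z : N) ∈ (Submodule.span S s).map P.subtype := by
    rw [Submodule.map_span]
    exact h z.2
  obtain ⟨w, hw, hwz⟩ := hz
  rwa [← Subtype.ext hwz]

namespace Bundle

variable (E : Bundle C R) (D : IdealPair C R)

theorem ι₀_mem_twist {a : E.M₀} (ha : a ∈ (D.J₀ • ⊤ : Submodule (C.B₀ R) E.M₀)) :
    E.ι₀ a ∈ (D.J • ⊤ : Submodule (C.B R) E.M) := by
  refine Submodule.smul_induction_on ha (fun b hb n _ => ?_) (fun u v hu hv => ?_)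
  · rw [E.ι₀.map_smulₛₗ]
    exact Submodule.smul_mem_smul (D.mem₀ b hb) trivial
  · rw [map_add]; exact add_mem hu hv

theorem ι₁_mem_twist {a : E.M₁} (ha : a ∈ (D.J₁ • ⊤ : Submodule (C.B₁ R) E.M₁)) :
    E.ι₁ a ∈ (D.J • ⊤ : Submodule (C.B R) E.M) := by
  refine Submodule.smul_induction_on ha (fun b hb n _ => ?_) (fun u v hu hv => ?_)
  · rw [E.ι₁.map_smulₛₗ]
    exact Submodule.smul_mem_smul (D.mem₁ b hb) trivial
  · rw [map_add]; exact add_mem hu hv

theorem twist_loc₀ {m : E.M} (hm : m ∈ (D.J • ⊤ : Submodule (C.B R) E.M)) :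
    ∃ n : ℕ, ∃ a ∈ (D.J₀ • ⊤ : Submodule (C.B₀ R) E.M₀),
      C.resB₀ R (C.xB R) ^ n • m = E.ι₀ a := by
  refine Submodule.smul_induction_on hm (fun b hb z _ => ?_) (fun u v hu hv => ?_)
  · obtain ⟨n, a, ha, hab⟩ := D.loc₀ b hb
    obtain ⟨n', z', hz⟩ := E.loc₀ z
    refine ⟨n + n', a • z', Submodule.smul_mem_smul ha trivial, ?_⟩
    rw [E.ι₀.map_smulₛₗ, ← hz, ← hab, smul_smul, smul_smul]
    congr 1
    ring
  · obtain ⟨n, a, ha, hna⟩ := hu
    obtain ⟨n', a', ha', hna'⟩ := hv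
    refine ⟨n + n', C.xB R ^ n' • a + C.xB R ^ n • a',
    add_mem (Submodule.smul_mem _ _ ha) (Submodule.smul_mem _ _ ha'), ?_⟩
    rw [map_add, E.ι₀.map_smulₛₗ, E.ι₀.map_smulₛₗ, ← hna, ← hna', map_pow, map_pow, smul_smul,
    smul_smul, ← pow_add, ← pow_add, smul_add, add_comm n' n]

theorem twist_loc₁ {m : E.M} (hm : m ∈ (D.J • ⊤ : Submodule (C.B R) E.M)) :
    ∃ n : ℕ, ∃ a ∈ (D.J₁ • ⊤ : Submodule (C.B₁ R) E.M₁),
      C.resB₁ R (C.yB R) ^ n • m = E.ι₁ a := by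
  refine Submodule.smul_induction_on hm (fun b hb z _ => ?_) (fun u v hu hv => ?_)
  · obtain ⟨n, a, ha, hab⟩ := D.loc₁ b hb
    obtain ⟨n', z', hz⟩ := E.loc₁ z
    refine ⟨n + n', a • z', Submodule.smul_mem_smul ha trivial, ?_⟩
    rw [E.ι₁.map_smulₛₗ, ← hz, ← hab, smul_smul, smul_smul]
    congr 1
    ring
  · obtain ⟨n, a, ha, hna⟩ := hu
    obtain ⟨n', a', ha', hna'⟩ := hv
    refine ⟨n + n', C.yB R ^ n' • a + C.yB R ^ n • a',
    add_mem (Submodule.smul_mem _ _ ha) (Submodule.smul_mem _ _ ha'), ?_⟩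
    rw [map_add, E.ι₁.map_smulₛₗ, E.ι₁.map_smulₛₗ, ← hna, ← hna', map_pow, map_pow, smul_smul,
    smul_smul, ← pow_add, ← pow_add, smul_add, add_comm n' n]

/-- The modification of a bundle by an ideal pair. -/
def twist : Bundle C R where
  M₀ := (D.J₀ • ⊤ : Submodule (C.B₀ R) E.M₀)
  M₁ := (D.J₁ • ⊤ : Submodule (C.B₁ R) E.M₁)
  M := (D.J • ⊤ : Submodule (C.B R) E.M)
  invertible₀ := haveI := D.inv₀; invertible_ideal_smul D.J₀
  invertible₁ := haveI := D.inv₁; invertible_ideal_smul D.J₁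
  invertible := haveI := D.inv; invertible_ideal_smul D.J
  ι₀ :=
    { toFun := fun a => ⟨E.ι₀ a.1, E.ι₀_mem_twist D a.2⟩
      map_add' := fun a b => Subtype.ext (map_add E.ι₀ a.1 b.1)
      map_smul' := fun c a => Subtype.ext (E.ι₀.map_smulₛₗ c a.1) }
  ι₁ :=
    { toFun := fun a => ⟨E.ι₁ a.1, E.ι₁_mem_twist D a.2⟩
      map_add' := fun a b => Subtype.ext (map_add E.ι₁ a.1 b.1)
      map_smul' := fun c a => Subtype.ext (E.ι₁.map_smulₛₗ c a.1) }
  inj₀ := fun a b h => Subtype.ext (E.inj₀ (congrArg Subtype.val h))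
  inj₁ := fun a b h => Subtype.ext (E.inj₁ (congrArg Subtype.val h))
  loc₀ := fun m => by
    obtain ⟨n, a, ha, h⟩ := E.twist_loc₀ D m.2
    exact ⟨n, ⟨a, ha⟩, Subtype.ext h⟩
  loc₁ := fun m => by
    obtain ⟨n, a, ha, h⟩ := E.twist_loc₁ D m.2
    exact ⟨n, ⟨a, ha⟩, Subtype.ext h⟩

/-- The pullback of a modification is the modification of the pullback. -/
theorem isPullback_twist {φ : R →ₐ[k] R'} {E : Bundle C R} {E' : Bundle C R'}
    (h : IsPullback φ E E') (D : IdealPair C R) (D' : IdealPair C R')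
    (h₀ : D.J₀.map (C.mapB₀ φ) = D'.J₀) (h₁ : D.J₁.map (C.mapB₁ φ) = D'.J₁) :
    IsPullback φ (E.twist D) (E'.twist D') := by
  obtain ⟨f₀, f₁, f, hs₀, hs₁, hf₀, hf₁⟩ := h
  have hm₀ : ∀ a ∈ (D.J₀ • ⊤ : Submodule (C.B₀ R) E.M₀),
      f₀ a ∈ (D'.J₀ • ⊤ : Submodule (C.B₀ R') E'.M₀) := fun a ha => by
    rw [← h₀, ← span_image_smul_top f₀ hs₀]
    exact Submodule.subset_span ⟨a, ha, rfl⟩
  have hm₁ : ∀ a ∈ (D.J₁ • ⊤ : Submodule (C.B₁ R) E.M₁),
      f₁ a ∈ (D'.J₁ • ⊤ : Submodule (C.B₁ R') E'.M₁) := fun a ha => by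
    rw [← h₁, ← span_image_smul_top f₁ hs₁]
    exact Submodule.subset_span ⟨a, ha, rfl⟩
  have hm : ∀ m ∈ (D.J • ⊤ : Submodule (C.B R) E.M),
      f m ∈ (D'.J • ⊤ : Submodule (C.B R') E'.M) := fun m hm => by
    obtain ⟨n, a, ha, hna⟩ := E.twist_loc₀ D hm
    have hu : IsUnit (C.resB₀ R (C.xB R) ^ n) :=
      (IsUnit.of_mul_eq_one _ (C.resB_xy R)).pow n
    obtain ⟨c, hc⟩ := hu.exists_left_inv
    have hma : m = c • E.ι₀ a := by rw [← hna, smul_smul, hc, one_smul]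
    rw [hma, f.map_smulₛₗ, hf₀]
    exact Submodule.smul_mem _ _ (E'.ι₀_mem_twist D' (hm₀ a ha))
  refine ⟨
    { toFun := fun a => ⟨f₀ a.1, hm₀ a.1 a.2⟩
      map_add' := fun a b => Subtype.ext (map_add f₀ a.1 b.1)
      map_smul' := fun c a => Subtype.ext (f₀.map_smulₛₗ c a.1) },
    { toFun := fun a => ⟨f₁ a.1, hm₁ a.1 a.2⟩
      map_add' := fun a b => Subtype.ext (map_add f₁ a.1 b.1)
      map_smul' := fun c a => Subtype.ext (f₁.map_smulₛₗ c a.1) },
    { toFun := fun a => ⟨f a.1, hm a.1 a.2⟩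
      map_add' := fun a b => Subtype.ext (map_add f a.1 b.1)
      map_smul' := fun c a => Subtype.ext (f.map_smulₛₗ c a.1) },
    ?_, ?_, fun a => Subtype.ext (hf₀ a.1), fun a => Subtype.ext (hf₁ a.1)⟩
  · refine span_eq_top_of_le_span_image (D'.J₀ • ⊤ : Submodule (C.B₀ R') E'.M₀) _ ?_
    refine ((span_image_smul_top f₀ hs₀ D.J₀).trans (by rw [h₀])).ge.trans
      (Submodule.span_mono ?_)
    rintro _ ⟨a, ha, rfl⟩
    exact ⟨⟨f₀ a, hm₀ a ha⟩, ⟨⟨a, ha⟩, rfl⟩, rfl⟩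
  · refine span_eq_top_of_le_span_image (D'.J₁ • ⊤ : Submodule (C.B₁ R') E'.M₁) _ ?_
    refine ((span_image_smul_top f₁ hs₁ D.J₁).trans (by rw [h₁])).ge.trans
      (Submodule.span_mono ?_)
    rintro _ ⟨a, ha, rfl⟩
    exact ⟨⟨f₁ a, hm₁ a ha⟩, ⟨⟨a, ha⟩, rfl⟩, rfl⟩

/-- A modification is the tensor product with the modified trivial bundle. -/
theorem isTensor_twist (U : Bundle C R) (e₀ : U.M₀ ≃ₗ[C.B₀ R] C.B₀ R)
    (e₁ : U.M₁ ≃ₗ[C.B₁ R] C.B₁ R) (e : U.M ≃ₗ[C.B R] C.B R)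
    (h₀ : ∀ m, e (U.ι₀ m) = C.resB₀ R (e₀ m)) (h₁ : ∀ m, e (U.ι₁ m) = C.resB₁ R (e₁ m)) :
    IsTensor E (U.twist D) (E.twist D) := by
  have hmem : ∀ {S N V : Type u} [CommRing S] [AddCommGroup N] [Module S N] [AddCommGroup V]
      [Module S V] (I : Ideal S) (f : V ≃ₗ[S] S) (v : V), v ∈ (I • ⊤ : Submodule S V) →
      ∀ n : N, f v • n ∈ (I • ⊤ : Submodule S N) := by
    intro S N V _ _ _ _ _ I f v hv n
    refine Submodule.smul_mem_smul ?_ trivial
    refine Submodule.smul_induction_on hv (fun a ha w _ => ?_) (fun u v hu hv => ?_)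
    · rw [map_smul]; exact I.mul_mem_right _ ha
    · rw [map_add]; exact add_mem hu hv
  refine ⟨LinearMap.mk₂ _ (fun a b => ⟨e₀ b.1 • a, hmem D.J₀ e₀ b.1 b.2 a⟩) ?_ ?_ ?_ ?_,
    LinearMap.mk₂ _ (fun a b => ⟨e₁ b.1 • a, hmem D.J₁ e₁ b.1 b.2 a⟩) ?_ ?_ ?_ ?_,
    LinearMap.mk₂ _ (fun a b => ⟨e b.1 • a, hmem D.J e b.1 b.2 a⟩) ?_ ?_ ?_ ?_, ?_, ?_, ?_, ?_⟩
  all_goals first
    | exact fun a a' b => Subtype.ext (smul_add _ a a')
    | exact fun c a b => Subtype.ext (smul_comm _ c a)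
    | exact fun a b b' => Subtype.ext ((congrArg (· • a) (map_add _ b.1 b'.1)).trans (add_smul _ _ a))
    | exact fun c a b => Subtype.ext ((congrArg (· • a) (map_smul _ c b.1)).trans (mul_smul c _ a))
    | skip
  · refine span_eq_top_of_le_span_image (D.J₀ • ⊤ : Submodule (C.B₀ R) E.M₀) _
      (Submodule.smul_le.2 fun r hr n _ => ?_)
    have hr' : e₀.symm r ∈ (D.J₀ • ⊤ : Submodule (C.B₀ R) U.M₀) := by
      rw [show r = r • (1 : C.B₀ R) from (mul_one r).symm, map_smul]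
      exact Submodule.smul_mem_smul hr trivial
    refine Submodule.subset_span ⟨_, ⟨n, ⟨e₀.symm r, hr'⟩, rfl⟩, ?_⟩
    show e₀ (e₀.symm r) • n = r • n
    rw [e₀.apply_symm_apply]
  · refine span_eq_top_of_le_span_image (D.J₁ • ⊤ : Submodule (C.B₁ R) E.M₁) _
      (Submodule.smul_le.2 fun r hr n _ => ?_)
    have hr' : e₁.symm r ∈ (D.J₁ • ⊤ : Submodule (C.B₁ R) U.M₁) := by
      rw [show r = r • (1 : C.B₁ R) from (mul_one r).symm, map_smul]
      exact Submodule.smul_mem_smul hr trivial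
    refine Submodule.subset_span ⟨_, ⟨n, ⟨e₁.symm r, hr'⟩, rfl⟩, ?_⟩
    show e₁ (e₁.symm r) • n = r • n
    rw [e₁.apply_symm_apply]
  · intro a b
    exact Subtype.ext (by
      show e (U.ι₀ b.1) • E.ι₀ a = E.ι₀ (e₀ b.1 • a)
      rw [h₀, E.ι₀.map_smulₛₗ])
  · intro a b
    exact Subtype.ext (by
      show e (U.ι₁ b.1) • E.ι₁ a = E.ι₁ (e₁ b.1 • a)
      rw [h₁, E.ι₁.map_smulₛₗ])

end Bundle

end FLTAgent.JacRep
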