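import Mathlib

/-!
# The ideal of a point with values in a chart

For `φ : S →ₐ R` the ideal of its graph in the same chart, in the other chart and on the overlap
(`mainIdeal`, `sideIdeal`, `overlapIdeal`), and their functoriality in `R`. Local principality
(`LocPrincipal`) holds for the diagonal of a smooth curve (`locPrincipal_diagonal`) and passes to
the other chart (`locPrincipal_side`).
-/

set_option autoImplicit false
set_option linter.style.haveILetI false
set_option linter.unusedSectionVars false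

noncomputable section

open scoped TensorProduct nonZeroDivisors
open Algebra.TensorProduct (includeRight)

universe u

namespace FLTAgent.JacRep.PointIdeal

/-- Near every maximal ideal the ideal is generated by one of its elements. -/
def LocPrincipal {B : Type u} [CommRing B] (I : Ideal B) : Prop :=
  ∀ m : Ideal B, m.IsMaximal → ∃ s ∉ m, ∃ g ∈ I, ∀ z ∈ I, s * z ∈ Ideal.span {g}

theorem LocPrincipal.map {B B' : Type u} [CommRing B] [CommRing B'] (f : B →+* B') {I : Ideal B}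
    (h : LocPrincipal I) : LocPrincipal (I.map f) := by
  intro m' hm'
  have hne : m'.comap f ≠ ⊤ := by
    rw [Ne, Ideal.comap_eq_top_iff]
    exact hm'.ne_top
  obtain ⟨m, hm, hle⟩ := Ideal.exists_le_maximal _ hne
  obtain ⟨s, hs, g, hg, hsg⟩ := h m hm
  refine ⟨f s, fun hfs => hs (hle hfs), f g, Ideal.mem_map_of_mem f hg, ?_⟩
  suffices h' : I.map f ≤ (Ideal.span {f g}).colon {f s} by
    intro z hz
    have := Submodule.mem_colon_singleton.1 (h' hz)
    rwa [smul_eq_mul, mul_comm] at this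
  rw [Ideal.map_le_iff_le_comap]
  intro z hz
  rw [Ideal.mem_comap, Submodule.mem_colon_singleton, smul_eq_mul, mul_comm, ← map_mul]
  obtain ⟨c, hc⟩ := Ideal.mem_span_singleton'.1 (hsg z hz)
  exact Ideal.mem_span_singleton'.2 ⟨f c, by rw [← map_mul, hc]⟩

/-- A nonzero locally principal ideal of a domain is invertible. -/
theorem LocPrincipal.invertible {B : Type u} [CommRing B] [IsDomain B] {I : Ideal B}
    (h : LocPrincipal I) (hI : I ≠ ⊥) : Module.Invertible B I := by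
  obtain ⟨d, hd, hd0⟩ := Submodule.exists_mem_ne_zero_of_ne_bot hI
  let J : Ideal B := (Ideal.span {d}).colon (I : Set B)
  have hJ : ∀ c ∈ J, ∀ z ∈ I, c * z ∈ Ideal.span {d} := fun c hc z hz =>
    Submodule.mem_colon.1 hc z hz
  have hmem : d ∈ I * J := by
    let K : Ideal B := (I * J).colon {d}
    have hK : K = ⊤ := by
      by_contra hne
      obtain ⟨m, hm, hle⟩ := Ideal.exists_le_maximal _ hne
      obtain ⟨s, hs, g, hg, hsg⟩ := h m hm
      refine hs (hle ?_)
      obtain ⟨c, hc⟩ := Ideal.mem_span_singleton'.1 (hsg d hd)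
      have hcJ : c ∈ J := Submodule.mem_colon.2 fun z hz => by
        obtain ⟨c', hc'⟩ := Ideal.mem_span_singleton'.1 (hsg z hz)
        have hs0 : s ≠ 0 := fun h0 => hs (h0 ▸ zero_mem m)
        refine Ideal.mem_span_singleton'.2 ⟨c', mul_left_cancel₀ hs0 ?_⟩
        calc s * (c' * d) = c' * (c * g) := by rw [hc]; ring
          _ = c * (c' * g) := by ring
          _ = s * (c • z) := by rw [hc', smul_eq_mul]; ring
      refine Submodule.mem_colon_singleton.2 ?_
      rw [smul_eq_mul, ← hc, mul_comm c]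
      exact Ideal.mul_mem_mul hg hcJ
    have h1 : (1 : B) ∈ K := hK ▸ Submodule.mem_top
    simpa using Submodule.mem_colon_singleton.1 h1
  have hle : I * J ≤ Ideal.span {d} := Ideal.mul_le.2 fun z hz c hc => mul_comm c z ▸ hJ c hc z hz
  have heq : I * J = Ideal.span {d} :=
    le_antisymm hle ((Ideal.span_singleton_le_iff_mem _).2 hmem)
  let L := FractionRing B
  have hdL : algebraMap B L d ≠ 0 := fun h0 => hd0 (IsFractionRing.injective B L (by rw [h0, map_zero]))
  let S : Submodule B L := Submodule.map (Algebra.linearMap B L) I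
  let T : Submodule B L :=
    (Submodule.map (Algebra.linearMap B L) J) * Submodule.span B {(algebraMap B L d)⁻¹}
  have hST : S * T = 1 := by
    rw [show S * T = (S * Submodule.map (Algebra.linearMap B L) J) *
      Submodule.span B {(algebraMap B L d)⁻¹} from (mul_assoc _ _ _).symm]
    rw [show S * Submodule.map (Algebra.linearMap B L) J = Submodule.map (Algebra.linearMap B L) (I * J) from
      (Submodule.map_mul I J (Algebra.ofId B L)).symm, heq]
    rw [show Ideal.span {d} = Submodule.span B {d} from rfl, Submodule.map_span,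
      Set.image_singleton, Submodule.span_mul_span, Set.singleton_mul_singleton]
    show Submodule.span B {algebraMap B L d * (algebraMap B L d)⁻¹} = 1
    rw [mul_inv_cancel₀ hdL, Submodule.one_eq_span]
  let U : (Submodule B L)ˣ := Units.mkOfMulEqOne S T hST
  haveI : FaithfulSMul B L :=
    (faithfulSMul_iff_algebraMap_injective B L).2 (IsFractionRing.injective B L)
  haveI : Module.Invertible B (Submodule.map (Algebra.linearMap B L) I) :=
    Module.Invertible.left (Submodule.tensorInvEquiv U)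
  exact Module.Invertible.congr
    (Submodule.equivMapOfInjective (Algebra.linearMap B L) (IsFractionRing.injective B L) I).symm

section Ideals

variable {k : Type u} [Field k] {S T A : Type u} [CommRing S] [CommRing T] [CommRing A]
  [Algebra k S] [Algebra k T] [Algebra k A] (rs : S →ₐ[k] A) (rt : T →ₐ[k] A) (u : S) (v : T)
  {R : Type u} [CommRing R] [Algebra k R] {R' : Type u} [CommRing R'] [Algebra k R']
  (φ : S →ₐ[k] R)

variable (R) in
/-- Base change of a map of charts. -/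
abbrev ext {T : Type u} [CommRing T] [Algebra k T] (f : T →ₐ[k] A) : R ⊗[k] T →+* R ⊗[k] A :=
  (Algebra.TensorProduct.map (AlgHom.id k R) f).toRingHom

/-- The ideal of a point in its own chart. -/
def mainIdeal : Ideal (R ⊗[k] S) := Ideal.span (Set.range fun s => φ s ⊗ₜ[k] 1 - 1 ⊗ₜ[k] s)

/-- The ideal of a point in the other chart. -/
def sideIdeal : Ideal (R ⊗[k] T) :=
  Ideal.span {z | ∃ (b : S) (m : ℕ) (a : T), rs b = rs u ^ m * rt a ∧
    z = φ b ⊗ₜ[k] 1 - (φ u ^ m) ⊗ₜ[k] a}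

/-- The ideal of a point on the overlap. -/
def overlapIdeal : Ideal (R ⊗[k] A) := (mainIdeal φ).map (ext R rs)

theorem diff_mem_mainIdeal (s : S) : φ s ⊗ₜ[k] (1 : S) - (1 : R) ⊗ₜ[k] s ∈ mainIdeal φ :=
  Ideal.subset_span ⟨s, rfl⟩

theorem side_mem_sideIdeal {b : S} {m : ℕ} {a : T} (h : rs b = rs u ^ m * rt a) :
    φ b ⊗ₜ[k] (1 : T) - (φ u ^ m) ⊗ₜ[k] a ∈ sideIdeal rs rt u φ :=
  Ideal.subset_span ⟨b, m, a, h, rfl⟩

theorem mem_overlap_main {z : R ⊗[k] S} (hz : z ∈ mainIdeal φ) :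
    ext R rs z ∈ overlapIdeal rs φ := Ideal.mem_map_of_mem _ hz

theorem diff_mem_overlap (s : S) :
    φ s ⊗ₜ[k] (1 : A) - (1 : R) ⊗ₜ[k] rs s ∈ overlapIdeal rs φ := by
  have := mem_overlap_main rs φ (diff_mem_mainIdeal φ s)
  simpa [map_sub] using this

variable (huv : rs u * rt v = 1)

include huv in
theorem one_sub_mem_sideIdeal :
    (1 : R ⊗[k] T) - φ u ⊗ₜ[k] v ∈ sideIdeal rs rt u φ := by
  have := side_mem_sideIdeal rs rt u φ (b := 1) (m := 1) (a := v) (by rw [map_one, pow_one, huv])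
  simpa [Algebra.TensorProduct.one_def] using this

include huv in
theorem sub_pow_mem (m : ℕ) (z : R ⊗[k] T) :
    z - ((φ u) ⊗ₜ[k] v) ^ m * z ∈ sideIdeal rs rt u φ := by
  rw [← one_sub_mul, ← (show (1 : R ⊗[k] T) ^ m = 1 from one_pow m)]
  exact Ideal.mul_mem_right _ _
    (Ideal.mem_of_dvd _ (sub_dvd_pow_sub_pow (1 : R ⊗[k] T) (φ u ⊗ₜ[k] v) m)
      (one_sub_mem_sideIdeal rs rt u v φ huv))

include huv in
theorem mem_overlap_side {z : R ⊗[k] T} (hz : z ∈ sideIdeal rs rt u φ) :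
    ext R rt z ∈ overlapIdeal rs φ := by
  suffices h : sideIdeal rs rt u φ ≤ (overlapIdeal rs φ).comap (ext R rt) from h hz
  refine Ideal.span_le.2 ?_
  rintro _ ⟨b, m, a, hab, rfl⟩
  show ext R rt (φ b ⊗ₜ[k] 1 - (φ u ^ m) ⊗ₜ[k] a) ∈ overlapIdeal rs φ
  have e : ext R rt (φ b ⊗ₜ[k] 1 - (φ u ^ m) ⊗ₜ[k] a) =
      (φ b ⊗ₜ[k] (1 : A) - (1 : R) ⊗ₜ[k] rs b) -
        (φ (u ^ m) ⊗ₜ[k] (1 : A) - (1 : R) ⊗ₜ[k] rs (u ^ m)) * ((1 : R) ⊗ₜ[k] rt a) := by
    rw [map_sub, sub_mul, Algebra.TensorProduct.tmul_mul_tmul, Algebra.TensorProduct.tmul_mul_tmul,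
      one_mul, mul_one, one_mul, map_pow φ, map_pow rs, ← hab]
    simp
  rw [e]
  exact sub_mem (diff_mem_overlap rs φ b) (Ideal.mul_mem_right _ _ (diff_mem_overlap rs φ _))

/-- An element of the extension of an ideal to a localisation is, up to a power, in its image. -/
theorem exists_pow_mul_mem {B B' : Type u} [CommRing B] [CommRing B'] (f : B →+* B') (w : B)
    (hloc : ∀ z : B', ∃ n : ℕ, ∃ b : B, f w ^ n * z = f b) {I : Ideal B} {z : B'}
    (hz : z ∈ I.map f) : ∃ n : ℕ, ∃ b ∈ I, f w ^ n * z = f b := by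
  induction hz using Submodule.span_induction with
  | mem x hx =>
    obtain ⟨b, hb, rfl⟩ := hx
    exact ⟨0, b, hb, by rw [pow_zero, one_mul]⟩
  | zero => exact ⟨0, 0, zero_mem _, by rw [mul_zero, map_zero]⟩
  | add x y _ _ hx hy =>
    obtain ⟨n, b, hb, h⟩ := hx
    obtain ⟨n', b', hb', h'⟩ := hy
    refine ⟨n + n', w ^ n' * b + w ^ n * b', add_mem (I.mul_mem_left _ hb) (I.mul_mem_left _ hb'), ?_⟩
    rw [map_add, map_mul, map_mul, map_pow, map_pow, ← h, ← h']
    ring
  | smul c x _ hx =>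
    obtain ⟨n, b, hb, h⟩ := hx
    obtain ⟨n', b', h'⟩ := hloc c
    refine ⟨n' + n, b' * b, I.mul_mem_left _ hb, ?_⟩
    rw [map_mul, ← h, ← h', smul_eq_mul]
    ring

/-- Every element of an extended localisation is, up to a power, in the image. -/
theorem exists_pow_mul_ext {T : Type u} [CommRing T] [Algebra k T] (rt : T →ₐ[k] A) (v : T)
    (hloc : ∀ a : A, ∃ (n : ℕ) (b : T), rt v ^ n * a = rt b) (z : R ⊗[k] A) :
    ∃ n : ℕ, ∃ b : R ⊗[k] T, ext R rt ((1 : R) ⊗ₜ[k] v) ^ n * z = ext R rt b := by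
  induction z using TensorProduct.induction_on with
  | zero => exact ⟨0, 0, by rw [mul_zero, map_zero]⟩
  | tmul r a =>
    obtain ⟨n, b, h⟩ := hloc a
    exact ⟨n, r ⊗ₜ b, by simp [h]⟩
  | add x y hx hy =>
    obtain ⟨n, b, h⟩ := hx
    obtain ⟨n', b', h'⟩ := hy
    refine ⟨n + n', ((1 : R) ⊗ₜ[k] v) ^ n' * b + ((1 : R) ⊗ₜ[k] v) ^ n * b', ?_⟩
    rw [map_add, map_mul, map_mul, map_pow, map_pow, ← h, ← h']
    ring

include huv in
theorem loc_overlap_side
    (hlocT : ∀ a : A, ∃ (n : ℕ) (b : T), rt v ^ n * a = rt b) {z : R ⊗[k] A}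
    (hz : z ∈ overlapIdeal rs φ) :
    ∃ n : ℕ, ∃ a ∈ sideIdeal rs rt u φ, ext R rt ((1 : R) ⊗ₜ[k] v) ^ n * z = ext R rt a := by
  suffices h : ∀ w ∈ mainIdeal φ, ∃ n : ℕ, ∃ a ∈ sideIdeal rs rt u φ,
      ext R rt ((1 : R) ⊗ₜ[k] v) ^ n * ext R rs w = ext R rt a by
    have hle : overlapIdeal rs φ ≤ (sideIdeal rs rt u φ).map (ext R rt) := by
      refine Ideal.map_le_iff_le_comap.2 fun w hw => ?_
      obtain ⟨n, a, ha, hna⟩ := h w hw
      have hu : IsUnit (ext R rt ((1 : R) ⊗ₜ[k] v) ^ n) := by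
        refine (IsUnit.of_mul_eq_one (ext R rs ((1 : R) ⊗ₜ[k] u)) ?_).pow n
        simp [mul_comm, huv, Algebra.TensorProduct.one_def]
      obtain ⟨c, hc⟩ := hu.exists_left_inv
      show ext R rs w ∈ (sideIdeal rs rt u φ).map (ext R rt)
      rw [show ext R rs w = c * ext R rt a by rw [← hna, ← mul_assoc, hc, one_mul]]
      exact Ideal.mul_mem_left _ _ (Ideal.mem_map_of_mem _ ha)
    exact exists_pow_mul_mem _ _ (exists_pow_mul_ext rt v hlocT) (hle hz)
  intro w hw
  induction hw using Submodule.span_induction with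
  | mem x hx =>
    obtain ⟨s, rfl⟩ := hx
    obtain ⟨m, a, ha⟩ := hlocT (rs s)
    have hb : rs s = rs u ^ m * rt a := by
      rw [← ha, ← mul_assoc, ← mul_pow, huv, one_pow, one_mul]
    refine ⟨m, ((1 : R) ⊗ₜ[k] v) ^ m * (φ s ⊗ₜ[k] 1 - (φ u ^ m) ⊗ₜ[k] a) -
      ((1 : R ⊗[k] T) - ((φ u) ⊗ₜ[k] v) ^ m) * ((1 : R) ⊗ₜ[k] a), sub_mem
      (Ideal.mul_mem_left _ _ (side_mem_sideIdeal rs rt u φ hb)) ?_, ?_⟩
    · rw [sub_mul, one_mul]
      exact sub_pow_mem rs rt u v φ huv m _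
    · simp only [map_sub, map_mul, map_pow, map_one, AlgHom.toRingHom_eq_coe, RingHom.coe_coe,
        Algebra.TensorProduct.map_tmul, AlgHom.coe_id, id_eq, sub_mul, mul_sub, one_mul,
        Algebra.TensorProduct.tmul_pow, Algebra.TensorProduct.tmul_mul_tmul, one_pow, mul_one]
      rw [ha]
      ring
  | zero => exact ⟨0, 0, zero_mem _, by rw [map_zero, map_zero, mul_zero]⟩
  | add x y _ _ hx hy =>
    obtain ⟨n, b, hb, h⟩ := hx
    obtain ⟨n', b', hb', h'⟩ := hy
    refine ⟨n + n', ((1 : R) ⊗ₜ[k] v) ^ n' * b + ((1 : R) ⊗ₜ[k] v) ^ n * b',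
      add_mem (Ideal.mul_mem_left _ _ hb) (Ideal.mul_mem_left _ _ hb'), ?_⟩
    rw [map_add, map_add, map_mul, map_mul, map_pow, map_pow, ← h, ← h']
    ring
  | smul c x _ hx =>
    obtain ⟨n, b, hb, h⟩ := hx
    obtain ⟨n', b', h'⟩ := exists_pow_mul_ext (R := R) rt v hlocT (ext R rs c)
    refine ⟨n' + n, b' * b, Ideal.mul_mem_left _ _ hb, ?_⟩
    rw [map_mul, ← h, ← h', smul_eq_mul, map_mul]
    ring

theorem map_mainIdeal (ψ : R →ₐ[k] R') :
    (mainIdeal φ).map (Algebra.TensorProduct.map ψ (AlgHom.id k S)).toRingHom =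
      mainIdeal (ψ.comp φ) := by
  rw [mainIdeal, mainIdeal, Ideal.map_span, ← Set.range_comp]
  congr 2
  funext s
  simp

theorem map_sideIdeal (ψ : R →ₐ[k] R') :
    (sideIdeal rs rt u φ).map (Algebra.TensorProduct.map ψ (AlgHom.id k T)).toRingHom =
      sideIdeal rs rt u (ψ.comp φ) := by
  rw [sideIdeal, sideIdeal, Ideal.map_span]
  congr 1
  ext z
  constructor
  · rintro ⟨_, ⟨b, m, a, hab, rfl⟩, rfl⟩
    exact ⟨b, m, a, hab, by simp⟩
  · rintro ⟨b, m, a, hab, rfl⟩
    exact ⟨_, ⟨b, m, a, hab, rfl⟩, by simp⟩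

theorem map_overlapIdeal (ψ : R →ₐ[k] R') :
    (overlapIdeal rs φ).map (Algebra.TensorProduct.map ψ (AlgHom.id k A)).toRingHom =
      overlapIdeal rs (ψ.comp φ) := by
  rw [overlapIdeal, overlapIdeal, Ideal.map_map, ← map_mainIdeal φ ψ, Ideal.map_map]
  congr 1
  refine RingHom.ext fun z => ?_
  induction z using TensorProduct.induction_on with
  | zero => simp
  | tmul r a => simp
  | add a b ha hb => rw [map_add, map_add, ha, hb]

/-- In its chart the ideal of a point is the kernel of evaluation. -/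
theorem sub_mem_mainIdeal (z : R ⊗[k] S) :
    z - Algebra.TensorProduct.lift (AlgHom.id k R) φ (fun _ _ => Commute.all _ _) z ⊗ₜ[k] (1 : S)
      ∈ mainIdeal φ := by
  induction z using TensorProduct.induction_on with
  | zero => simp
  | tmul r s =>
    rw [Algebra.TensorProduct.lift_tmul]
    have : r ⊗ₜ[k] s - (AlgHom.id k R r * φ s) ⊗ₜ[k] (1 : S) =
        -((r ⊗ₜ[k] (1 : S)) * (φ s ⊗ₜ[k] 1 - 1 ⊗ₜ[k] s)) := by
      simp [mul_sub]
    rw [this]
    exact neg_mem (Ideal.mul_mem_left _ _ (diff_mem_mainIdeal φ s))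
  | add x y hx hy =>
    rw [map_add, TensorProduct.add_tmul, add_sub_add_comm]
    exact add_mem hx hy

theorem eval_eq_zero_of_mem {z : R ⊗[k] S} (hz : z ∈ mainIdeal φ) :
    Algebra.TensorProduct.lift (AlgHom.id k R) φ (fun _ _ => Commute.all _ _) z = 0 := by
  suffices h : mainIdeal φ ≤ RingHom.ker
      (Algebra.TensorProduct.lift (AlgHom.id k R) φ (fun _ _ => Commute.all _ _)) from h hz
  refine Ideal.span_le.2 ?_
  rintro _ ⟨s, rfl⟩
  simp [RingHom.mem_ker]

/-- A nonscalar coordinate makes the ideals nonzero. -/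
theorem diff_ne_zero [Nontrivial R] (r : R) {w : S} (hw : ∀ c : k, w ≠ algebraMap k S c) :
    r ⊗ₜ[k] (1 : S) - (1 : R) ⊗ₜ[k] w ≠ 0 := by
  intro h
  have hni : w ∉ Submodule.span k {(1 : S)} := fun hmem => by
    obtain ⟨c, hc⟩ := Submodule.mem_span_singleton.1 hmem
    exact hw c (by rw [← hc, Algebra.algebraMap_eq_smul_one])
  obtain ⟨f, hf, hf1⟩ := Submodule.exists_dual_map_eq_bot_of_notMem hni inferInstance
  have h1 : f 1 = 0 := by
    have : f 1 ∈ (Submodule.span k {(1 : S)}).map f := ⟨1, Submodule.mem_span_singleton_self _, rfl⟩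
    rwa [hf1, Submodule.mem_bot] at this
  have := congrArg ((TensorProduct.rid k R).toLinearMap ∘ₗ f.lTensor R) h
  simp only [map_sub, LinearMap.comp_apply, LinearMap.lTensor_tmul, h1, TensorProduct.tmul_zero,
    map_zero, zero_sub, LinearEquiv.coe_coe, TensorProduct.rid_tmul] at this
  exact hf (smul_eq_zero.1 (neg_eq_zero.1 this) |>.resolve_right one_ne_zero)

end Ideals

section Universal

variable {k : Type u} [Field k] {S : Type u} [CommRing S] [Algebra k S]

/-- Maximal ideals of finitely generated algebras over an algebraically closed field are rational. -/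
theorem exists_sub_algebraMap_mem [IsAlgClosed k] [Algebra.FiniteType k S] {m : Ideal S}
    (hm : m.IsMaximal) (z : S) : ∃ c : k, z - algebraMap k S c ∈ m := by
  letI := Ideal.Quotient.field m
  haveI : Algebra.FiniteType k (S ⧸ m) :=
    Algebra.FiniteType.of_surjective (Ideal.Quotient.mkₐ k m) Ideal.Quotient.mk_surjective
  haveI : Module.Finite k (S ⧸ m) := finite_of_finite_type_of_isJacobsonRing k (S ⧸ m)
  haveI : Algebra.IsAlgebraic k (S ⧸ m) := Algebra.IsAlgebraic.of_finite k _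
  obtain ⟨c, hc⟩ := (IsAlgClosed.algebraMap_bijective_of_isIntegral (k := k) (K := S ⧸ m)).2
    (Ideal.Quotient.mk m z)
  exact ⟨c, Ideal.Quotient.eq.1 hc.symm⟩

/-- The ideal of the diagonal of a smooth curve is locally principal. -/
theorem locPrincipal_diagonal [IsAlgClosed k] [IsDedekindDomain S] [Algebra.FiniteType k S] :
    LocPrincipal (mainIdeal (AlgHom.id k S)) := by
  haveI : Algebra.FiniteType k (S ⊗[k] S) :=
    Algebra.FiniteType.trans (R := k) (S := S) (A := S ⊗[k] S) ‹_›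
      (Algebra.FiniteType.baseChange S)
  haveI : IsNoetherianRing (S ⊗[k] S) := Algebra.FiniteType.isNoetherianRing k _
  intro m hm
  set J := mainIdeal (AlgHom.id k S) with hJdef
  by_cases hJm : J ≤ m
  swap
  · obtain ⟨s, hs, hsm⟩ := SetLike.not_le_iff_exists.1 hJm
    exact ⟨s, hsm, s, hs, fun z _ => Ideal.mem_span_singleton'.2 ⟨z, mul_comm z s⟩⟩
  let P : Ideal S := m.comap (includeRight : S →ₐ[k] S ⊗[k] S)
  have hP : P.IsMaximal := by
    haveI := hm
    letI := Ideal.Quotient.field m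
    refine Ideal.Quotient.maximal_of_isField _ ?_
    let f : S ⧸ P →+* (S ⊗[k] S) ⧸ m :=
      Ideal.quotientMap m (includeRight : S →ₐ[k] S ⊗[k] S).toRingHom le_rfl
    have hf : Function.Bijective f := by
      refine ⟨Ideal.quotientMap_injective, fun q => ?_⟩
      obtain ⟨z, rfl⟩ := Ideal.Quotient.mk_surjective q
      obtain ⟨c, hc⟩ := exists_sub_algebraMap_mem (k := k) hm z
      refine ⟨Ideal.Quotient.mk P (algebraMap k S c), ?_⟩
      show Ideal.Quotient.mk m (includeRight (algebraMap k S c)) = _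
      rw [AlgHom.commutes]
      exact (Ideal.Quotient.eq.2 hc).symm
    exact (RingEquiv.ofBijective f hf).toMulEquiv.isField (Field.toIsField _)
  have hdiff : ∀ s : S, s ⊗ₜ[k] (1 : S) - (1 : S) ⊗ₜ[k] s ∈ m := fun s =>
    hJm (diff_mem_mainIdeal (AlgHom.id k S) s)
  have hPm : ∀ s : S, s ∉ P → s ⊗ₜ[k] (1 : S) ∉ m := fun s hs h =>
    hs (by simpa [P] using sub_mem h (hdiff s))
  obtain ⟨t, htP, hu⟩ : ∃ t ∈ P, ∀ z ∈ P, ∃ u ∉ P, u * z ∈ Ideal.span {t} := by
    by_cases hP0 : P = ⊥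
    · exact ⟨0, zero_mem _, fun z hz => ⟨1, (Ideal.ne_top_iff_one _).1 hP.ne_top,
        by rw [one_mul]; rw [hP0, Ideal.mem_bot] at hz; rw [hz]; exact zero_mem _⟩⟩
    · haveI := hP
      obtain ⟨t, htP, ht2⟩ : ∃ t ∈ P, t ∉ P ^ 2 :=
        SetLike.exists_of_lt (by simpa using Ideal.pow_succ_lt_pow hP0 1)
      have hle : Ideal.span {t} ≤ P := (Ideal.span_singleton_le_iff_mem _).2 htP
      obtain ⟨Q, hQ⟩ := Ideal.dvd_iff_le.2 hle
      obtain ⟨u, huQ, huP⟩ : ∃ u ∈ Q, u ∉ P := by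
        by_contra hne
        push Not at hne
        refine ht2 ?_
        have : t ∈ P * Q := hQ ▸ Ideal.mem_span_singleton_self t
        rw [pow_two]
        exact Ideal.mul_mono le_rfl hne this
      exact ⟨t, htP, fun z hz => ⟨u, huP, by rw [hQ, mul_comm P]; exact Ideal.mul_mem_mul huQ hz⟩⟩
  set δ : S ⊗[k] S := t ⊗ₜ[k] 1 - 1 ⊗ₜ[k] t with hδ
  have hδJ : δ ∈ J := diff_mem_mainIdeal (AlgHom.id k S) t
  have hstep : J ≤ Ideal.span {δ} ⊔ m * J := by
    refine Ideal.span_le.2 ?_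
    rintro _ ⟨s, rfl⟩
    obtain ⟨c, hc⟩ := exists_sub_algebraMap_mem (k := k) hP s
    obtain ⟨w, hwP, hws⟩ := hu _ hc
    obtain ⟨a, ha⟩ := Ideal.mem_span_singleton'.1 hws
    show (AlgHom.id k S) s ⊗ₜ[k] (1 : S) - 1 ⊗ₜ[k] s ∈ _
    rw [AlgHom.id_apply]
    -- the derivative of `w * (s - c) = a * t`
    set X := s ⊗ₜ[k] (1 : S) - 1 ⊗ₜ[k] s
    set W := w ⊗ₜ[k] (1 : S) - 1 ⊗ₜ[k] w
    set D := a ⊗ₜ[k] (1 : S) - 1 ⊗ₜ[k] a
    have key : (w ⊗ₜ[k] (1 : S)) * X =
        (a ⊗ₜ[k] (1 : S)) * δ + ((1 : S) ⊗ₜ[k] t) * D - ((1 : S) ⊗ₜ[k] (s - algebraMap k S c)) * W := by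
      have e1 : (w * (s - algebraMap k S c)) ⊗ₜ[k] (1 : S) = (a * t) ⊗ₜ[k] (1 : S) := by rw [ha]
      have e2 : (1 : S) ⊗ₜ[k] (w * (s - algebraMap k S c)) = (1 : S) ⊗ₜ[k] (a * t) := by rw [ha]
      have e3 : (w * algebraMap k S c) ⊗ₜ[k] (1 : S) = w ⊗ₜ[k] algebraMap k S c := by
        rw [mul_comm, ← Algebra.smul_def, TensorProduct.smul_tmul, ← Algebra.algebraMap_eq_smul_one]
      simp only [X, W, D, δ, mul_sub, TensorProduct.sub_tmul, TensorProduct.tmul_sub,
        Algebra.TensorProduct.tmul_mul_tmul, one_mul, mul_one, sub_mul] at e1 e2 ⊢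
      rw [e3] at e1
      rw [mul_comm w (algebraMap k S c)] at e2
      linear_combination (norm := skip) e1 - e2
      simp only [mul_comm t a, mul_comm s w]
      abel
    have hmem : (w ⊗ₜ[k] (1 : S)) * X ∈ Ideal.span {δ} ⊔ m * J := by
      rw [key]
      refine sub_mem (add_mem ?_ ?_) ?_
      · exact Submodule.mem_sup_left (Ideal.mul_mem_left _ _ (Ideal.mem_span_singleton_self δ))
      · exact Submodule.mem_sup_right (Ideal.mul_mem_mul htP (diff_mem_mainIdeal (AlgHom.id k S) a))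
      · exact Submodule.mem_sup_right (Ideal.mul_mem_mul hc (diff_mem_mainIdeal (AlgHom.id k S) w))
    -- `w ⊗ 1` is invertible modulo `m`
    obtain ⟨q, i, hi, hq⟩ := hm.exists_inv (hPm w hwP)
    rw [show X = q * ((w ⊗ₜ[k] (1 : S)) * X) + i * X by rw [← mul_assoc, ← add_mul, hq, one_mul]]
    exact add_mem (Ideal.mul_mem_left _ _ hmem)
      (Submodule.mem_sup_right (Ideal.mul_mem_mul hi (diff_mem_mainIdeal (AlgHom.id k S) s)))
  let N : Submodule (S ⊗[k] S) ((S ⊗[k] S) ⧸ Ideal.span {δ}) :=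
    Submodule.map (Submodule.mkQ (Ideal.span {δ})) J
  obtain ⟨r, hr, hr0⟩ := Submodule.exists_sub_one_mem_and_smul_eq_zero_of_fg_of_le_smul m N
    ((IsNoetherian.noetherian J).map _) (by
      refine (Submodule.map_mono hstep).trans ?_
      rw [Submodule.map_sup, Submodule.mkQ_map_self, bot_sup_eq]
      exact (Submodule.map_smul'' m J _).le)
  refine ⟨r, fun hrm => (Ideal.ne_top_iff_one _).1 hm.ne_top ?_, δ, hδJ, fun z hz => ?_⟩
  · simpa using sub_mem hrm hr
  · have h0 := hr0 _ ⟨z, hz, rfl⟩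
    rwa [← map_smul, Submodule.mkQ_apply, Submodule.Quotient.mk_eq_zero] at h0

end Universal

section Side

variable {k : Type u} [Field k] {S T A : Type u} [CommRing S] [CommRing T] [CommRing A]
  [Algebra k S] [Algebra k T] [Algebra k A] {rs : S →ₐ[k] A} {rt : T →ₐ[k] A} {u : S} {v : T}
  {R : Type u} [CommRing R] [Algebra k R] {φ : S →ₐ[k] R}

/-- Local principality passes from the chart of the point to the other chart. -/
theorem locPrincipal_side [IsNoetherianRing (R ⊗[k] T)] (huv : rs u * rt v = 1)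
    (hlocT : ∀ a : A, ∃ (n : ℕ) (b : T), rt v ^ n * a = rt b) (hinj : Function.Injective rt)
    (h : LocPrincipal (mainIdeal φ)) : LocPrincipal (sideIdeal rs rt u φ) := by
  classical
  intro m hm
  set I := sideIdeal rs rt u φ
  set f := ext R rt
  set V : R ⊗[k] T := (1 : R) ⊗ₜ[k] v
  by_cases hIm : I ≤ m
  swap
  · obtain ⟨s, hs, hsm⟩ := SetLike.not_le_iff_exists.1 hIm
    exact ⟨s, hsm, s, hs, fun z _ => Ideal.mem_span_singleton'.2 ⟨z, mul_comm z s⟩⟩
  have hf : Function.Injective f := by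
    show Function.Injective (TensorProduct.map LinearMap.id rt.toLinearMap)
    exact Module.Flat.lTensor_preserves_injective_linearMap _ hinj
  have hVm : V ∉ m := by
    intro hV
    refine (Ideal.ne_top_iff_one _).1 hm.ne_top ?_
    have h1 : (φ u ⊗ₜ[k] v : R ⊗[k] T) ∈ m := by
      have := Ideal.mul_mem_left m (φ u ⊗ₜ[k] (1 : T)) hV
      simpa [V] using this
    simpa using add_mem (hIm (one_sub_mem_sideIdeal rs rt u v φ huv)) h1
  have hne : m.map f ≠ ⊤ := by
    intro htop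
    obtain ⟨n, b, hb, hnb⟩ := exists_pow_mul_mem f V (exists_pow_mul_ext rt v hlocT)
      (htop ▸ Submodule.mem_top : (1 : R ⊗[k] A) ∈ m.map f)
    rw [mul_one, ← map_pow] at hnb
    exact hVm (hm.isPrime.mem_of_pow_mem n (hf hnb ▸ hb))
  obtain ⟨m', hm', hle⟩ := Ideal.exists_le_maximal _ hne
  have hcomap : m'.comap f = m :=
    (hm.eq_of_le (by rw [Ne, Ideal.comap_eq_top_iff]; exact hm'.ne_top)
      (Ideal.map_le_iff_le_comap.1 hle)).symm
  obtain ⟨s, hs, g, hg, hsg⟩ := (h.map (ext R rs)) m' hm'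
  obtain ⟨N, s₁, hs₁⟩ := exists_pow_mul_ext (R := R) rt v hlocT s
  obtain ⟨n, g₁, hg₁, hng₁⟩ := loc_overlap_side rs rt u v φ huv hlocT hg
  have hVu : IsUnit (f V) := IsUnit.of_mul_eq_one (ext R rs ((1 : R) ⊗ₜ[k] u))
    (by simp [f, V, mul_comm, huv, Algebra.TensorProduct.one_def])
  obtain ⟨G, hG⟩ := IsNoetherian.noetherian I
  have hbound : ∀ z ∈ I, ∃ M : ℕ, V ^ M * (s₁ * z) ∈ Ideal.span {g₁} := by
    intro z hz
    obtain ⟨c, hc⟩ := Ideal.mem_span_singleton'.1 (hsg _ (mem_overlap_side rs rt u v φ huv hz))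
    obtain ⟨p, c₁, hc₁⟩ := exists_pow_mul_ext (R := R) rt v hlocT c
    refine ⟨p + n, Ideal.mem_span_singleton'.2 ⟨V ^ N * c₁, hf ?_⟩⟩
    simp only [map_mul, map_pow]
    rw [← hs₁, ← hc₁, ← hng₁]
    calc f V ^ N * (f V ^ p * c) * (f V ^ n * g) = f V ^ (N + p + n) * (c * g) := by ring
      _ = f V ^ (p + n) * (f V ^ N * s * f z) := by rw [hc]; ring
  choose M hM using fun z : G => hbound z.1 (hG ▸ Ideal.subset_span z.2)
  set M₀ := Finset.univ.sup M
  refine ⟨V ^ M₀ * s₁, fun hmem => ?_, g₁, hg₁, ?_⟩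
  · rcases hm.isPrime.mem_or_mem hmem with h1 | h1
    · exact hVm (hm.isPrime.mem_of_pow_mem _ h1)
    · refine hs ?_
      have h2 : f s₁ ∈ m' := by
        rw [← Ideal.mem_comap, hcomap]
        exact h1
      rw [← hs₁] at h2
      exact (Ideal.unit_mul_mem_iff_mem _ (hVu.pow N)).1 h2
  · suffices hI : I ≤ (Ideal.span {g₁}).colon {V ^ M₀ * s₁} by
      intro z hz
      have := Submodule.mem_colon_singleton.1 (hI hz)
      rwa [smul_eq_mul, mul_comm] at this
    rw [← hG, Ideal.span_le]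
    intro z hz
    rw [SetLike.mem_coe, Submodule.mem_colon_singleton, smul_eq_mul, mul_comm, mul_assoc]
    obtain ⟨e, he⟩ : ∃ e, M₀ = e + M ⟨z, hz⟩ :=
      ⟨M₀ - M ⟨z, hz⟩, by have := Finset.le_sup (f := M) (Finset.mem_univ ⟨z, hz⟩); omega⟩
    rw [he, pow_add, mul_assoc]
    exact Ideal.mul_mem_left _ _ (hM ⟨z, hz⟩)

end Side

end FLTAgent.JacRep.PointIdeal
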