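import Mathlib
import Fermat.Agent.JacRep.Degree.Basic
import Fermat.Agent.JacRep.Degree.Point

/-!
# Basic facts on a cover, and the ideal pair of a point

The charts of a cover are domains of finite type, Dedekind over an algebraically closed field,
and stay domains over a domain (`isDomain_B₀`, `isDomain_B₁`, `isDomain_B`). The ideals of a
point with values in a domain are locally principal (`locPrincipal_main₀`, `locPrincipal_side₀`,
from the diagonal of the smooth curve) and form the pairs `point₀`, `point₁`; over the overlap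
the two descriptions agree (`sideIdeal_res₀`, `sideIdeal_res₁`).
-/

set_option autoImplicit false
set_option linter.style.haveILetI false
set_option linter.unusedSectionVars false

noncomputable section

open scoped TensorProduct nonZeroDivisors Polynomial
open FLTAgent.JacRep.PointIdeal

universe u

namespace FLTAgent.JacRep.Cover

variable {k : Type u} [Field k] (C : Cover k)

theorem exists_pow₀ (a : C.A) : ∃ (n : ℕ) (b : C.A₀), C.res₀ C.x ^ n * a = C.res₀ b := by
  letI := C.res₀.toRingHom.toAlgebra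
  haveI : IsLocalization.Away C.x C.A := C.away₀
  obtain ⟨n, b, h⟩ := IsLocalization.Away.surj C.x a
  exact ⟨n, b, by rw [mul_comm]; exact h⟩

theorem exists_pow₁ (a : C.A) : ∃ (n : ℕ) (b : C.A₁), C.res₁ C.y ^ n * a = C.res₁ b := by
  letI := C.res₁.toRingHom.toAlgebra
  haveI : IsLocalization.Away C.y C.A := C.away₁
  obtain ⟨n, b, h⟩ := IsLocalization.Away.surj C.y a
  exact ⟨n, b, by rw [mul_comm]; exact h⟩

theorem y_mul_x : C.res₁ C.y * C.res₀ C.x = 1 := by rw [mul_comm, C.x_mul_y]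

theorem isDomain₀ : IsDomain C.A₀ := by
  haveI := C.dedekind₀ (AlgebraicClosure k)
  exact Function.Injective.isDomain
    (Algebra.TensorProduct.includeRight : C.A₀ →ₐ[k] AlgebraicClosure k ⊗[k] C.A₀).toRingHom
    (Algebra.TensorProduct.includeRight_injective
      (algebraMap k (AlgebraicClosure k)).injective)

theorem isDomain₁ : IsDomain C.A₁ := by
  haveI := C.dedekind₁ (AlgebraicClosure k)
  exact Function.Injective.isDomain
    (Algebra.TensorProduct.includeRight : C.A₁ →ₐ[k] AlgebraicClosure k ⊗[k] C.A₁).toRingHom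
    (Algebra.TensorProduct.includeRight_injective
      (algebraMap k (AlgebraicClosure k)).injective)

theorem x_ne_zero : C.x ≠ 0 := fun h => C.base_x (by rw [h, map_zero])

theorem res₀_injective : Function.Injective C.res₀ := by
  haveI := C.isDomain₀
  letI := C.res₀.toRingHom.toAlgebra
  haveI : IsLocalization.Away C.x C.A := C.away₀
  exact IsLocalization.injective C.A
    (powers_le_nonZeroDivisors_of_noZeroDivisors C.x_ne_zero)

theorem nontrivial_A : Nontrivial C.A := by
  haveI := C.isDomain₀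
  exact C.res₀_injective.nontrivial

theorem y_ne_zero : C.y ≠ 0 := fun h => by
  haveI := C.nontrivial_A
  have := C.x_mul_y
  rw [h, map_zero, mul_zero] at this
  exact zero_ne_one this

theorem res₁_injective : Function.Injective C.res₁ := by
  haveI := C.isDomain₁
  letI := C.res₁.toRingHom.toAlgebra
  haveI : IsLocalization.Away C.y C.A := C.away₁
  exact IsLocalization.injective C.A
    (powers_le_nonZeroDivisors_of_noZeroDivisors C.y_ne_zero)

theorem x_not_scalar (c : k) : C.x ≠ algebraMap k C.A₀ c := by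
  intro h
  have hc : c = C.base C.x := by rw [h, AlgHom.commutes]; rfl
  have hn : Nonempty (Fin C.rank) := by
    by_contra hne
    rw [not_nonempty_iff] at hne
    haveI := C.isDomain₀
    obtain ⟨w, hw⟩ := C.basis₀_bijective.2 1
    simp at hw
  obtain ⟨i⟩ := hn
  have h0 := C.pt_x i
  rw [h, AlgHom.commutes] at h0
  exact C.base_x (hc ▸ h0)

theorem y_not_scalar (c : k) : C.y ≠ algebraMap k C.A₁ c := by
  intro h
  have h1 : C.res₀ (c • C.x) = C.res₀ 1 := by
    rw [map_one, map_smul, Algebra.smul_def, ← C.x_mul_y, h, AlgHom.commutes, mul_comm]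
  have h2 := C.res₀_injective h1
  rcases eq_or_ne c 0 with hc | hc
  · haveI := C.isDomain₀
    rw [hc, zero_smul] at h2
    exact zero_ne_one h2
  · refine C.x_not_scalar c⁻¹ ?_
    rw [Algebra.algebraMap_eq_smul_one, ← h2, smul_smul, inv_mul_cancel₀ hc, one_smul]

theorem finiteType_of_basis {S : Type u} [CommRing S] [Algebra k S] (t : S) {n : ℕ} (b : Fin n → S)
    (h : Function.Surjective fun c : Fin n → k[X] => ∑ i, Polynomial.aeval t (c i) * b i) :
    Algebra.FiniteType k S := by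
  classical
  refine ⟨⟨insert t (Finset.univ.image b), eq_top_iff.2 fun z _ => ?_⟩⟩
  obtain ⟨c, rfl⟩ := h z
  refine Subalgebra.sum_mem _ fun i _ => mul_mem ?_ (Algebra.subset_adjoin (by simp))
  exact SetLike.le_def.1 (Algebra.adjoin_mono (by simp : ({t} : Set S) ⊆ _))
    (Polynomial.aeval_mem_adjoin_singleton k t)

theorem finiteType₀ : Algebra.FiniteType k C.A₀ :=
  finiteType_of_basis C.x C.basis₀ C.basis₀_bijective.2

theorem finiteType₁ : Algebra.FiniteType k C.A₁ :=
  finiteType_of_basis C.y C.basis₁ C.basis₁_bijective.2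

theorem isNoetherian_tensor {S T : Type u} [CommRing S] [CommRing T] [Algebra k S] [Algebra k T]
    [Algebra.FiniteType k S] [Algebra.FiniteType k T] : IsNoetherianRing (S ⊗[k] T) := by
  haveI : Algebra.FiniteType k (S ⊗[k] T) :=
    Algebra.FiniteType.trans (R := k) (S := S) (A := S ⊗[k] T) ‹_›
      (Algebra.FiniteType.baseChange S)
  exact Algebra.FiniteType.isNoetherianRing k _

theorem dedekind_of_ringEquiv {B B' : Type u} [CommRing B] [CommRing B'] [IsDedekindDomain B]
    (e : B ≃+* B') : IsDedekindDomain B' := by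
  haveI : IsDomain B' := Function.Injective.isDomain e.symm.toRingHom e.symm.injective
  haveI : IsNoetherianRing B' := isNoetherianRing_of_ringEquiv B e
  haveI : IsIntegrallyClosed B' := IsIntegrallyClosed.of_equiv e
  haveI : Ring.DimensionLEOne B' := ⟨fun {p} hp0 hp => by
    haveI := hp
    have hm : (p.comap e.toRingHom).IsMaximal :=
      Ideal.IsPrime.isMaximal (Ideal.IsPrime.comap _) fun h => hp0 (by
        rw [← Ideal.map_comap_of_surjective e.toRingHom e.surjective p, h, Ideal.map_bot])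
    rw [← Ideal.map_comap_of_surjective e.toRingHom e.surjective p]
    exact Ideal.map_isMaximal_of_equiv (E := B ≃+* B') e (p := p.comap e.toRingHom)⟩
  exact { }

theorem isDedekind₀ [IsAlgClosed k] : IsDedekindDomain C.A₀ := by
  haveI := C.dedekind₀ k
  haveI := C.isDomain₀
  exact dedekind_of_ringEquiv (Algebra.TensorProduct.lid k C.A₀).toRingEquiv

theorem isDedekind₁ [IsAlgClosed k] : IsDedekindDomain C.A₁ := by
  haveI := C.dedekind₁ k
  haveI := C.isDomain₁
  exact dedekind_of_ringEquiv (Algebra.TensorProduct.lid k C.A₁).toRingEquiv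

variable (R : Type u) [CommRing R] [Algebra k R]

theorem isDomain_tensor {S : Type u} [CommRing S] [Algebra k S] [IsDomain R]
    (hS : ∀ (K : Type u) [Field K] [IsAlgClosed K] [Algebra k K], IsDomain (K ⊗[k] S)) :
    IsDomain (R ⊗[k] S) := by
  haveI := hS (AlgebraicClosure (FractionRing R))
  let f : R →ₐ[k] AlgebraicClosure (FractionRing R) :=
    (IsScalarTower.toAlgHom k (FractionRing R) (AlgebraicClosure (FractionRing R))).comp
      (IsScalarTower.toAlgHom k R (FractionRing R))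
  have hf : Function.Injective f :=
    (algebraMap (FractionRing R) (AlgebraicClosure (FractionRing R))).injective.comp
      (IsFractionRing.injective R (FractionRing R))
  refine Function.Injective.isDomain (Algebra.TensorProduct.map f (AlgHom.id k S)).toRingHom ?_
  show Function.Injective (TensorProduct.map f.toLinearMap LinearMap.id)
  exact Module.Flat.rTensor_preserves_injective_linearMap _ hf

theorem isDomain_B₀ [IsDomain R] : IsDomain (C.B₀ R) :=
  isDomain_tensor R fun K _ _ _ => haveI := C.dedekind₀ K; inferInstance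

theorem isDomain_B₁ [IsDomain R] : IsDomain (C.B₁ R) :=
  isDomain_tensor R fun K _ _ _ => haveI := C.dedekind₁ K; inferInstance

theorem resB₀_injective_flat : Function.Injective (C.resB₀ R) := by
  show Function.Injective (TensorProduct.map LinearMap.id C.res₀.toLinearMap)
  exact Module.Flat.lTensor_preserves_injective_linearMap _ C.res₀_injective

theorem resB₁_injective_flat : Function.Injective (C.resB₁ R) := by
  show Function.Injective (TensorProduct.map LinearMap.id C.res₁.toLinearMap)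
  exact Module.Flat.lTensor_preserves_injective_linearMap _ C.res₁_injective

theorem exists_powB₀ (z : C.B R) :
    ∃ (n : ℕ) (b : C.B₀ R), C.resB₀ R (C.xB R) ^ n * z = C.resB₀ R b :=
  exists_pow_mul_ext (R := R) C.res₀ C.x C.exists_pow₀ z

theorem exists_powB₁ (z : C.B R) :
    ∃ (n : ℕ) (b : C.B₁ R), C.resB₁ R (C.yB R) ^ n * z = C.resB₁ R b :=
  exists_pow_mul_ext (R := R) C.res₁ C.y C.exists_pow₁ z

theorem isDomain_B [IsDomain R] : IsDomain (C.B R) := by
  haveI := C.isDomain_B₀ R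
  haveI : Nontrivial (C.B R) := (C.resB₀_injective_flat R).nontrivial
  have hu : IsUnit (C.resB₀ R (C.xB R)) := IsUnit.of_mul_eq_one _ (C.resB_xy R)
  haveI : NoZeroDivisors (C.B R) := ⟨fun {a b} hab => by
    obtain ⟨n, a', ha⟩ := C.exists_powB₀ R a
    obtain ⟨m, b', hb⟩ := C.exists_powB₀ R b
    have h : C.resB₀ R (a' * b') = C.resB₀ R 0 := by
      rw [map_mul, ← ha, ← hb, map_zero, mul_mul_mul_comm, hab, mul_zero]
    rcases mul_eq_zero.1 (C.resB₀_injective_flat R h) with h | h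
    · left
      rw [h, map_zero] at ha
      exact (IsUnit.mul_right_eq_zero (hu.pow n)).1 ha
    · right
      rw [h, map_zero] at hb
      exact (IsUnit.mul_right_eq_zero (hu.pow m)).1 hb⟩
  exact NoZeroDivisors.to_isDomain _

variable {R}

theorem main₀_ne_bot [Nontrivial R] (φ : C.A₀ →ₐ[k] R) : mainIdeal φ ≠ ⊥ := fun h =>
  diff_ne_zero (φ C.x) C.x_not_scalar ((Submodule.eq_bot_iff _).1 h _ (diff_mem_mainIdeal φ C.x))

theorem main₁_ne_bot [Nontrivial R] (φ : C.A₁ →ₐ[k] R) : mainIdeal φ ≠ ⊥ := fun h =>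
  diff_ne_zero (φ C.y) C.y_not_scalar ((Submodule.eq_bot_iff _).1 h _ (diff_mem_mainIdeal φ C.y))

theorem side₀_ne_bot [IsDomain R] (φ : C.A₀ →ₐ[k] R) :
    sideIdeal C.res₀ C.res₁ C.x φ ≠ ⊥ := by
  haveI := C.isDomain_B₁ R
  intro h
  have h1 := (Submodule.eq_bot_iff _).1 h _
    (one_sub_mem_sideIdeal C.res₀ C.res₁ C.x C.y φ C.x_mul_y)
  rcases eq_or_ne (φ C.x) 0 with hx | hx
  · rw [hx, TensorProduct.zero_tmul, sub_zero] at h1
    exact one_ne_zero h1
  · haveI := C.isDomain_B₀ R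
    -- scale the identity `1 = φ x ⊗ y` to the overlap
    have h2 : C.resB₀ R (φ C.x ⊗ₜ[k] (1 : C.A₀) - (1 : R) ⊗ₜ[k] C.x) = 0 := by
      have h3 := congrArg (fun z => C.resB₁ R z * C.resB₀ R (C.xB R)) h1
      simp only [map_sub, map_one, map_zero, zero_mul, sub_mul, one_mul, Cover.resB₀, Cover.resB₁,
        Cover.xB, AlgHom.toRingHom_eq_coe, RingHom.coe_coe, Algebra.TensorProduct.map_tmul,
        AlgHom.coe_id, id_eq, Algebra.TensorProduct.tmul_mul_tmul, mul_one, C.y_mul_x] at h3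
      rw [map_sub, Cover.resB₀]
      simp only [AlgHom.toRingHom_eq_coe, RingHom.coe_coe, Algebra.TensorProduct.map_tmul,
        AlgHom.coe_id, id_eq, map_one]
      rw [← neg_sub, h3, neg_zero]
    exact diff_ne_zero (φ C.x) C.x_not_scalar (C.resB₀_injective_flat R (h2.trans (map_zero _).symm))

theorem side₁_ne_bot [IsDomain R] (φ : C.A₁ →ₐ[k] R) :
    sideIdeal C.res₁ C.res₀ C.y φ ≠ ⊥ := by
  haveI := C.isDomain_B₀ R
  intro h
  have h1 := (Submodule.eq_bot_iff _).1 h _
    (one_sub_mem_sideIdeal C.res₁ C.res₀ C.y C.x φ C.y_mul_x)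
  rcases eq_or_ne (φ C.y) 0 with hx | hx
  · rw [hx, TensorProduct.zero_tmul, sub_zero] at h1
    exact one_ne_zero h1
  · haveI := C.isDomain_B₁ R
    have h2 : C.resB₁ R (φ C.y ⊗ₜ[k] (1 : C.A₁) - (1 : R) ⊗ₜ[k] C.y) = 0 := by
      have h3 := congrArg (fun z => C.resB₀ R z * C.resB₁ R (C.yB R)) h1
      simp only [map_sub, map_one, map_zero, zero_mul, sub_mul, one_mul, Cover.resB₀, Cover.resB₁,
        Cover.yB, AlgHom.toRingHom_eq_coe, RingHom.coe_coe, Algebra.TensorProduct.map_tmul,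
        AlgHom.coe_id, id_eq, Algebra.TensorProduct.tmul_mul_tmul, mul_one, C.x_mul_y] at h3
      rw [map_sub, Cover.resB₁]
      simp only [AlgHom.toRingHom_eq_coe, RingHom.coe_coe, Algebra.TensorProduct.map_tmul,
        AlgHom.coe_id, id_eq, map_one]
      rw [← neg_sub, h3, neg_zero]
    exact diff_ne_zero (φ C.y) C.y_not_scalar (C.resB₁_injective_flat R (h2.trans (map_zero _).symm))

theorem overlap₀_ne_bot [Nontrivial R] (φ : C.A₀ →ₐ[k] R) : overlapIdeal C.res₀ φ ≠ ⊥ := fun h =>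
  C.main₀_ne_bot φ ((Ideal.map_eq_bot_iff_of_injective (C.resB₀_injective_flat R)).1 h)

theorem overlap₁_ne_bot [Nontrivial R] (φ : C.A₁ →ₐ[k] R) : overlapIdeal C.res₁ φ ≠ ⊥ := fun h =>
  C.main₁_ne_bot φ ((Ideal.map_eq_bot_iff_of_injective (C.resB₁_injective_flat R)).1 h)

/-- The ideal pair of a point, given local principality. -/
def pointOf₀ [IsDomain R] (φ : C.A₀ →ₐ[k] R) (h₀ : LocPrincipal (mainIdeal φ))
    (h₁ : LocPrincipal (sideIdeal C.res₀ C.res₁ C.x φ)) : IdealPair C R where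
  J₀ := mainIdeal φ
  J₁ := sideIdeal C.res₀ C.res₁ C.x φ
  J := overlapIdeal C.res₀ φ
  inv₀ := haveI := C.isDomain_B₀ R; h₀.invertible (C.main₀_ne_bot φ)
  inv₁ := haveI := C.isDomain_B₁ R; h₁.invertible (C.side₀_ne_bot φ)
  inv := haveI := C.isDomain_B R; (h₀.map (ext R C.res₀)).invertible (C.overlap₀_ne_bot φ)
  mem₀ := fun _ ha => mem_overlap_main C.res₀ φ ha
  mem₁ := fun _ ha => mem_overlap_side C.res₀ C.res₁ C.x C.y φ C.x_mul_y ha
  loc₀ := fun _ hb => exists_pow_mul_mem (C.resB₀ R) (C.xB R) (C.exists_powB₀ R) hb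
  loc₁ := fun _ hb => loc_overlap_side C.res₀ C.res₁ C.x C.y φ C.x_mul_y C.exists_pow₁ hb

/-- The ideal pair of a point of the second chart, given local principality. -/
def pointOf₁ [IsDomain R] (φ : C.A₁ →ₐ[k] R) (h₁ : LocPrincipal (mainIdeal φ))
    (h₀ : LocPrincipal (sideIdeal C.res₁ C.res₀ C.y φ)) : IdealPair C R where
  J₀ := sideIdeal C.res₁ C.res₀ C.y φ
  J₁ := mainIdeal φ
  J := overlapIdeal C.res₁ φ
  inv₀ := haveI := C.isDomain_B₀ R; h₀.invertible (C.side₁_ne_bot φ)
  inv₁ := haveI := C.isDomain_B₁ R; h₁.invertible (C.main₁_ne_bot φ)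
  inv := haveI := C.isDomain_B R; (h₁.map (ext R C.res₁)).invertible (C.overlap₁_ne_bot φ)
  mem₀ := fun _ ha => mem_overlap_side C.res₁ C.res₀ C.y C.x φ C.y_mul_x ha
  mem₁ := fun _ ha => mem_overlap_main C.res₁ φ ha
  loc₀ := fun _ hb => loc_overlap_side C.res₁ C.res₀ C.y C.x φ C.y_mul_x C.exists_pow₀ hb
  loc₁ := fun _ hb => exists_pow_mul_mem (C.resB₁ R) (C.yB R) (C.exists_powB₁ R) hb

variable [IsAlgClosed k]

theorem locPrincipal_main₀ (φ : C.A₀ →ₐ[k] R) : LocPrincipal (mainIdeal φ) := by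
  haveI := C.isDedekind₀
  haveI := C.finiteType₀
  have h := (locPrincipal_diagonal (k := k) (S := C.A₀)).map
    (Algebra.TensorProduct.map φ (AlgHom.id k C.A₀)).toRingHom
  rwa [map_mainIdeal, AlgHom.comp_id] at h

theorem locPrincipal_main₁ (φ : C.A₁ →ₐ[k] R) : LocPrincipal (mainIdeal φ) := by
  haveI := C.isDedekind₁
  haveI := C.finiteType₁
  have h := (locPrincipal_diagonal (k := k) (S := C.A₁)).map
    (Algebra.TensorProduct.map φ (AlgHom.id k C.A₁)).toRingHom
  rwa [map_mainIdeal, AlgHom.comp_id] at h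

theorem locPrincipal_side₀ (φ : C.A₀ →ₐ[k] R) :
    LocPrincipal (sideIdeal C.res₀ C.res₁ C.x φ) := by
  haveI := C.finiteType₀
  haveI := C.finiteType₁
  haveI : IsNoetherianRing (C.A₀ ⊗[k] C.A₁) := isNoetherian_tensor
  have h := (locPrincipal_side C.x_mul_y C.exists_pow₁ C.res₁_injective
    (C.locPrincipal_main₀ (AlgHom.id k C.A₀))).map
    (Algebra.TensorProduct.map φ (AlgHom.id k C.A₁)).toRingHom
  rwa [map_sideIdeal, AlgHom.comp_id] at h

theorem locPrincipal_side₁ (φ : C.A₁ →ₐ[k] R) :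
    LocPrincipal (sideIdeal C.res₁ C.res₀ C.y φ) := by
  haveI := C.finiteType₀
  haveI := C.finiteType₁
  haveI : IsNoetherianRing (C.A₁ ⊗[k] C.A₀) := isNoetherian_tensor
  have h := (locPrincipal_side C.y_mul_x C.exists_pow₀ C.res₀_injective
    (C.locPrincipal_main₁ (AlgHom.id k C.A₁))).map
    (Algebra.TensorProduct.map φ (AlgHom.id k C.A₀)).toRingHom
  rwa [map_sideIdeal, AlgHom.comp_id] at h

/-- The ideal pair of a point with values in the first chart. -/
def point₀ [IsDomain R] (φ : C.A₀ →ₐ[k] R) : IdealPair C R :=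
  C.pointOf₀ φ (C.locPrincipal_main₀ φ) (C.locPrincipal_side₀ φ)

/-- The ideal pair of a point with values in the second chart. -/
def point₁ [IsDomain R] (φ : C.A₁ →ₐ[k] R) : IdealPair C R :=
  C.pointOf₁ φ (C.locPrincipal_main₁ φ) (C.locPrincipal_side₁ φ)

/-- Over the overlap the two descriptions of a point agree on the first chart. -/
theorem sideIdeal_res₁ : sideIdeal C.res₁ C.res₀ C.y C.res₁ = mainIdeal C.res₀ := by
  refine le_antisymm (Ideal.span_le.2 ?_) (Ideal.span_le.2 ?_)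
  · rintro _ ⟨b, m, a, hab, rfl⟩
    rw [hab]
    have : (C.res₁ C.y ^ m * C.res₀ a) ⊗ₜ[k] (1 : C.A₀) - (C.res₁ C.y ^ m) ⊗ₜ[k] a =
        ((C.res₁ C.y ^ m) ⊗ₜ[k] (1 : C.A₀)) * (C.res₀ a ⊗ₜ[k] 1 - 1 ⊗ₜ[k] a) := by
      simp [mul_sub]
    rw [SetLike.mem_coe, this]
    exact Ideal.mul_mem_left _ _ (diff_mem_mainIdeal C.res₀ a)
  · rintro _ ⟨a, rfl⟩
    obtain ⟨m, b, hb⟩ := C.exists_pow₁ (C.res₀ a)
    have h := side_mem_sideIdeal C.res₁ C.res₀ C.y C.res₁ hb.symm
    have : C.res₀ a ⊗ₜ[k] (1 : C.A₀) - 1 ⊗ₜ[k] a =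
        ((C.res₀ C.x ^ m) ⊗ₜ[k] (1 : C.A₀)) *
          (C.res₁ b ⊗ₜ[k] 1 - (C.res₁ C.y ^ m) ⊗ₜ[k] a) := by
      rw [← hb, mul_sub, Algebra.TensorProduct.tmul_mul_tmul, Algebra.TensorProduct.tmul_mul_tmul,
        mul_one, one_mul, ← mul_assoc, ← mul_pow, C.x_mul_y, one_pow, one_mul]
    show _ ∈ _
    simp only [SetLike.mem_coe]
    rw [this]
    exact Ideal.mul_mem_left _ _ h

/-- Over the overlap the two descriptions of a point agree on the second chart. -/
theorem sideIdeal_res₀ : sideIdeal C.res₀ C.res₁ C.x C.res₀ = mainIdeal C.res₁ := by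
  refine le_antisymm (Ideal.span_le.2 ?_) (Ideal.span_le.2 ?_)
  · rintro _ ⟨b, m, a, hab, rfl⟩
    rw [hab]
    have : (C.res₀ C.x ^ m * C.res₁ a) ⊗ₜ[k] (1 : C.A₁) - (C.res₀ C.x ^ m) ⊗ₜ[k] a =
        ((C.res₀ C.x ^ m) ⊗ₜ[k] (1 : C.A₁)) * (C.res₁ a ⊗ₜ[k] 1 - 1 ⊗ₜ[k] a) := by
      simp [mul_sub]
    rw [SetLike.mem_coe, this]
    exact Ideal.mul_mem_left _ _ (diff_mem_mainIdeal C.res₁ a)
  · rintro _ ⟨a, rfl⟩
    obtain ⟨m, b, hb⟩ := C.exists_pow₀ (C.res₁ a)
    have h := side_mem_sideIdeal C.res₀ C.res₁ C.x C.res₀ hb.symm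
    have : C.res₁ a ⊗ₜ[k] (1 : C.A₁) - 1 ⊗ₜ[k] a =
        ((C.res₁ C.y ^ m) ⊗ₜ[k] (1 : C.A₁)) *
          (C.res₀ b ⊗ₜ[k] 1 - (C.res₀ C.x ^ m) ⊗ₜ[k] a) := by
      rw [← hb, mul_sub, Algebra.TensorProduct.tmul_mul_tmul, Algebra.TensorProduct.tmul_mul_tmul,
        mul_one, one_mul, ← mul_assoc, ← mul_pow, C.y_mul_x, one_pow, one_mul]
    show _ ∈ _
    simp only [SetLike.mem_coe]
    rw [this]
    exact Ideal.mul_mem_left _ _ h

end FLTAgent.JacRep.Cover
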