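import Fermat.Agent.JacRep.Defs
import Fermat.Agent.JacRep.Ops
import Fermat.Agent.JacRep.Coh
import Fermat.Agent.JacRep.Degree.Basic

/-!
# The group of isomorphism classes of bundles

`Cls C R` is a commutative group under tensor product, with `cls`, pullback `mapCls` and, over a
field, the Euler characteristic `clsEuler`, which is invariant under field extensions
(`clsEuler_map`). `isTensor_of_cls` and `isPullback_of_cls` translate back to bundles.
-/

set_option autoImplicit false
set_option linter.style.haveILetI false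
set_option linter.unusedSectionVars false

noncomputable section

open scoped TensorProduct

universe u

namespace FLTAgent.JacRep.Bundle

variable {k : Type u} [Field k] {C : Cover k} {R : Type u} [CommRing R] [Algebra k R]
  {R' : Type u} [CommRing R'] [Algebra k R'] {R'' : Type u} [CommRing R''] [Algebra k R'']

/-- The bundle is isomorphic to the trivial one. -/
def IsUnitBundle (U : Bundle C R) : Prop :=
  ∃ (e₀ : U.M₀ ≃ₗ[C.B₀ R] C.B₀ R) (e₁ : U.M₁ ≃ₗ[C.B₁ R] C.B₁ R) (e : U.M ≃ₗ[C.B R] C.B R),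
    (∀ m, e (U.ι₀ m) = C.resB₀ R (e₀ m)) ∧ ∀ m, e (U.ι₁ m) = C.resB₁ R (e₁ m)

theorem IsUnitBundle.iso_unit {U U' : Bundle C R} (h : IsUnitBundle U) (h' : IsUnitBundle U') :
    U.Iso U' := by
  obtain ⟨e₀, e₁, e, h₀, h₁⟩ := h
  obtain ⟨f₀, f₁, f, g₀, g₁⟩ := h'
  refine ⟨e₀.trans f₀.symm, e₁.trans f₁.symm, e.trans f.symm, fun m => ?_, fun m => ?_⟩
  · refine f.injective ?_
    rw [LinearEquiv.trans_apply, LinearEquiv.apply_symm_apply, g₀, LinearEquiv.trans_apply,
      LinearEquiv.apply_symm_apply, h₀]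
  · refine f.injective ?_
    rw [LinearEquiv.trans_apply, LinearEquiv.apply_symm_apply, g₁, LinearEquiv.trans_apply,
      LinearEquiv.apply_symm_apply, h₁]

theorem IsUnitBundle.congr_iso {U U' : Bundle C R} (h : IsUnitBundle U) (h' : U.Iso U') :
    IsUnitBundle U' := by
  obtain ⟨e₀, e₁, e, h₀, h₁⟩ := h
  obtain ⟨f₀, f₁, f, g₀, g₁⟩ := iso_symm h'
  exact ⟨f₀.trans e₀, f₁.trans e₁, f.trans e, fun m => by simp [g₀, h₀],
    fun m => by simp [g₁, h₁]⟩

theorem IsUnitBundle.neutral (E : Bundle C R) {U : Bundle C R} (h : IsUnitBundle U) :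
    IsTensor U E E := by
  obtain ⟨e₀, e₁, e, h₀, h₁⟩ := h
  refine ⟨(LinearMap.lsmul (C.B₀ R) E.M₀).comp e₀.toLinearMap,
    (LinearMap.lsmul (C.B₁ R) E.M₁).comp e₁.toLinearMap,
    (LinearMap.lsmul (C.B R) E.M).comp e.toLinearMap, ?_, ?_, fun a b => ?_, fun a b => ?_⟩
  · exact Submodule.eq_top_iff'.2 fun z => Submodule.subset_span ⟨e₀.symm 1, z, by simp⟩
  · exact Submodule.eq_top_iff'.2 fun z => Submodule.subset_span ⟨e₁.symm 1, z, by simp⟩
  · simp [h₀, LinearMap.map_smulₛₗ]
  · simp [h₁, LinearMap.map_smulₛₗ]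

theorem isTensor_transport {E E' F G G' H : Bundle C R} (h : IsTensor E E' F) (hG : E.Iso G)
    (hG' : E'.Iso G') (hH : F.Iso H) : IsTensor G G' H := by
  obtain ⟨μ₀, μ₁, μ, hs₀, hs₁, h₀, h₁⟩ := h
  obtain ⟨a₀, a₁, a, ha₀, ha₁⟩ := hG
  obtain ⟨b₀, b₁, b, hb₀, hb₁⟩ := hG'
  obtain ⟨c₀, c₁, c, hc₀, hc₁⟩ := hH
  refine ⟨((μ₀.comp a₀.symm.toLinearMap).compl₂ b₀.symm.toLinearMap).compr₂ c₀.toLinearMap,
    ((μ₁.comp a₁.symm.toLinearMap).compl₂ b₁.symm.toLinearMap).compr₂ c₁.toLinearMap,
    ((μ.comp a.symm.toLinearMap).compl₂ b.symm.toLinearMap).compr₂ c.toLinearMap,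
    ?_, ?_, fun x y => ?_, fun x y => ?_⟩
  · rw [eq_top_iff, ← LinearMap.range_eq_top.2 c₀.surjective, LinearMap.range_eq_map, ← hs₀,
      Submodule.map_span]
    refine Submodule.span_mono ?_
    rintro _ ⟨_, ⟨x, y, rfl⟩, rfl⟩
    exact ⟨a₀ x, b₀ y, by simp⟩
  · rw [eq_top_iff, ← LinearMap.range_eq_top.2 c₁.surjective, LinearMap.range_eq_map, ← hs₁,
      Submodule.map_span]
    refine Submodule.span_mono ?_
    rintro _ ⟨_, ⟨x, y, rfl⟩, rfl⟩
    exact ⟨a₁ x, b₁ y, by simp⟩
  · obtain ⟨x, rfl⟩ := a₀.surjective x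
    obtain ⟨y, rfl⟩ := b₀.surjective y
    simp [← ha₀, ← hb₀, h₀, hc₀]
  · obtain ⟨x, rfl⟩ := a₁.surjective x
    obtain ⟨y, rfl⟩ := b₁.surjective y
    simp [← ha₁, ← hb₁, h₁, hc₁]

variable (C R) in
/-- Isomorphism of bundles as a setoid. -/
def isoSetoid : Setoid (Bundle C R) :=
  ⟨Iso, ⟨iso_refl, iso_symm, iso_trans⟩⟩

variable (C R) in
/-- Classes of bundles. -/
def Cls : Type (u + 1) := Quotient (isoSetoid C R)

/-- The class of a bundle. -/
def cls (E : Bundle C R) : Cls C R := Quotient.mk (isoSetoid C R) E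

theorem cls_eq_iff {E E' : Bundle C R} : cls E = cls E' ↔ E.Iso E' :=
  ⟨fun h => Quotient.exact h, fun h => Quotient.sound h⟩

theorem cls_surjective : Function.Surjective (cls : Bundle C R → Cls C R) :=
  Quotient.mk_surjective (s := isoSetoid C R)

/-- Product of classes. -/
def clsMul : Cls C R → Cls C R → Cls C R :=
  Quotient.lift₂ (fun E E' => cls (exists_tensor E E').choose) fun _ _ _ _ h h' =>
    Quotient.sound (isTensor_unique h h' (exists_tensor _ _).choose_spec
      (exists_tensor _ _).choose_spec)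

theorem clsMul_eq {E E' F : Bundle C R} (h : IsTensor E E' F) :
    clsMul (cls E) (cls E') = cls F :=
  Quotient.sound (isTensor_unique (iso_refl E) (iso_refl E') (exists_tensor E E').choose_spec h)

theorem clsMul_assoc (a b c : Cls C R) : clsMul (clsMul a b) c = clsMul a (clsMul b c) := by
  obtain ⟨A, rfl⟩ := cls_surjective a
  obtain ⟨B, rfl⟩ := cls_surjective b
  obtain ⟨D, rfl⟩ := cls_surjective c
  obtain ⟨F, hF⟩ := exists_tensor A B
  obtain ⟨G, hG⟩ := exists_tensor F D
  obtain ⟨F', hF'⟩ := exists_tensor B D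
  obtain ⟨G', hG'⟩ := exists_tensor A F'
  rw [clsMul_eq hF, clsMul_eq hG, clsMul_eq hF', clsMul_eq hG', cls_eq_iff]
  exact isTensor_assoc hF hG hF' hG'

theorem clsMul_comm (a b : Cls C R) : clsMul a b = clsMul b a := by
  obtain ⟨A, rfl⟩ := cls_surjective a
  obtain ⟨B, rfl⟩ := cls_surjective b
  obtain ⟨F, hF⟩ := exists_tensor A B
  rw [clsMul_eq hF, clsMul_eq (isTensor_comm hF)]

variable (C R) in
/-- The class of the trivial bundle. -/
def clsOne : Cls C R := cls (exists_unit C R).choose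

theorem clsOne_eq {U : Bundle C R} (hU : IsUnitBundle U) : clsOne C R = cls U :=
  Quotient.sound (IsUnitBundle.iso_unit (exists_unit C R).choose_spec hU)

theorem clsOne_mul (a : Cls C R) : clsMul (clsOne C R) a = a := by
  obtain ⟨A, rfl⟩ := cls_surjective a
  exact clsMul_eq (IsUnitBundle.neutral A (exists_unit C R).choose_spec)

theorem exists_clsInv (a : Cls C R) : ∃ b, clsMul a b = clsOne C R := by
  obtain ⟨A, rfl⟩ := cls_surjective a
  obtain ⟨E', F, h, hF, -⟩ := exists_inverse A
  exact ⟨cls E', by rw [clsMul_eq h, clsOne_eq hF]⟩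

instance instCommGroupCls : CommGroup (Cls C R) where
  mul := clsMul
  one := clsOne C R
  inv a := (exists_clsInv a).choose
  mul_assoc := clsMul_assoc
  one_mul := clsOne_mul
  mul_one a := (clsMul_comm a _).trans (clsOne_mul a)
  inv_mul_cancel a := (clsMul_comm _ a).trans (exists_clsInv a).choose_spec
  mul_comm := clsMul_comm

theorem cls_tensor {E E' F : Bundle C R} (h : IsTensor E E' F) : cls E * cls E' = cls F :=
  clsMul_eq h

theorem isTensor_of_cls {E E' F : Bundle C R} (h : cls E * cls E' = cls F) :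
    IsTensor E E' F := by
  obtain ⟨G, hG⟩ := exists_tensor E E'
  exact isTensor_transport hG (iso_refl _) (iso_refl _) (cls_eq_iff.1 ((cls_tensor hG).symm.trans h))

theorem cls_unit {U : Bundle C R} (hU : IsUnitBundle U) : cls U = 1 := (clsOne_eq hU).symm

theorem isUnitBundle_of_cls {U : Bundle C R} (h : cls U = 1) : IsUnitBundle U :=
  IsUnitBundle.congr_iso (exists_unit C R).choose_spec (cls_eq_iff.1 h.symm)

theorem IsUnitBundle.isPullback_unit {φ : R →ₐ[k] R'} {U : Bundle C R} {U' : Bundle C R'}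
    (h : IsUnitBundle U) (h' : IsUnitBundle U') : IsPullback φ U U' := by
  obtain ⟨e₀, e₁, e, h₀, h₁⟩ := h
  obtain ⟨f₀, f₁, f, g₀, g₁⟩ := h'
  refine ⟨
    { toFun := fun m => f₀.symm (C.mapB₀ φ (e₀ m))
      map_add' := fun a b => by rw [map_add, map_add, map_add]
      map_smul' := fun c a => by rw [map_smul, smul_eq_mul, map_mul, ← smul_eq_mul, map_smul] },
    { toFun := fun m => f₁.symm (C.mapB₁ φ (e₁ m))
      map_add' := fun a b => by rw [map_add, map_add, map_add]
      map_smul' := fun c a => by rw [map_smul, smul_eq_mul, map_mul, ← smul_eq_mul, map_smul] },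
    { toFun := fun m => f.symm (C.mapB φ (e m))
      map_add' := fun a b => by rw [map_add, map_add, map_add]
      map_smul' := fun c a => by rw [map_smul, smul_eq_mul, map_mul, ← smul_eq_mul, map_smul] },
    ?_, ?_, fun m => ?_, fun m => ?_⟩
  · refine Submodule.eq_top_iff'.2 fun z => ?_
    rw [show z = f₀ z • f₀.symm 1 by rw [← map_smul, smul_eq_mul, mul_one, f₀.symm_apply_apply]]
    exact Submodule.smul_mem _ _ (Submodule.subset_span ⟨e₀.symm 1, by simp⟩)
  · refine Submodule.eq_top_iff'.2 fun z => ?_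
    rw [show z = f₁ z • f₁.symm 1 by rw [← map_smul, smul_eq_mul, mul_one, f₁.symm_apply_apply]]
    exact Submodule.smul_mem _ _ (Submodule.subset_span ⟨e₁.symm 1, by simp⟩)
  · refine f.injective ?_
    show f (f.symm _) = f (U'.ι₀ (f₀.symm _))
    rw [f.apply_symm_apply, g₀, f₀.apply_symm_apply, h₀, Cover.resB₀_mapB₀]
  · refine f.injective ?_
    show f (f.symm _) = f (U'.ι₁ (f₁.symm _))
    rw [f.apply_symm_apply, g₁, f₁.apply_symm_apply, h₁, Cover.resB₁_mapB₁]

/-- Pullback of classes. -/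
def mapCls (φ : R →ₐ[k] R') : Cls C R →* Cls C R' where
  toFun := Quotient.lift (fun E => cls (exists_pullback φ E).choose) fun _ _ h =>
    Quotient.sound (isPullback_unique h (exists_pullback φ _).choose_spec
      (exists_pullback φ _).choose_spec)
  map_one' := Quotient.sound (isPullback_unique (iso_refl _) (exists_pullback φ _).choose_spec
    (IsUnitBundle.isPullback_unit (φ := φ) (exists_unit C R).choose_spec
      (exists_unit C R').choose_spec))
  map_mul' a b := by
    obtain ⟨A, rfl⟩ := cls_surjective a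
    obtain ⟨B, rfl⟩ := cls_surjective b
    obtain ⟨F, hF⟩ := exists_tensor A B
    obtain ⟨G, hG⟩ := exists_tensor (exists_pullback φ A).choose (exists_pullback φ B).choose
    rw [cls_tensor hF]
    show cls (exists_pullback φ F).choose =
      cls (exists_pullback φ A).choose * cls (exists_pullback φ B).choose
    rw [cls_tensor hG, cls_eq_iff]
    exact isPullback_unique (iso_refl F) (exists_pullback φ F).choose_spec
      (isTensor_pullback (exists_pullback φ A).choose_spec (exists_pullback φ B).choose_spec hF hG)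

theorem cls_pullback {φ : R →ₐ[k] R'} {E : Bundle C R} {E' : Bundle C R'} (h : IsPullback φ E E') :
    mapCls φ (cls E) = cls E' :=
  Quotient.sound (isPullback_unique (iso_refl E) (exists_pullback φ E).choose_spec h)

theorem isPullback_of_cls {φ : R →ₐ[k] R'} {E : Bundle C R} {E' : Bundle C R'}
    (h : mapCls φ (cls E) = cls E') : IsPullback φ E E' :=
  isPullback_of_iso (iso_refl E) (cls_eq_iff.1 h) (exists_pullback φ E).choose_spec

theorem mapCls_comp (φ : R →ₐ[k] R') (ψ : R' →ₐ[k] R'') (a : Cls C R) :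
    mapCls ψ (mapCls φ a) = mapCls (ψ.comp φ) a := by
  obtain ⟨A, rfl⟩ := cls_surjective a
  obtain ⟨A', hA⟩ := exists_pullback φ A
  obtain ⟨A'', hA'⟩ := exists_pullback ψ A'
  rw [cls_pullback hA, cls_pullback hA', cls_pullback (isPullback_comp hA hA')]

/-- Isomorphic bundles have the same Euler characteristic. -/
theorem euler_iso {K : Type u} [Field K] [Algebra k K] {E E' : Bundle C K} (h : E.Iso E') :
    E'.euler = E.euler :=
  euler_pullback (isPullback_of_iso (iso_refl E) h (isPullback_id E))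

/-- The Euler characteristic of a class. -/
def clsEuler {K : Type u} [Field K] [Algebra k K] : Cls C K → ℤ :=
  Quotient.lift (fun E => E.euler) fun _ _ h => (euler_iso h).symm

theorem clsEuler_cls {K : Type u} [Field K] [Algebra k K] (E : Bundle C K) :
    clsEuler (cls E) = E.euler := rfl

/-- The Euler characteristic is unchanged by extension of the field. -/
theorem clsEuler_map {K L : Type u} [Field K] [Algebra k K] [Field L] [Algebra k L]
    (φ : K →ₐ[k] L) (a : Cls C K) : clsEuler (mapCls φ a) = clsEuler a := by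
  obtain ⟨A, rfl⟩ := cls_surjective a
  obtain ⟨A', hA⟩ := exists_pullback φ A
  rw [cls_pullback hA, clsEuler_cls, clsEuler_cls, euler_pullback hA]

end FLTAgent.JacRep.Bundle
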