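import Mathlib
import Fermat.Agent.JacRep.Degree.Point

/-!
# Invertible modules: vanishing at maximal ideals and finite quotients

An element which does not generate lies in `m • M` for a maximal ideal `m`
(`exists_maximal_of_span_ne_top`); over a Dedekind domain of finite type the quotient by a nonzero
element is finite dimensional (`finite_quotient_span`), and ideals are locally principal
(`locPrincipal_of_dedekind`).
-/

set_option autoImplicit false
set_option linter.style.haveILetI false
set_option linter.unusedSectionVars false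

noncomputable section

open scoped TensorProduct nonZeroDivisors

universe u

namespace FLTAgent.JacRep.RankOne

variable {B : Type u} [CommRing B] {M : Type u} [AddCommGroup M] [Module B M]
  [Module.Invertible B M]

theorem dual_swap (f : Module.Dual B M) (a b : M) : f a • b = f b • a := by
  have h := congrArg (fun z => TensorProduct.lid B M (f.rTensor M z))
    (Module.Invertible.tmul_comm (R := B) (M := M) (m₁ := a) (m₂ := b))
  simpa using h

theorem exists_partition : ∃ (n : ℕ) (f : Fin n → Module.Dual B M) (m : Fin n → M),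
    ∑ i, f i (m i) = 1 := by
  obtain ⟨n, s, t, hs⟩ := TensorProduct.exists_sum_tmul_eq ((Module.Invertible.linearEquiv B M).symm 1)
  refine ⟨n, s, t, ?_⟩
  have h := congrArg (Module.Invertible.linearEquiv B M) hs
  rw [LinearEquiv.apply_symm_apply, map_sum] at h
  refine Eq.trans ?_ h.symm
  exact Finset.sum_congr rfl fun i _ => (contractLeft_apply _ _).symm

/-- An element lies in `I • M` as soon as all functionals send it to `I`. -/
theorem mem_smul_top_of_forall {s : M} {I : Ideal B} (h : ∀ f : Module.Dual B M, f s ∈ I) :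
    s ∈ (I • ⊤ : Submodule B M) := by
  obtain ⟨n, f, m, hfm⟩ := exists_partition (B := B) (M := M)
  rw [← one_smul B s, ← hfm, Finset.sum_smul]
  refine Submodule.sum_mem _ fun i _ => ?_
  rw [dual_swap]
  exact Submodule.smul_mem_smul (h (f i)) trivial

theorem smul_top_ne_top {I : Ideal B} (hI : I ≠ ⊤) : (I • ⊤ : Submodule B M) ≠ ⊤ := by
  intro h
  obtain ⟨n, f, m, hfm⟩ := exists_partition (B := B) (M := M)
  refine hI ((Ideal.eq_top_iff_one I).2 (hfm ▸ I.sum_mem fun i _ => ?_))
  have hm : m i ∈ (I • ⊤ : Submodule B M) := by rw [h]; trivial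
  refine Submodule.smul_induction_on hm (fun a ha x _ => ?_) (fun x y hx hy => ?_)
  · rw [map_smul]; exact I.mul_mem_right _ ha
  · rw [map_add]; exact add_mem hx hy

/-- An element which does not generate vanishes at some maximal ideal. -/
theorem exists_maximal_of_span_ne_top {s : M} (h : Submodule.span B {s} ≠ ⊤) :
    ∃ m : Ideal B, m.IsMaximal ∧ s ∈ (m • ⊤ : Submodule B M) := by
  let I : Ideal B := LinearMap.range (Module.Dual.eval B M s)
  have hI : I ≠ ⊤ := by
    intro htop
    obtain ⟨f, hf⟩ : (1 : B) ∈ I := htop ▸ Submodule.mem_top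
    refine h (eq_top_iff.2 fun a _ => Submodule.mem_span_singleton.2 ⟨f a, ?_⟩)
    rw [dual_swap, show f s = 1 from hf, one_smul]
  obtain ⟨m, hm, hle⟩ := Ideal.exists_le_maximal _ hI
  exact ⟨m, hm, mem_smul_top_of_forall fun f => hle ⟨f, rfl⟩⟩

variable [IsDomain B]

theorem exists_dual_ne_zero {s : M} (hs : s ≠ 0) : ∃ f : Module.Dual B M, f s ≠ 0 := by
  by_contra h
  push Not at h
  obtain ⟨n, f, m, hfm⟩ := exists_partition (B := B) (M := M)
  apply hs
  rw [← one_smul B s, ← hfm, Finset.sum_smul]
  refine Finset.sum_eq_zero fun i _ => ?_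
  rw [dual_swap, h, zero_smul]

theorem smul_left_injective {s : M} (hs : s ≠ 0) : Function.Injective fun b : B => b • s := by
  intro a b h
  obtain ⟨f, hf⟩ := exists_dual_ne_zero (B := B) hs
  have := congrArg f h
  simp only [map_smul, smul_eq_mul] at this
  exact mul_right_cancel₀ hf this

variable {K : Type u} [Field K] [Algebra K B] [Module K M] [IsScalarTower K B M]

omit [IsDomain B] in
/-- The quotient by the multiples of a nonzero element is finite dimensional. -/
theorem finite_quotient_span [IsDedekindDomain B] [Algebra.FiniteType K B] {s : M} (hs : s ≠ 0) :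
    Module.Finite K (M ⧸ (Submodule.span B {s})) := by
  obtain ⟨f, hf⟩ := exists_dual_ne_zero (B := B) hs
  set I : Ideal B := Ideal.span {f s}
  have hI0 : I ≠ ⊥ := by rwa [Ne, Ideal.span_singleton_eq_bot]
  haveI : IsNoetherianRing B := Algebra.FiniteType.isNoetherianRing K B
  haveI : Ring.KrullDimLE 0 (B ⧸ I) := Ring.KrullDimLE.mk₀ fun p hp => by
    haveI := hp
    have hle : I ≤ p.comap (Ideal.Quotient.mk I) := fun z hz => by
      rw [Ideal.mem_comap, Ideal.Quotient.eq_zero_iff_mem.2 hz]
      exact zero_mem p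
    have hmax : (p.comap (Ideal.Quotient.mk I)).IsMaximal :=
      Ideal.IsPrime.isMaximal (Ideal.IsPrime.comap _) fun h0 => hI0 (le_bot_iff.1 (h0 ▸ hle))
    rw [← Ideal.map_comap_of_surjective (Ideal.Quotient.mk I) Ideal.Quotient.mk_surjective p]
    refine (Ideal.map_eq_top_or_isMaximal_of_surjective _ Ideal.Quotient.mk_surjective hmax).resolve_left ?_
    rw [Ideal.map_comap_of_surjective (Ideal.Quotient.mk I) Ideal.Quotient.mk_surjective p]
    exact hp.ne_top
  haveI : IsArtinianRing (B ⧸ I) :=
    isArtinianRing_iff_isNoetherianRing_krullDimLE_zero.2 ⟨inferInstance, inferInstance⟩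
  haveI : Algebra.FiniteType K (B ⧸ I) :=
    Algebra.FiniteType.of_surjective (Ideal.Quotient.mkₐ K I) Ideal.Quotient.mk_surjective
  haveI : Module.Finite K (B ⧸ I) := (Module.finite_iff_isArtinianRing (R := K) (A := B ⧸ I)).2 ‹_›
  haveI : Module.Finite B M := inferInstance
  obtain ⟨n, π, hπ⟩ := Module.Finite.exists_fin' B M
  let N := Submodule.span B {s}
  have hker : ∀ (i : Fin n) (c : B), c ∈ I → π (Pi.single i c) ∈ N := fun i c hc => by
    obtain ⟨d, rfl⟩ := Ideal.mem_span_singleton'.1 hc
    rw [show (Pi.single i (d * f s) : Fin n → B) = (d * f s) • Pi.single i 1 by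
      rw [← Pi.single_smul, smul_eq_mul, mul_one], map_smul, mul_smul, dual_swap]
    exact N.smul_mem _ (N.smul_mem _ (Submodule.mem_span_singleton_self s))
  let g : (Fin n → B ⧸ I) →ₗ[K] M ⧸ N := ∑ i : Fin n,
    (Submodule.liftQ I (N.mkQ ∘ₗ π ∘ₗ LinearMap.single B (fun _ : Fin n => B) i) fun c hc => by
      rw [LinearMap.mem_ker]
      exact (Submodule.Quotient.mk_eq_zero N).2 (hker i c hc)).restrictScalars K ∘ₗ LinearMap.proj i
  refine Module.Finite.of_surjective g fun q => ?_
  obtain ⟨m, rfl⟩ := N.mkQ_surjective q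
  obtain ⟨c, rfl⟩ := hπ m
  refine ⟨fun i => Ideal.Quotient.mk I (c i), ?_⟩
  simp only [g, LinearMap.sum_apply, LinearMap.comp_apply, LinearMap.proj_apply,
    LinearMap.restrictScalars_apply]
  conv_rhs => rw [← Finset.univ_sum_single c, map_sum, map_sum]
  exact Finset.sum_congr rfl fun i _ => rfl

end FLTAgent.JacRep.RankOne

namespace FLTAgent.JacRep.PointIdeal

/-- Ideals of a Dedekind domain are locally principal. -/
theorem locPrincipal_of_dedekind {B : Type u} [CommRing B] [IsDedekindDomain B] (I : Ideal B) :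
    LocPrincipal I := by
  intro m hm
  by_cases hI : I = ⊥
  · exact ⟨1, (Ideal.ne_top_iff_one _).1 hm.ne_top, 0, zero_mem _, fun z hz => by
      rw [hI, Ideal.mem_bot] at hz; rw [hz, mul_zero]; exact zero_mem _⟩
  obtain ⟨d, hd, hd0⟩ := Submodule.exists_mem_ne_zero_of_ne_bot hI
  obtain ⟨J, hJ⟩ := Ideal.dvd_iff_le.2 ((Ideal.span_singleton_le_iff_mem I).2 hd)
  have hstep : ∃ a ∈ I, ∃ b ∈ J, ∃ s ∉ m, a * b = s * d := by
    by_contra hne
    push Not at hne
    have hle : Ideal.span {d} ≤ m * Ideal.span {d} := by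
      conv_lhs => rw [hJ]
      refine Ideal.mul_le.2 fun a ha b hb => ?_
      obtain ⟨s, hs⟩ := Ideal.mem_span_singleton'.1
        (hJ ▸ Ideal.mul_mem_mul ha hb : a * b ∈ Ideal.span {d})
      rw [← hs]
      refine Ideal.mul_mem_mul ?_ (Ideal.mem_span_singleton_self d)
      by_contra hsm
      exact hne a ha b hb s hsm hs.symm
    obtain ⟨e, he, heq⟩ : ∃ e ∈ m, e * d = d := by
      have := hle (Ideal.mem_span_singleton_self d)
      obtain ⟨e, he, h⟩ := Ideal.mem_mul_span_singleton.1 this
      exact ⟨e, he, h⟩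
    exact (Ideal.ne_top_iff_one _).1 hm.ne_top ((mul_left_eq_self₀.1 heq).resolve_right hd0 ▸ he)
  obtain ⟨a, ha, b, hb, s, hs, hab⟩ := hstep
  refine ⟨s, hs, a, ha, fun z hz => ?_⟩
  obtain ⟨c, hc⟩ := Ideal.mem_span_singleton'.1
    (hJ ▸ Ideal.mul_mem_mul hz hb : z * b ∈ Ideal.span {d})
  refine Ideal.mem_span_singleton'.2 ⟨c, mul_right_cancel₀ hd0 ?_⟩
  calc c * a * d = a * (z * b) := by rw [← hc]; ring
    _ = z * (a * b) := by ring
    _ = s * z * d := by rw [hab]; ring

end FLTAgent.JacRep.PointIdeal
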