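import Mathlib
import Fermat.Agent.JacRep.Coh

/-!
# Euler characteristic of a sub-bundle of finite colength

`index_sub` is the additivity of the index of a linear map under passage to subspaces of finite
codimension. Finite colength on a chart bounds that on the overlap (`finite_quot₀`,
`finite_quot₁`), so `euler_sub` expresses the Euler characteristic of the sub-bundle through the
three colengths.
-/

set_option autoImplicit false
set_option linter.style.haveILetI false
set_option linter.unusedSectionVars false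

noncomputable section

open scoped TensorProduct

universe u

namespace FLTAgent.JacRep.SubIndex

/-- The index changes by the colengths under passage to subspaces. -/
theorem index_sub {K : Type u} [Field K] {P Q M P' Q' M' : Type u} [AddCommGroup P] [AddCommGroup Q]
    [AddCommGroup M] [AddCommGroup P'] [AddCommGroup Q'] [AddCommGroup M'] [Module K P]
    [Module K Q] [Module K M] [Module K P'] [Module K Q'] [Module K M']
    (d : P × Q →ₗ[K] M) (d' : P' × Q' →ₗ[K] M') (a₀ : P' →ₗ[K] P) (a₁ : Q' →ₗ[K] Q)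
    (a : M' →ₗ[K] M) (h₀ : Function.Injective a₀) (h₁ : Function.Injective a₁)
    (h : Function.Injective a) (hcomm : d ∘ₗ a₀.prodMap a₁ = a ∘ₗ d')
    [Module.Finite K (LinearMap.ker d)] [Module.Finite K (M ⧸ LinearMap.range d)]
    [Module.Finite K (LinearMap.ker d')] [Module.Finite K (M' ⧸ LinearMap.range d')]
    [Module.Finite K (P ⧸ LinearMap.range a₀)] [Module.Finite K (Q ⧸ LinearMap.range a₁)]
    [Module.Finite K (M ⧸ LinearMap.range a)] :
    ((Module.finrank K (LinearMap.ker d) : ℤ) - Module.finrank K (M ⧸ LinearMap.range d)) -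
      ((Module.finrank K (LinearMap.ker d') : ℤ) - Module.finrank K (M' ⧸ LinearMap.range d')) =
    (Module.finrank K (P ⧸ LinearMap.range a₀) : ℤ) + Module.finrank K (Q ⧸ LinearMap.range a₁) -
      Module.finrank K (M ⧸ LinearMap.range a) := by
  set A := a₀.prodMap a₁ with hA
  have hAinj : Function.Injective A := h₀.prodMap h₁
  let π : P × Q →ₗ[K] (P ⧸ LinearMap.range a₀) × (Q ⧸ LinearMap.range a₁) :=
    (Submodule.mkQ _).prodMap (Submodule.mkQ _)
  have hπ : Function.Surjective π :=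
    (Submodule.mkQ_surjective _).prodMap (Submodule.mkQ_surjective _)
  have hker : LinearMap.ker π = LinearMap.range A := by
    rw [LinearMap.ker_prodMap, Submodule.ker_mkQ, Submodule.ker_mkQ, hA, LinearMap.range_prodMap]
  let e : ((P × Q) ⧸ LinearMap.range A) ≃ₗ[K]
      (P ⧸ LinearMap.range a₀) × (Q ⧸ LinearMap.range a₁) :=
    (Submodule.quotEquivOfEq _ _ hker.symm).trans (π.quotKerEquivOfSurjective hπ)
  haveI : Module.Finite K ((P × Q) ⧸ LinearMap.range A) := Module.Finite.equiv e.symm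
  haveI : FiniteDimensional K (LinearMap.ker A) := by
    rw [LinearMap.ker_eq_bot.2 hAinj]; infer_instance
  haveI : FiniteDimensional K (LinearMap.ker a) := by
    rw [LinearMap.ker_eq_bot.2 h]; infer_instance
  have e1 := LinearMap.index_comp (f := A) d
  have e2 := LinearMap.index_comp (f := d') a
  rw [hcomm, e2, LinearMap.index_of_injective hAinj, LinearMap.index_of_injective h,
    e.finrank_eq, Module.finrank_prod, LinearMap.index_eq_finrank_sub,
    LinearMap.index_eq_finrank_sub] at e1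
  omega

end SubIndex

namespace Bundle

variable {k : Type u} [Field k] {C : Cover k} {K : Type u} [Field K] [Algebra k K]

attribute [local instance] rModule₀ rModule₁ rModule tower₀ tower₁ tower

variable {F E : Bundle C K} (a₀ : F.M₀ →ₗ[C.B₀ K] E.M₀) (a₁ : F.M₁ →ₗ[C.B₁ K] E.M₁)
  (a : F.M →ₗ[C.B K] E.M)

/-- A finite colength in a chart bounds the colength on the overlap. -/
theorem surjective_toQuot₀ (h₀ : ∀ m, a (F.ι₀ m) = E.ι₀ (a₀ m))
    [Module.Finite K (E.M₀ ⧸ LinearMap.range (a₀.restrictScalars K))] :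
    Function.Surjective ((LinearMap.range (a.restrictScalars K)).mkQ ∘ₗ E.lin₀) := by
  set N := LinearMap.range (a.restrictScalars K)
  set N₀ := LinearMap.range (a₀.restrictScalars K)
  let ψ : (E.M₀ ⧸ N₀) →ₗ[K] E.M ⧸ N := Submodule.mapQ N₀ N E.lin₀ (by
    rintro _ ⟨z, rfl⟩
    exact ⟨F.ι₀ z, h₀ z⟩)
  set W := LinearMap.range ψ
  haveI : Module.Finite K W := Module.Finite.range ψ
  let xM : E.M →ₗ[K] E.M :=
    { toFun := fun m => C.resB₀ K (C.xB K) • m
      map_add' := fun p q => smul_add _ p q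
      map_smul' := fun r p => smul_comm _ r p }
  let yM : E.M →ₗ[K] E.M :=
    { toFun := fun m => C.resB₁ K (C.yB K) • m
      map_add' := fun p q => smul_add _ p q
      map_smul' := fun r p => smul_comm _ r p }
  have hxN : N ≤ N.comap xM := by
    rintro _ ⟨z, rfl⟩
    exact ⟨C.resB₀ K (C.xB K) • z, map_smul a _ z⟩
  have hyN : N ≤ N.comap yM := by
    rintro _ ⟨z, rfl⟩
    exact ⟨C.resB₁ K (C.yB K) • z, map_smul a _ z⟩
  let X := Submodule.mapQ N N xM hxN
  let Y := Submodule.mapQ N N yM hyN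
  have hYX : ∀ q, Y (X q) = q := fun q => by
    obtain ⟨m, rfl⟩ := N.mkQ_surjective q
    refine congrArg N.mkQ ?_
    show C.resB₁ K (C.yB K) • C.resB₀ K (C.xB K) • m = m
    rw [smul_smul, mul_comm, Bundle.resB_mul, one_smul]
  have hXW : ∀ w ∈ W, X w ∈ W := by
    rintro _ ⟨q, rfl⟩
    obtain ⟨m, rfl⟩ := N₀.mkQ_surjective q
    refine ⟨N₀.mkQ (C.xB K • m), congrArg N.mkQ ?_⟩
    show E.ι₀ (C.xB K • m) = C.resB₀ K (C.xB K) • E.ι₀ m
    rw [E.ι₀.map_smulₛₗ]
  let XW : W →ₗ[K] W := X.restrict hXW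
  have hXinj : Function.Injective X := Function.LeftInverse.injective hYX
  have hXWsurj : Function.Surjective XW :=
    LinearMap.injective_iff_surjective.1 fun p q h => Subtype.ext (hXinj (congrArg Subtype.val h))
  intro q
  obtain ⟨m, rfl⟩ := N.mkQ_surjective q
  obtain ⟨n, m₀, hn⟩ := E.loc₀ m
  have hpow : ∀ (n : ℕ) (m : E.M), N.mkQ (C.resB₀ K (C.xB K) ^ n • m) ∈ W → N.mkQ m ∈ W := by
    intro n
    induction n with
    | zero => intro m hm; rwa [pow_zero, one_smul] at hm
    | succ n ih =>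
      intro m hm
      refine ih m ?_
      rw [pow_succ', mul_smul] at hm
      obtain ⟨w, hw⟩ := hXWsurj ⟨_, hm⟩
      have hw' : X (w : E.M ⧸ N) = X (N.mkQ (C.resB₀ K (C.xB K) ^ n • m)) := congrArg Subtype.val hw
      rw [← hXinj hw']
      exact w.2
  obtain ⟨q₀, hq₀⟩ := hpow n m ⟨N₀.mkQ m₀, by rw [hn]; rfl⟩
  obtain ⟨p, rfl⟩ := N₀.mkQ_surjective q₀
  exact ⟨p, hq₀⟩

/-- A finite colength in the other chart bounds the colength on the overlap. -/
theorem surjective_toQuot₁ (h₁ : ∀ m, a (F.ι₁ m) = E.ι₁ (a₁ m))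
    [Module.Finite K (E.M₁ ⧸ LinearMap.range (a₁.restrictScalars K))] :
    Function.Surjective ((LinearMap.range (a.restrictScalars K)).mkQ ∘ₗ E.lin₁) := by
  set N := LinearMap.range (a.restrictScalars K)
  set N₁ := LinearMap.range (a₁.restrictScalars K)
  let ψ : (E.M₁ ⧸ N₁) →ₗ[K] E.M ⧸ N := Submodule.mapQ N₁ N E.lin₁ (by
    rintro _ ⟨z, rfl⟩
    exact ⟨F.ι₁ z, h₁ z⟩)
  set W := LinearMap.range ψ
  haveI : Module.Finite K W := Module.Finite.range ψ
  let xM : E.M →ₗ[K] E.M :=
    { toFun := fun m => C.resB₁ K (C.yB K) • m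
      map_add' := fun p q => smul_add _ p q
      map_smul' := fun r p => smul_comm _ r p }
  let yM : E.M →ₗ[K] E.M :=
    { toFun := fun m => C.resB₀ K (C.xB K) • m
      map_add' := fun p q => smul_add _ p q
      map_smul' := fun r p => smul_comm _ r p }
  have hxN : N ≤ N.comap xM := by
    rintro _ ⟨z, rfl⟩
    exact ⟨C.resB₁ K (C.yB K) • z, map_smul a _ z⟩
  have hyN : N ≤ N.comap yM := by
    rintro _ ⟨z, rfl⟩
    exact ⟨C.resB₀ K (C.xB K) • z, map_smul a _ z⟩
  let X := Submodule.mapQ N N xM hxN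
  let Y := Submodule.mapQ N N yM hyN
  have hYX : ∀ q, Y (X q) = q := fun q => by
    obtain ⟨m, rfl⟩ := N.mkQ_surjective q
    refine congrArg N.mkQ ?_
    show C.resB₀ K (C.xB K) • C.resB₁ K (C.yB K) • m = m
    rw [smul_smul, Bundle.resB_mul, one_smul]
  have hXW : ∀ w ∈ W, X w ∈ W := by
    rintro _ ⟨q, rfl⟩
    obtain ⟨m, rfl⟩ := N₁.mkQ_surjective q
    refine ⟨N₁.mkQ (C.yB K • m), congrArg N.mkQ ?_⟩
    show E.ι₁ (C.yB K • m) = C.resB₁ K (C.yB K) • E.ι₁ m
    rw [E.ι₁.map_smulₛₗ]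
  let XW : W →ₗ[K] W := X.restrict hXW
  have hXinj : Function.Injective X := Function.LeftInverse.injective hYX
  have hXWsurj : Function.Surjective XW :=
    LinearMap.injective_iff_surjective.1 fun p q h => Subtype.ext (hXinj (congrArg Subtype.val h))
  intro q
  obtain ⟨m, rfl⟩ := N.mkQ_surjective q
  obtain ⟨n, m₁, hn⟩ := E.loc₁ m
  have hpow : ∀ (n : ℕ) (m : E.M), N.mkQ (C.resB₁ K (C.yB K) ^ n • m) ∈ W → N.mkQ m ∈ W := by
    intro n
    induction n with
    | zero => intro m hm; rwa [pow_zero, one_smul] at hm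
    | succ n ih =>
      intro m hm
      refine ih m ?_
      rw [pow_succ', mul_smul] at hm
      obtain ⟨w, hw⟩ := hXWsurj ⟨_, hm⟩
      have hw' : X (w : E.M ⧸ N) = X (N.mkQ (C.resB₁ K (C.yB K) ^ n • m)) := congrArg Subtype.val hw
      rw [← hXinj hw']
      exact w.2
  obtain ⟨q₁, hq₁⟩ := hpow n m ⟨N₁.mkQ m₁, by rw [hn]; rfl⟩
  obtain ⟨p, rfl⟩ := N₁.mkQ_surjective q₁
  exact ⟨p, hq₁⟩

/-- The overlap colength is at most that of the first chart. -/
theorem finite_quot₀ (h₀ : ∀ m, a (F.ι₀ m) = E.ι₀ (a₀ m))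
    [Module.Finite K (E.M₀ ⧸ LinearMap.range (a₀.restrictScalars K))] :
    Module.Finite K (E.M ⧸ LinearMap.range (a.restrictScalars K)) ∧
      Module.finrank K (E.M ⧸ LinearMap.range (a.restrictScalars K)) ≤
        Module.finrank K (E.M₀ ⧸ LinearMap.range (a₀.restrictScalars K)) := by
  let ψ : (E.M₀ ⧸ LinearMap.range (a₀.restrictScalars K)) →ₗ[K]
      E.M ⧸ LinearMap.range (a.restrictScalars K) := Submodule.mapQ _ _ E.lin₀ (by
    rintro _ ⟨z, rfl⟩
    exact ⟨F.ι₀ z, h₀ z⟩)
  have hψ : Function.Surjective ψ := fun q => by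
    obtain ⟨p, hp⟩ := surjective_toQuot₀ a₀ a h₀ q
    exact ⟨Submodule.Quotient.mk p, hp⟩
  exact ⟨Module.Finite.of_surjective ψ hψ, LinearMap.finrank_le_finrank_of_surjective hψ⟩

/-- The overlap colength is at most that of the second chart. -/
theorem finite_quot₁ (h₁ : ∀ m, a (F.ι₁ m) = E.ι₁ (a₁ m))
    [Module.Finite K (E.M₁ ⧸ LinearMap.range (a₁.restrictScalars K))] :
    Module.Finite K (E.M ⧸ LinearMap.range (a.restrictScalars K)) ∧
      Module.finrank K (E.M ⧸ LinearMap.range (a.restrictScalars K)) ≤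
        Module.finrank K (E.M₁ ⧸ LinearMap.range (a₁.restrictScalars K)) := by
  let ψ : (E.M₁ ⧸ LinearMap.range (a₁.restrictScalars K)) →ₗ[K]
      E.M ⧸ LinearMap.range (a.restrictScalars K) := Submodule.mapQ _ _ E.lin₁ (by
    rintro _ ⟨z, rfl⟩
    exact ⟨F.ι₁ z, h₁ z⟩)
  have hψ : Function.Surjective ψ := fun q => by
    obtain ⟨p, hp⟩ := surjective_toQuot₁ a₁ a h₁ q
    exact ⟨Submodule.Quotient.mk p, hp⟩
  exact ⟨Module.Finite.of_surjective ψ hψ, LinearMap.finrank_le_finrank_of_surjective hψ⟩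

/-- Euler characteristic of a sub-bundle of finite colength. -/
theorem euler_sub (hi₀ : Function.Injective a₀) (hi₁ : Function.Injective a₁)
    (hi : Function.Injective a) (h₀ : ∀ m, a (F.ι₀ m) = E.ι₀ (a₀ m))
    (h₁ : ∀ m, a (F.ι₁ m) = E.ι₁ (a₁ m))
    [Module.Finite K (E.M₀ ⧸ LinearMap.range (a₀.restrictScalars K))]
    [Module.Finite K (E.M₁ ⧸ LinearMap.range (a₁.restrictScalars K))] :
    E.euler - F.euler = (Module.finrank K (E.M₀ ⧸ LinearMap.range (a₀.restrictScalars K)) : ℤ) +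
      Module.finrank K (E.M₁ ⧸ LinearMap.range (a₁.restrictScalars K)) -
      Module.finrank K (E.M ⧸ LinearMap.range (a.restrictScalars K)) := by
  haveI := (finite_quot₀ a₀ a h₀).1
  haveI := E.finite_kerDiff.1
  haveI := E.finite_kerDiff.2
  haveI := F.finite_kerDiff.1
  haveI := F.finite_kerDiff.2
  exact SubIndex.index_sub E.diffLin F.diffLin (a₀.restrictScalars K) (a₁.restrictScalars K)
    (a.restrictScalars K) hi₀ hi₁ hi (LinearMap.ext fun ⟨p, q⟩ => by
      show E.ι₀ (a₀ p) - E.ι₁ (a₁ q) = a (F.ι₀ p - F.ι₁ q)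
      rw [map_sub, h₀, h₁])

end Bundle

end FLTAgent.JacRep
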