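import Mathlib
import Fermat.Agent.JacRep.Coh
import Fermat.Agent.JacRep.Degree.Basic
import Fermat.Agent.JacRep.Degree.Chart
import Fermat.Agent.JacRep.Degree.RankOne
import Fermat.Agent.JacRep.Degree.Sub
import Fermat.Agent.JacRep.Degree.Classes

/-!
# Points over an algebraically closed field

Maximal ideals of a chart are ideals of points (`exists_point_eq`), and twisting by a point lowers
the Euler characteristic by one (`euler_point₀`, `euler_point₁`). For bundles with a section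
(`HasSection`) the Euler characteristic is at least that of the trivial bundle, with equality only
for the trivial one (`euler_le_of_hasSection`); a section vanishing somewhere can be peeled
(`exists_peel`).
-/

set_option autoImplicit false
set_option linter.style.haveILetI false
set_option linter.unusedSectionVars false

noncomputable section

open scoped TensorProduct
open FLTAgent.JacRep.PointIdeal

universe u

namespace FLTAgent.JacRep

variable {k : Type u} [Field k] {C : Cover k} {K : Type u} [Field K] [IsAlgClosed K] [Algebra k K]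

/-- A point of the first chart over a field. -/
def Cover.fieldPoint₀ (C : Cover k) (φ : C.A₀ →ₐ[k] K) : IdealPair C K :=
  C.pointOf₀ φ (haveI := C.dedekind₀ K; locPrincipal_of_dedekind _)
    (haveI := C.dedekind₁ K; locPrincipal_of_dedekind _)

/-- A point of the second chart over a field. -/
def Cover.fieldPoint₁ (C : Cover k) (φ : C.A₁ →ₐ[k] K) : IdealPair C K :=
  C.pointOf₁ φ (haveI := C.dedekind₁ K; locPrincipal_of_dedekind _)
    (haveI := C.dedekind₀ K; locPrincipal_of_dedekind _)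

namespace PointIdeal

variable {S : Type u} [CommRing S] [Algebra k S]

omit [IsAlgClosed K] in
theorem mainIdeal_isMaximal (φ : S →ₐ[k] K) : (mainIdeal φ).IsMaximal := by
  let ev := Algebra.TensorProduct.lift (AlgHom.id k K) φ (fun _ _ => Commute.all _ _)
  have hker : mainIdeal φ = RingHom.ker ev := by
    refine le_antisymm (fun z hz => eval_eq_zero_of_mem φ hz) fun z hz => ?_
    have h := sub_mem_mainIdeal φ z
    rw [show Algebra.TensorProduct.lift (AlgHom.id k K) φ (fun _ _ => Commute.all _ _) z = 0 from hz,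
      TensorProduct.zero_tmul, sub_zero] at h
    exact h
  rw [hker]
  exact RingHom.ker_isMaximal_of_surjective _ fun c => ⟨c ⊗ₜ 1, by simp [ev]⟩

/-- Maximal ideals are ideals of points. -/
theorem exists_point_eq [Algebra.FiniteType k S] {m : Ideal (K ⊗[k] S)} (hm : m.IsMaximal) :
    ∃ φ : S →ₐ[k] K, mainIdeal φ = m := by
  letI := Ideal.Quotient.field m
  haveI : Algebra.FiniteType K (K ⊗[k] S) := Algebra.FiniteType.baseChange K
  haveI : Algebra.FiniteType K ((K ⊗[k] S) ⧸ m) :=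
    Algebra.FiniteType.of_surjective (Ideal.Quotient.mkₐ K m) Ideal.Quotient.mk_surjective
  haveI : Module.Finite K ((K ⊗[k] S) ⧸ m) := finite_of_finite_type_of_isJacobsonRing K _
  haveI : Algebra.IsAlgebraic K ((K ⊗[k] S) ⧸ m) := Algebra.IsAlgebraic.of_finite K _
  let e : K ≃ₐ[K] ((K ⊗[k] S) ⧸ m) := AlgEquiv.ofBijective (Algebra.ofId K _)
    (IsAlgClosed.algebraMap_bijective_of_isIntegral (k := K) (K := (K ⊗[k] S) ⧸ m))
  let φ : S →ₐ[k] K := ((e.symm : _ →ₐ[K] K).restrictScalars k).comp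
    (((Ideal.Quotient.mkₐ K m).restrictScalars k).comp Algebra.TensorProduct.includeRight)
  refine ⟨φ, (mainIdeal_isMaximal φ).eq_of_le hm.ne_top (Ideal.span_le.2 ?_)⟩
  rintro _ ⟨s, rfl⟩
  refine Ideal.Quotient.eq.1 ?_
  show algebraMap K ((K ⊗[k] S) ⧸ m) (φ s) = Ideal.Quotient.mk m (1 ⊗ₜ s)
  exact e.apply_symm_apply _

end PointIdeal

namespace Bundle

attribute [local instance] rModule₀ rModule₁ rModule tower₀ tower₁ tower

/-- Saturation on the chart not containing the point. -/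
theorem mem_twist_of_ι₁ {R : Type u} [CommRing R] [Algebra k R] (E : Bundle C R)
    (D : IdealPair C R) {c : C.B₁ R} (hc : 1 - c * C.yB R ∈ D.J₁) {z : E.M₁}
    (hz : E.ι₁ z ∈ (D.J • ⊤ : Submodule (C.B R) E.M)) :
    z ∈ (D.J₁ • ⊤ : Submodule (C.B₁ R) E.M₁) := by
  obtain ⟨n, a, ha, hn⟩ := E.twist_loc₁ D hz
  rw [← map_pow, ← E.ι₁.map_smulₛₗ] at hn
  rw [← E.inj₁ hn] at ha
  have h1 : 1 - (c * C.yB R) ^ n ∈ D.J₁ := by
    rw [← (one_pow n : (1 : C.B₁ R) ^ n = 1)]
    exact Ideal.mem_of_dvd _ (sub_dvd_pow_sub_pow _ _ n) hc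
  rw [show z = (1 - (c * C.yB R) ^ n) • z + c ^ n • (C.yB R ^ n • z) by
    rw [smul_smul, ← mul_pow, ← add_smul, sub_add_cancel, one_smul]]
  exact add_mem (Submodule.smul_mem_smul h1 trivial) (Submodule.smul_mem _ _ ha)

/-- Saturation on the chart not containing the point. -/
theorem mem_twist_of_ι₀ {R : Type u} [CommRing R] [Algebra k R] (E : Bundle C R)
    (D : IdealPair C R) {c : C.B₀ R} (hc : 1 - c * C.xB R ∈ D.J₀) {z : E.M₀}
    (hz : E.ι₀ z ∈ (D.J • ⊤ : Submodule (C.B R) E.M)) :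
    z ∈ (D.J₀ • ⊤ : Submodule (C.B₀ R) E.M₀) := by
  obtain ⟨n, a, ha, hn⟩ := E.twist_loc₀ D hz
  rw [← map_pow, ← E.ι₀.map_smulₛₗ] at hn
  rw [← E.inj₀ hn] at ha
  have h1 : 1 - (c * C.xB R) ^ n ∈ D.J₀ := by
    rw [← (one_pow n : (1 : C.B₀ R) ^ n = 1)]
    exact Ideal.mem_of_dvd _ (sub_dvd_pow_sub_pow _ _ n) hc
  rw [show z = (1 - (c * C.xB R) ^ n) • z + c ^ n • (C.xB R ^ n • z) by
    rw [smul_smul, ← mul_pow, ← add_smul, sub_add_cancel, one_smul]]
  exact add_mem (Submodule.smul_mem_smul h1 trivial) (Submodule.smul_mem _ _ ha)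

theorem one_sub_mem₀ (φ : C.A₀ →ₐ[k] K) :
    1 - (φ C.x ⊗ₜ[k] (1 : C.A₁) : C.B₁ K) * C.yB K ∈ (C.fieldPoint₀ φ).J₁ := by
  have := one_sub_mem_sideIdeal C.res₀ C.res₁ C.x C.y φ C.x_mul_y
  simpa [Cover.fieldPoint₀, Cover.pointOf₀, Cover.yB] using this

theorem one_sub_mem₁ (φ : C.A₁ →ₐ[k] K) :
    1 - (φ C.y ⊗ₜ[k] (1 : C.A₀) : C.B₀ K) * C.xB K ∈ (C.fieldPoint₁ φ).J₀ := by
  have := one_sub_mem_sideIdeal C.res₁ C.res₀ C.y C.x φ C.y_mul_x
  simpa [Cover.fieldPoint₁, Cover.pointOf₁, Cover.xB] using this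

omit [IsAlgClosed K] in
/-- A point has colength one. -/
theorem finrank_quot_point {S : Type u} [CommRing S] [Algebra k S] (φ : S →ₐ[k] K) {M : Type u}
    [AddCommGroup M] [Module (K ⊗[k] S) M] [Module.Invertible (K ⊗[k] S) M] [Module K M]
    [IsScalarTower K (K ⊗[k] S) M] :
    Module.Finite K (M ⧸ (mainIdeal φ • ⊤ : Submodule (K ⊗[k] S) M).restrictScalars K) ∧
    Module.finrank K (M ⧸ (mainIdeal φ • ⊤ : Submodule (K ⊗[k] S) M).restrictScalars K) = 1 := by
  set P := (mainIdeal φ • ⊤ : Submodule (K ⊗[k] S) M)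
  obtain ⟨e, he⟩ : ∃ e, e ∉ P := by
    by_contra h
    push Not at h
    exact RankOne.smul_top_ne_top (mainIdeal_isMaximal φ).ne_top (eq_top_iff.2 fun z _ => h z)
  obtain ⟨f, hf⟩ : ∃ f : Module.Dual (K ⊗[k] S) M, f e ∉ mainIdeal φ := by
    by_contra h
    push Not at h
    exact he (RankOne.mem_smul_top_of_forall h)
  let ev := Algebra.TensorProduct.lift (AlgHom.id k K) φ (fun _ _ => Commute.all _ _)
  have hscal : ∀ z, z - algebraMap K (K ⊗[k] S) (ev z) ∈ mainIdeal φ := sub_mem_mainIdeal φ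
  have hb : ev (f e) ≠ 0 := fun h0 => hf (by simpa [h0] using hscal (f e))
  let g : K →ₗ[K] M ⧸ P.restrictScalars K := LinearMap.toSpanSingleton K _ (Submodule.Quotient.mk e)
  have hg : Function.Bijective g := by
    refine ⟨?_, fun q => ?_⟩
    · refine smul_left_injective K
        (?_ : (Submodule.Quotient.mk e : M ⧸ P.restrictScalars K) ≠ 0)
      rw [Ne, Submodule.Quotient.mk_eq_zero]
      exact he
    · obtain ⟨m, rfl⟩ := Submodule.Quotient.mk_surjective _ q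
      refine ⟨(ev (f e))⁻¹ * ev (f m), ?_⟩
      show ((ev (f e))⁻¹ * ev (f m)) • (Submodule.Quotient.mk e : M ⧸ P.restrictScalars K) = _
      rw [← Submodule.Quotient.mk_smul, Submodule.Quotient.eq]
      show _ ∈ P
      have h : ev (f e) • m - ev (f m) • e ∈ P := by
        rw [← algebraMap_smul (K ⊗[k] S) (ev (f e)) m, ← algebraMap_smul (K ⊗[k] S) (ev (f m)) e,
          show algebraMap K (K ⊗[k] S) (ev (f e)) • m - algebraMap K (K ⊗[k] S) (ev (f m)) • e =
            (f m - algebraMap K (K ⊗[k] S) (ev (f m))) • e -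
              (f e - algebraMap K (K ⊗[k] S) (ev (f e))) • m by
            rw [sub_smul, sub_smul, RankOne.dual_swap f m e]; abel]
        exact sub_mem (Submodule.smul_mem_smul (hscal _) trivial)
          (Submodule.smul_mem_smul (hscal _) trivial)
      have h' := (P.restrictScalars K).smul_mem (-(ev (f e))⁻¹) h
      rwa [smul_sub, smul_smul, smul_smul, neg_mul, inv_mul_cancel₀ hb, neg_mul, neg_smul, neg_smul,
        one_smul, neg_sub_neg] at h'
  exact ⟨Module.Finite.of_surjective g hg.2,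
    by rw [← (LinearEquiv.ofBijective g hg).finrank_eq, Module.finrank_self]⟩

omit [IsAlgClosed K] in
theorem range_subtype_restrict {B M : Type u} [CommRing B] [Algebra K B] [AddCommGroup M]
    [Module B M] [Module K M] [IsScalarTower K B M] (N : Submodule B M) :
    LinearMap.range (N.subtype.restrictScalars K) = N.restrictScalars K :=
  Submodule.ext fun z => ⟨fun ⟨w, hw⟩ => hw ▸ w.2, fun hz => ⟨⟨z, hz⟩, rfl⟩⟩

/-- Subtracting a point of the first chart lowers the Euler characteristic by one. -/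
theorem euler_point₀ (E : Bundle C K) (φ : C.A₀ →ₐ[k] K) :
    (E.twist (C.fieldPoint₀ φ)).euler = E.euler - 1 := by
  set D := C.fieldPoint₀ φ
  let a₀ : (E.twist D).M₀ →ₗ[C.B₀ K] E.M₀ := (D.J₀ • ⊤ : Submodule (C.B₀ K) E.M₀).subtype
  let a₁ : (E.twist D).M₁ →ₗ[C.B₁ K] E.M₁ := (D.J₁ • ⊤ : Submodule (C.B₁ K) E.M₁).subtype
  let a : (E.twist D).M →ₗ[C.B K] E.M := (D.J • ⊤ : Submodule (C.B K) E.M).subtype
  have hr₀ : LinearMap.range (a₀.restrictScalars K) =
      (mainIdeal φ • ⊤ : Submodule (C.B₀ K) E.M₀).restrictScalars K := range_subtype_restrict _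
  obtain ⟨hfin, hone⟩ := finrank_quot_point φ (M := E.M₀)
  rw [← hr₀] at hfin hone
  haveI := hfin
  haveI := (finite_quot₀ a₀ a (fun _ => rfl)).1
  let ψ : (E.M₁ ⧸ LinearMap.range (a₁.restrictScalars K)) →ₗ[K]
      E.M ⧸ LinearMap.range (a.restrictScalars K) := Submodule.mapQ _ _ E.lin₁ (by
    rintro _ ⟨z, rfl⟩
    exact ⟨(E.twist D).ι₁ z, rfl⟩)
  have hinj : Function.Injective ψ := by
    refine (injective_iff_map_eq_zero ψ).2 fun q hq => ?_
    obtain ⟨z, rfl⟩ := Submodule.Quotient.mk_surjective _ q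
    obtain ⟨w, hw⟩ := (Submodule.Quotient.mk_eq_zero _).1 hq
    refine (Submodule.Quotient.mk_eq_zero _).2 ⟨⟨z, E.mem_twist_of_ι₁ D (one_sub_mem₀ φ) ?_⟩, rfl⟩
    rw [show E.ι₁ z = a w from hw.symm]
    exact w.2
  haveI := Module.Finite.of_injective ψ hinj
  have hsurj : Function.Surjective ψ := fun q => by
    obtain ⟨p, hp⟩ := surjective_toQuot₁ a₁ a (fun _ => rfl) q
    exact ⟨Submodule.Quotient.mk p, hp⟩
  have h := euler_sub a₀ a₁ a (Submodule.injective_subtype _) (Submodule.injective_subtype _)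
    (Submodule.injective_subtype _) (fun _ => rfl) (fun _ => rfl)
  rw [hone, (LinearEquiv.ofBijective ψ ⟨hinj, hsurj⟩).finrank_eq] at h
  omega

/-- Subtracting a point of the second chart lowers the Euler characteristic by one. -/
theorem euler_point₁ (E : Bundle C K) (φ : C.A₁ →ₐ[k] K) :
    (E.twist (C.fieldPoint₁ φ)).euler = E.euler - 1 := by
  set D := C.fieldPoint₁ φ
  let a₀ : (E.twist D).M₀ →ₗ[C.B₀ K] E.M₀ := (D.J₀ • ⊤ : Submodule (C.B₀ K) E.M₀).subtype
  let a₁ : (E.twist D).M₁ →ₗ[C.B₁ K] E.M₁ := (D.J₁ • ⊤ : Submodule (C.B₁ K) E.M₁).subtype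
  let a : (E.twist D).M →ₗ[C.B K] E.M := (D.J • ⊤ : Submodule (C.B K) E.M).subtype
  have hr₁ : LinearMap.range (a₁.restrictScalars K) =
      (mainIdeal φ • ⊤ : Submodule (C.B₁ K) E.M₁).restrictScalars K := range_subtype_restrict _
  obtain ⟨hfin, hone⟩ := finrank_quot_point φ (M := E.M₁)
  rw [← hr₁] at hfin hone
  haveI := hfin
  haveI := (finite_quot₁ a₁ a (fun _ => rfl)).1
  let ψ : (E.M₀ ⧸ LinearMap.range (a₀.restrictScalars K)) →ₗ[K]
      E.M ⧸ LinearMap.range (a.restrictScalars K) := Submodule.mapQ _ _ E.lin₀ (by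
    rintro _ ⟨z, rfl⟩
    exact ⟨(E.twist D).ι₀ z, rfl⟩)
  have hinj : Function.Injective ψ := by
    refine (injective_iff_map_eq_zero ψ).2 fun q hq => ?_
    obtain ⟨z, rfl⟩ := Submodule.Quotient.mk_surjective _ q
    obtain ⟨w, hw⟩ := (Submodule.Quotient.mk_eq_zero _).1 hq
    refine (Submodule.Quotient.mk_eq_zero _).2 ⟨⟨z, E.mem_twist_of_ι₀ D (one_sub_mem₁ φ) ?_⟩, rfl⟩
    rw [show E.ι₀ z = a w from hw.symm]
    exact w.2
  haveI := Module.Finite.of_injective ψ hinj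
  have hsurj : Function.Surjective ψ := fun q => by
    obtain ⟨p, hp⟩ := surjective_toQuot₀ a₀ a (fun _ => rfl) q
    exact ⟨Submodule.Quotient.mk p, hp⟩
  have h := euler_sub a₀ a₁ a (Submodule.injective_subtype _) (Submodule.injective_subtype _)
    (Submodule.injective_subtype _) (fun _ => rfl) (fun _ => rfl)
  rw [hone, (LinearEquiv.ofBijective ψ ⟨hinj, hsurj⟩).finrank_eq] at h
  omega

omit [IsAlgClosed K] in
/-- A nonzero global section. -/
def HasSection (E : Bundle C K) : Prop :=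
  ∃ (s₀ : E.M₀) (s₁ : E.M₁), s₀ ≠ 0 ∧ E.ι₀ s₀ = E.ι₁ s₁

/-- A bundle with a section has nonnegative degree, and is trivial in degree zero. -/
theorem euler_le_of_hasSection {E U : Bundle C K} (hU : IsUnitBundle U) {s₀ : E.M₀} {s₁ : E.M₁}
    (hs : s₀ ≠ 0) (h : E.ι₀ s₀ = E.ι₁ s₁) :
    U.euler ≤ E.euler ∧ (E.euler ≤ U.euler →
      Submodule.span (C.B₀ K) {s₀} = ⊤ ∧ Submodule.span (C.B₁ K) {s₁} = ⊤ ∧ IsUnitBundle E) := by
  obtain ⟨e₀, e₁, e, h₀, h₁⟩ := hU
  haveI := C.dedekind₀ K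
  haveI := C.dedekind₁ K
  haveI := C.isDomain_B K
  haveI := C.finiteType₀
  haveI := C.finiteType₁
  haveI : Algebra.FiniteType K (C.B₀ K) := Algebra.FiniteType.baseChange K
  haveI : Algebra.FiniteType K (C.B₁ K) := Algebra.FiniteType.baseChange K
  have hm : E.ι₀ s₀ ≠ 0 := fun h0 => hs (E.inj₀ (h0.trans (map_zero _).symm))
  have hs₁ : s₁ ≠ 0 := fun h0 => hm (by rw [h, h0, map_zero])
  let a₀ : U.M₀ →ₗ[C.B₀ K] E.M₀ := LinearMap.toSpanSingleton _ _ s₀ ∘ₗ e₀.toLinearMap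
  let a₁ : U.M₁ →ₗ[C.B₁ K] E.M₁ := LinearMap.toSpanSingleton _ _ s₁ ∘ₗ e₁.toLinearMap
  let a : U.M →ₗ[C.B K] E.M := LinearMap.toSpanSingleton _ _ (E.ι₀ s₀) ∘ₗ e.toLinearMap
  have hc₀ : ∀ m, a (U.ι₀ m) = E.ι₀ (a₀ m) := fun m => by
    show e (U.ι₀ m) • E.ι₀ s₀ = E.ι₀ (e₀ m • s₀)
    rw [h₀, E.ι₀.map_smulₛₗ]
  have hc₁ : ∀ m, a (U.ι₁ m) = E.ι₁ (a₁ m) := fun m => by
    show e (U.ι₁ m) • E.ι₀ s₀ = E.ι₁ (e₁ m • s₁)
    rw [h₁, E.ι₁.map_smulₛₗ, h]
  have hi₀ : Function.Injective a₀ := (RankOne.smul_left_injective hs).comp e₀.injective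
  have hi₁ : Function.Injective a₁ := (RankOne.smul_left_injective hs₁).comp e₁.injective
  have hi : Function.Injective a := (RankOne.smul_left_injective hm).comp e.injective
  have hr₀ : LinearMap.range (a₀.restrictScalars K) =
      (Submodule.span (C.B₀ K) {s₀}).restrictScalars K := Submodule.ext fun z => by
    constructor
    · rintro ⟨w, rfl⟩
      exact Submodule.smul_mem _ _ (Submodule.mem_span_singleton_self s₀)
    · intro hz
      obtain ⟨c, rfl⟩ := Submodule.mem_span_singleton.1 hz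
      exact ⟨e₀.symm c, by show e₀ (e₀.symm c) • s₀ = c • s₀; rw [e₀.apply_symm_apply]⟩
  have hr₁ : LinearMap.range (a₁.restrictScalars K) =
      (Submodule.span (C.B₁ K) {s₁}).restrictScalars K := Submodule.ext fun z => by
    constructor
    · rintro ⟨w, rfl⟩
      exact Submodule.smul_mem _ _ (Submodule.mem_span_singleton_self s₁)
    · intro hz
      obtain ⟨c, rfl⟩ := Submodule.mem_span_singleton.1 hz
      exact ⟨e₁.symm c, by show e₁ (e₁.symm c) • s₁ = c • s₁; rw [e₁.apply_symm_apply]⟩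
  have hf₀ := RankOne.finite_quotient_span (B := C.B₀ K) (K := K) hs
  have hf₁ := RankOne.finite_quotient_span (B := C.B₁ K) (K := K) hs₁
  haveI : Module.Finite K (E.M₀ ⧸ LinearMap.range (a₀.restrictScalars K)) := by
    rw [hr₀]
    exact Module.Finite.equiv (Submodule.Quotient.restrictScalarsEquiv K _).symm
  haveI : Module.Finite K (E.M₁ ⧸ LinearMap.range (a₁.restrictScalars K)) := by
    rw [hr₁]
    exact Module.Finite.equiv (Submodule.Quotient.restrictScalarsEquiv K _).symm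
  have hsub := euler_sub a₀ a₁ a hi₀ hi₁ hi hc₀ hc₁
  have hle₀ := (finite_quot₀ a₀ a hc₀).2
  have hle₁ := (finite_quot₁ a₁ a hc₁).2
  refine ⟨by omega, fun hle => ?_⟩
  have hz₀ : Module.finrank K (E.M₀ ⧸ LinearMap.range (a₀.restrictScalars K)) = 0 := by omega
  have hz₁ : Module.finrank K (E.M₁ ⧸ LinearMap.range (a₁.restrictScalars K)) = 0 := by omega
  rw [Module.finrank_zero_iff, Submodule.Quotient.subsingleton_iff, hr₀,
    Submodule.restrictScalars_eq_top_iff] at hz₀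
  rw [Module.finrank_zero_iff, Submodule.Quotient.subsingleton_iff, hr₁,
    Submodule.restrictScalars_eq_top_iff] at hz₁
  refine ⟨hz₀, hz₁, ?_⟩
  have hb₀ : Function.Bijective (LinearMap.toSpanSingleton (C.B₀ K) E.M₀ s₀) :=
    ⟨RankOne.smul_left_injective hs, fun z =>
      Submodule.mem_span_singleton.1 (hz₀ ▸ Submodule.mem_top)⟩
  have hb₁ : Function.Bijective (LinearMap.toSpanSingleton (C.B₁ K) E.M₁ s₁) :=
    ⟨RankOne.smul_left_injective hs₁, fun z =>
      Submodule.mem_span_singleton.1 (hz₁ ▸ Submodule.mem_top)⟩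
  have hb : Function.Bijective (LinearMap.toSpanSingleton (C.B K) E.M (E.ι₀ s₀)) := by
    refine ⟨RankOne.smul_left_injective hm, fun z => ?_⟩
    obtain ⟨n, z₀, hn⟩ := E.loc₀ z
    obtain ⟨c, hc⟩ := hb₀.2 z₀
    refine ⟨C.resB₁ K (C.yB K) ^ n * C.resB₀ K c, ?_⟩
    show (C.resB₁ K (C.yB K) ^ n * C.resB₀ K c) • E.ι₀ s₀ = z
    rw [mul_smul, ← E.ι₀.map_smulₛₗ, show c • s₀ = z₀ from hc, ← hn, smul_smul, ← mul_pow, mul_comm,
      C.resB_xy, one_pow, one_smul]
  refine ⟨(LinearEquiv.ofBijective _ hb₀).symm, (LinearEquiv.ofBijective _ hb₁).symm,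
    (LinearEquiv.ofBijective _ hb).symm, fun m => ?_, fun m => ?_⟩
  · rw [LinearEquiv.symm_apply_eq]
    obtain ⟨c, rfl⟩ := hb₀.2 m
    rw [LinearEquiv.ofBijective_symm_apply_apply]
    exact E.ι₀.map_smulₛₗ c s₀
  · rw [LinearEquiv.symm_apply_eq]
    obtain ⟨c, rfl⟩ := hb₁.2 m
    rw [LinearEquiv.ofBijective_symm_apply_apply]
    show E.ι₁ (c • s₁) = C.resB₁ K c • E.ι₀ s₀
    rw [h, E.ι₁.map_smulₛₗ]

/-- A section vanishing somewhere is a section of the bundle minus a point. -/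
theorem exists_peel {E : Bundle C K} {s₀ : E.M₀} {s₁ : E.M₁} (hs : s₀ ≠ 0)
    (h : E.ι₀ s₀ = E.ι₁ s₁)
    (hne : Submodule.span (C.B₀ K) {s₀} ≠ ⊤ ∨ Submodule.span (C.B₁ K) {s₁} ≠ ⊤) :
    (∃ φ : C.A₀ →ₐ[k] K, HasSection (E.twist (C.fieldPoint₀ φ))) ∨
      ∃ φ : C.A₁ →ₐ[k] K, HasSection (E.twist (C.fieldPoint₁ φ)) := by
  haveI := C.finiteType₀
  haveI := C.finiteType₁
  rcases hne with hne | hne
  · left
    obtain ⟨m, hm, hsm⟩ := RankOne.exists_maximal_of_span_ne_top hne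
    obtain ⟨φ, hφ⟩ := exists_point_eq (k := k) hm
    rw [← hφ] at hsm
    refine ⟨φ, ⟨s₀, hsm⟩, ⟨s₁, E.mem_twist_of_ι₁ (C.fieldPoint₀ φ) (one_sub_mem₀ φ) ?_⟩,
      fun h0 => hs (congrArg Subtype.val h0), Subtype.ext h⟩
    rw [← h]
    exact E.ι₀_mem_twist (C.fieldPoint₀ φ) hsm
  · right
    obtain ⟨m, hm, hsm⟩ := RankOne.exists_maximal_of_span_ne_top hne
    obtain ⟨φ, hφ⟩ := exists_point_eq (k := k) hm
    rw [← hφ] at hsm
    refine ⟨φ, ⟨s₀, E.mem_twist_of_ι₀ (C.fieldPoint₁ φ) (one_sub_mem₁ φ) ?_⟩, ⟨s₁, hsm⟩,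
      fun h0 => hs (congrArg Subtype.val h0), Subtype.ext h⟩
    rw [h]
    exact E.ι₁_mem_twist (C.fieldPoint₁ φ) hsm

end Bundle

end FLTAgent.JacRep
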