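import Mathlib
import Fermat.Agent.JacRep.Degree.Field

/-!
# The classes of points generate, and the Euler characteristic is additive

`pairCls` is the class of an ideal pair, `shift` the twist by a multiple of the fibre `x = 0`.
A bundle with a nonzero section is inverse to a product of point classes
(`exists_points_of_section`) and every bundle has a shift with a section, so the points generate
(`closure_pointClasses`). As each lowers the Euler characteristic by one, it is additive:
`clsEuler_mul` over algebraically closed fields, `clsEuler_mul_field` over any field.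
-/

set_option autoImplicit false
set_option linter.style.haveILetI false
set_option linter.unusedSectionVars false

noncomputable section

open scoped TensorProduct

universe u

namespace FLTAgent.JacRep.Bundle

variable {k : Type u} [Field k] {C : Cover k}

section General

variable {R : Type u} [CommRing R] [Algebra k R]

/-- The class of the ideal pair. -/
def pairCls (D : IdealPair C R) : Cls C R := cls ((exists_unit C R).choose.twist D)

theorem cls_twist (E : Bundle C R) (D : IdealPair C R) : cls (E.twist D) = cls E * pairCls D := by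
  obtain ⟨e₀, e₁, e, h₀, h₁⟩ := (exists_unit C R).choose_spec
  exact (cls_tensor (isTensor_twist E D _ e₀ e₁ e h₀ h₁)).symm

theorem pairCls_congr (D D' : IdealPair C R) (h₀ : D.J₀ = D'.J₀) (h₁ : D.J₁ = D'.J₁)
    (h : D.J = D'.J) : pairCls D = pairCls D' := by
  cases D
  cases D'
  simp only at h₀ h₁ h
  subst h₀ h₁ h
  rfl

theorem mapCls_pairCls {R' : Type u} [CommRing R'] [Algebra k R'] {φ : R →ₐ[k] R'}
    (D : IdealPair C R) (D' : IdealPair C R') (h₀ : D.J₀.map (C.mapB₀ φ) = D'.J₀)
    (h₁ : D.J₁.map (C.mapB₁ φ) = D'.J₁) : mapCls φ (pairCls D) = pairCls D' :=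
  cls_pullback (isPullback_twist
    (IsUnitBundle.isPullback_unit (exists_unit C R).choose_spec (exists_unit C R').choose_spec)
    D D' h₀ h₁)

/-- Shift of a bundle by a multiple of the fibre `x = 0`. -/
def shift (E : Bundle C R) (n : ℕ) : Bundle C R where
  M₀ := E.M₀
  M₁ := E.M₁
  M := E.M
  ι₀ :=
    { toFun := fun a => C.resB₁ R (C.yB R) ^ n • E.ι₀ a
      map_add' := fun a b => by rw [map_add, smul_add]
      map_smul' := fun c a => by rw [E.ι₀.map_smulₛₗ, smul_comm] }
  ι₁ := E.ι₁
  inj₀ := fun a b h => E.inj₀ (by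
    have hu : IsUnit (C.resB₁ R (C.yB R) ^ n) := (IsUnit.of_mul_eq_one (C.resB₀ R (C.xB R))
      (by rw [mul_comm, C.resB_xy])).pow n
    exact hu.smul_left_cancel.1 h)
  inj₁ := E.inj₁
  loc₀ := fun m => by
    obtain ⟨j, a, ha⟩ := E.loc₀ m
    refine ⟨j, C.xB R ^ n • a, ?_⟩
    show _ = C.resB₁ R (C.yB R) ^ n • E.ι₀ (C.xB R ^ n • a)
    rw [E.ι₀.map_smulₛₗ, map_pow, smul_smul, ← mul_pow, mul_comm, C.resB_xy, one_pow, one_smul, ha]
  loc₁ := E.loc₁

theorem cls_shift (E : Bundle C R) {U : Bundle C R} (hU : IsUnitBundle U) (n : ℕ) :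
    cls (E.shift n) = cls E * cls (U.shift n) := by
  obtain ⟨e₀, e₁, e, h₀, h₁⟩ := hU
  refine (cls_tensor ?_).symm
  refine ⟨(LinearMap.lsmul (C.B₀ R) E.M₀).flip.compl₂ e₀.toLinearMap,
    (LinearMap.lsmul (C.B₁ R) E.M₁).flip.compl₂ e₁.toLinearMap,
    (LinearMap.lsmul (C.B R) E.M).flip.compl₂ e.toLinearMap, ?_, ?_,
    fun (a : E.M₀) (b : U.M₀) => ?_, fun (a : E.M₁) (b : U.M₁) => ?_⟩
  · exact Submodule.eq_top_iff'.2 fun z => Submodule.subset_span ⟨z, e₀.symm 1, by
      show e₀ (e₀.symm 1) • z = z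
      rw [e₀.apply_symm_apply, one_smul]⟩
  · exact Submodule.eq_top_iff'.2 fun z => Submodule.subset_span ⟨z, e₁.symm 1, by
      show e₁ (e₁.symm 1) • z = z
      rw [e₁.apply_symm_apply, one_smul]⟩
  · show e (C.resB₁ R (C.yB R) ^ n • U.ι₀ b) • E.ι₀ a =
      C.resB₁ R (C.yB R) ^ n • E.ι₀ (e₀ b • a)
    rw [map_smul, h₀, E.ι₀.map_smulₛₗ, smul_eq_mul, mul_smul]
  · show e (U.ι₁ b) • E.ι₁ a = E.ι₁ (e₁ b • a)
    rw [h₁, E.ι₁.map_smulₛₗ]

theorem isPullback_shift {R' : Type u} [CommRing R'] [Algebra k R'] {φ : R →ₐ[k] R'}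
    {E : Bundle C R} {E' : Bundle C R'} (h : IsPullback φ E E') (n : ℕ) :
    IsPullback φ (E.shift n) (E'.shift n) := by
  obtain ⟨f₀, f₁, f, hs₀, hs₁, hf₀, hf₁⟩ := h
  refine ⟨f₀, f₁, f, hs₀, hs₁, fun (a : E.M₀) => ?_, hf₁⟩
  show f (C.resB₁ R (C.yB R) ^ n • E.ι₀ a) = C.resB₁ R' (C.yB R') ^ n • E'.ι₀ (f₀ a)
  rw [f.map_smulₛₗ, hf₀, map_pow, ← Cover.resB₁_mapB₁]
  simp [Cover.yB, Cover.mapB₁]

end General

variable {K : Type u} [Field K] [IsAlgClosed K] [Algebra k K]

variable (C K) in
/-- The classes of the ideals of the points. -/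
def pointClasses : Set (Cls C K) :=
  Set.range (fun φ : C.A₀ →ₐ[k] K => pairCls (C.fieldPoint₀ φ)) ∪
    Set.range (fun φ : C.A₁ →ₐ[k] K => pairCls (C.fieldPoint₁ φ))

theorem clsEuler_mul_point {p : Cls C K} (hp : p ∈ pointClasses C K) (c : Cls C K) :
    clsEuler (c * p) = clsEuler c - 1 := by
  obtain ⟨E, rfl⟩ := cls_surjective c
  rcases hp with ⟨φ, rfl⟩ | ⟨φ, rfl⟩ <;> rw [← cls_twist, clsEuler_cls, clsEuler_cls]
  · exact euler_point₀ E φ
  · exact euler_point₁ E φ

/-- A bundle with a section is inverse to a sum of points. -/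
theorem exists_points_of_section {E : Bundle C K} (hE : HasSection E) :
    ∃ (g : ℕ) (p : Fin g → Cls C K), (∀ i, p i ∈ pointClasses C K) ∧
      cls E * ∏ i, p i = 1 ∧ E.euler = clsEuler (1 : Cls C K) + g := by
  obtain ⟨U, hU⟩ := exists_unit C K
  have hUe : clsEuler (1 : Cls C K) = U.euler := by rw [← cls_unit hU, clsEuler_cls]
  have main : ∀ (d : ℕ) (E : Bundle C K), HasSection E → E.euler - U.euler ≤ d →
      ∃ (g : ℕ) (p : Fin g → Cls C K), (∀ i, p i ∈ pointClasses C K) ∧
        cls E * ∏ i, p i = 1 ∧ E.euler = U.euler + g := by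
    intro d
    induction d with
    | zero =>
      rintro E ⟨s₀, s₁, hs, h⟩ hd
      obtain ⟨hle, htriv⟩ := euler_le_of_hasSection hU hs h
      refine ⟨0, Fin.elim0, fun i => i.elim0, ?_, by simp only [Nat.cast_zero] at hd ⊢; omega⟩
      rw [cls_unit (htriv (by simpa using hd)).2.2]
      simp
    | succ d ih =>
      rintro E ⟨s₀, s₁, hs, h⟩ hd
      obtain ⟨hle, htriv⟩ := euler_le_of_hasSection hU hs h
      by_cases hgen : Submodule.span (C.B₀ K) {s₀} = ⊤ ∧ Submodule.span (C.B₁ K) {s₁} = ⊤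
      · rcases le_or_gt E.euler U.euler with h1 | h1
        · refine ⟨0, Fin.elim0, fun i => i.elim0, ?_, by simp; omega⟩
          rw [cls_unit (htriv h1).2.2]
          simp
        · exfalso
          obtain ⟨e₀, e₁, e, g₀, g₁⟩ := hU
          -- both charts are generated, so the section trivialises the bundle
          have hb₀ : Function.Bijective (LinearMap.toSpanSingleton (C.B₀ K) E.M₀ s₀) :=
            haveI := C.dedekind₀ K
            ⟨RankOne.smul_left_injective hs, fun z =>
              Submodule.mem_span_singleton.1 (hgen.1 ▸ Submodule.mem_top)⟩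
          have hs₁ : s₁ ≠ 0 := fun h0 => hs (E.inj₀ (by rw [h, h0, map_zero, map_zero]))
          have hb₁ : Function.Bijective (LinearMap.toSpanSingleton (C.B₁ K) E.M₁ s₁) :=
            haveI := C.dedekind₁ K
            ⟨RankOne.smul_left_injective hs₁, fun z =>
              Submodule.mem_span_singleton.1 (hgen.2 ▸ Submodule.mem_top)⟩
          haveI := C.isDomain_B K
          have hm : E.ι₀ s₀ ≠ 0 := fun h0 => hs (E.inj₀ (h0.trans (map_zero _).symm))
          have hb : Function.Bijective (LinearMap.toSpanSingleton (C.B K) E.M (E.ι₀ s₀)) := by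
            refine ⟨RankOne.smul_left_injective hm, fun z => ?_⟩
            obtain ⟨n, z₀, hn⟩ := E.loc₀ z
            obtain ⟨c, hc⟩ := hb₀.2 z₀
            refine ⟨C.resB₁ K (C.yB K) ^ n * C.resB₀ K c, ?_⟩
            show (C.resB₁ K (C.yB K) ^ n * C.resB₀ K c) • E.ι₀ s₀ = z
            rw [mul_smul, ← E.ι₀.map_smulₛₗ, show c • s₀ = z₀ from hc, ← hn, smul_smul, ← mul_pow,
              mul_comm, C.resB_xy, one_pow, one_smul]
          have hiso : U.Iso E := ⟨e₀.trans (LinearEquiv.ofBijective _ hb₀),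
            e₁.trans (LinearEquiv.ofBijective _ hb₁), e.trans (LinearEquiv.ofBijective _ hb),
            fun m => by
              show e (U.ι₀ m) • E.ι₀ s₀ = E.ι₀ (e₀ m • s₀)
              rw [g₀, E.ι₀.map_smulₛₗ],
            fun m => by
              show e (U.ι₁ m) • E.ι₀ s₀ = E.ι₁ (e₁ m • s₁)
              rw [g₁, E.ι₁.map_smulₛₗ, h]⟩
          have := euler_iso hiso
          omega
      · obtain ⟨F, p, hp, hF, hcls⟩ : ∃ (F : Bundle C K) (p : Cls C K),
            p ∈ pointClasses C K ∧ HasSection F ∧ cls F = cls E * p := by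
          rcases exists_peel hs h (not_and_or.1 hgen) with ⟨φ, hF⟩ | ⟨φ, hF⟩
          · exact ⟨_, _, Or.inl ⟨φ, rfl⟩, hF, cls_twist E _⟩
          · exact ⟨_, _, Or.inr ⟨φ, rfl⟩, hF, cls_twist E _⟩
        have he : F.euler = E.euler - 1 := by
          rw [← clsEuler_cls F, hcls, clsEuler_mul_point hp, clsEuler_cls]
        obtain ⟨g, q, hq, hprod, hg⟩ := ih F hF (by push_cast at hd ⊢; omega)
        refine ⟨g + 1, Fin.cons p q, Fin.forall_fin_succ.2 ⟨by simpa using hp, fun i => by
          simpa using hq i⟩, ?_, by push_cast; omega⟩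
        rw [Fin.prod_univ_succ]
        simp only [Fin.cons_zero, Fin.cons_succ]
        rw [← mul_assoc, ← hcls, hprod]
  obtain ⟨g, p, hp, h1, h2⟩ := main (E.euler - U.euler).toNat E hE (Int.self_le_toNat _)
  exact ⟨g, p, hp, h1, hUe ▸ h2⟩

theorem cls_mem_closure_of_section {E : Bundle C K} (hE : HasSection E) :
    cls E ∈ Subgroup.closure (pointClasses C K) := by
  obtain ⟨g, p, hp, h, -⟩ := exists_points_of_section hE
  rw [mul_eq_one_iff_eq_inv.1 h]
  exact inv_mem (Subgroup.prod_mem _ fun i _ => Subgroup.subset_closure (hp i))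

/-- Every bundle is a combination of points. -/
theorem closure_pointClasses : Subgroup.closure (pointClasses C K) = ⊤ := by
  refine eq_top_iff.2 fun c _ => ?_
  obtain ⟨E, rfl⟩ := cls_surjective c
  obtain ⟨U, hU⟩ := exists_unit C K
  haveI := C.dedekind₀ K
  haveI := C.dedekind₁ K
  obtain ⟨s₀, hs⟩ : ∃ s₀ : E.M₀, s₀ ≠ 0 := by
    by_contra h
    push Not at h
    exact RankOne.smul_top_ne_top (B := C.B₀ K) (M := E.M₀) (I := ⊥) bot_ne_top
      (eq_top_iff.2 fun z _ => by rw [h z]; exact zero_mem _)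
  obtain ⟨n, s₁, hn⟩ := E.loc₁ (E.ι₀ s₀)
  have hE : HasSection (E.shift n) := ⟨s₀, s₁, hs, hn⟩
  have hUn : HasSection (U.shift n) := by
    obtain ⟨e₀, e₁, e, h₀, h₁⟩ := hU
    refine ⟨e₀.symm 1, e₁.symm (C.yB K ^ n), fun h0 => one_ne_zero
      (((e₀.apply_symm_apply 1).symm.trans (congrArg e₀ h0)).trans (map_zero e₀)), e.injective ?_⟩
    show e (C.resB₁ K (C.yB K) ^ n • U.ι₀ (e₀.symm 1)) = e (U.ι₁ (e₁.symm (C.yB K ^ n)))
    rw [map_smul, h₀, h₁, e₀.apply_symm_apply, e₁.apply_symm_apply, map_one, smul_eq_mul, mul_one,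
      map_pow]
  have h := cls_shift E hU n
  rw [eq_mul_inv_of_mul_eq h.symm]
  exact mul_mem (cls_mem_closure_of_section hE) (inv_mem (cls_mem_closure_of_section hUn))

/-- The Euler characteristic is additive. -/
theorem clsEuler_mul (a b : Cls C K) :
    clsEuler (a * b) + clsEuler (1 : Cls C K) = clsEuler a + clsEuler b := by
  suffices h : ∀ b ∈ Subgroup.closure (pointClasses C K), ∀ a : Cls C K,
      clsEuler (a * b) - clsEuler a = clsEuler b - clsEuler (1 : Cls C K) by
    have := h b (by rw [closure_pointClasses]; trivial) a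
    omega
  intro b hb
  induction hb using Subgroup.closure_induction with
  | mem p hp =>
    intro a
    have h1 := clsEuler_mul_point hp a
    have h2 := clsEuler_mul_point hp 1
    rw [one_mul] at h2
    omega
  | one => intro a; rw [mul_one]; omega
  | mul x y _ _ hx hy =>
    intro a
    have h1 := hy (a * x)
    have h2 := hx a
    have h3 := hy x
    rw [mul_assoc] at h1
    omega
  | inv x _ hx =>
    intro a
    have h1 := hx (a * x⁻¹)
    have h2 := hx x⁻¹
    rw [inv_mul_cancel_right] at h1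
    rw [inv_mul_cancel] at h2
    omega

/-- Additivity over any field. -/
theorem clsEuler_mul_field {K : Type u} [Field K] [Algebra k K] (a b : Cls C K) :
    clsEuler (a * b) + clsEuler (1 : Cls C K) = clsEuler a + clsEuler b := by
  let f : K →ₐ[k] AlgebraicClosure K := IsScalarTower.toAlgHom k K (AlgebraicClosure K)
  rw [← clsEuler_map f (a * b), ← clsEuler_map f (1 : Cls C K), ← clsEuler_map f a,
    ← clsEuler_map f b, map_mul, map_one]
  exact clsEuler_mul _ _

end FLTAgent.JacRep.Bundle
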