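import Mathlib
import Fermat.Agent.JacRep.Degree.Additive

/-!
# Acyclic twists defined over the ground field

`exists_twist_acyclic`: every bundle over an algebraically closed field `K` has an acyclic twist
by a bundle over `k`. A shift by the fibre `x = 0` kills the cokernel of the difference map
(`exists_shift_surjective`); then subtracting suitable `k`-rational points removes the kernel one
dimension at a time (`exists_acyclic_of_surjective`, `exists_point_eval_ne_zero`).
-/

set_option autoImplicit false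
set_option linter.style.haveILetI false
set_option linter.unusedSectionVars false

noncomputable section

open scoped TensorProduct
open FLTAgent.JacRep.PointIdeal

universe u

namespace FLTAgent.JacRep.Bundle

attribute [local instance] rModule₀ rModule₁ rModule tower₀ tower₁ tower

variable {k : Type u} [Field k] [IsAlgClosed k] {C : Cover k}
  {K : Type u} [Field K] [IsAlgClosed K] [Algebra k K]

/-- A large shift kills the first cohomology. -/
theorem exists_shift_surjective (E : Bundle C K) :
    ∃ n : ℕ, Function.Surjective (E.shift n).diff := by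
  classical
  haveI := E.finite_kerDiff.2
  obtain ⟨s, hs⟩ := (Module.Finite.fg_top :
    (⊤ : Submodule K (E.M ⧸ LinearMap.range E.diffLin)).FG)
  choose m hm using fun q : s => Submodule.Quotient.mk_surjective (LinearMap.range E.diffLin) q.1
  choose N a hN using fun q : s => E.loc₀ (m q)
  refine ⟨Finset.univ.sup N, ?_⟩
  set n := Finset.univ.sup N
  have key : ∀ (j : ℕ), j ≤ n → ∀ (z : E.M) (b : E.M₀),
      C.resB₀ K (C.xB K) ^ j • z = E.ι₀ b → ∃ p, (E.shift n).diffLin p = z := by
    intro j hj z b hb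
    refine ⟨(C.xB K ^ (n - j) • b, 0), ?_⟩
    show C.resB₁ K (C.yB K) ^ n • E.ι₀ (C.xB K ^ (n - j) • b) - E.ι₁ 0 = z
    rw [E.ι₀.map_smulₛₗ, map_zero, sub_zero, map_pow, ← hb, smul_smul, smul_smul, mul_assoc,
      ← pow_add, Nat.sub_add_cancel hj, ← mul_pow, mul_comm, C.resB_xy, one_pow, one_smul]
  let R' : Submodule K E.M := LinearMap.range ((E.shift n).diffLin)
  have hsub : LinearMap.range E.diffLin ≤ R' := by
    rintro _ ⟨⟨p, q⟩, rfl⟩
    obtain ⟨p', hp'⟩ := key 0 (Nat.zero_le n) (E.ι₀ p) p (by rw [pow_zero, one_smul])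
    have hq : (E.shift n).diffLin (0, q) = -E.ι₁ q := by
      show C.resB₁ K (C.yB K) ^ n • E.ι₀ 0 - E.ι₁ q = _
      rw [map_zero, smul_zero, zero_sub]
    exact ⟨p' + ((0 : (E.shift n).M₀), (show (E.shift n).M₁ from q)), ((map_add _ _ _).trans (congrArg₂ (fun a b : E.M => a + b) hp' hq)).trans
      (sub_eq_add_neg (E.ι₀ p) (E.ι₁ q)).symm⟩
  have hq : (⊤ : Submodule K (E.M ⧸ LinearMap.range E.diffLin)) ≤
      R'.map (LinearMap.range E.diffLin).mkQ := by
    rw [← hs, Submodule.span_le]
    intro q hq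
    refine ⟨m ⟨q, hq⟩, key _ (Finset.le_sup (Finset.mem_univ ⟨q, hq⟩)) _ _ (hN ⟨q, hq⟩), hm ⟨q, hq⟩⟩
  intro (z : E.M)
  obtain ⟨(r : E.M), hr, hrz⟩ := hq (trivial : Submodule.Quotient.mk z ∈ ⊤)
  have hz : (z : E.M) ∈ R' := by
    have h1 : r - z ∈ LinearMap.range E.diffLin := (Submodule.Quotient.eq _).1 hrz
    rw [← sub_sub_cancel r z]
    exact sub_mem hr (hsub h1)
  exact hz

omit [IsAlgClosed K] in
/-- A nonzero function does not vanish at all rational points. -/
theorem exists_point_eval_ne_zero {z : C.B₀ K} (hz : z ≠ 0) :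
    ∃ φ : C.A₀ →ₐ[k] k, z ∉ mainIdeal ((Algebra.ofId k K).comp φ) := by
  classical
  haveI := C.finiteType₀
  haveI := C.isDomain₀
  by_contra h
  push Not at h
  let b := Module.Free.chooseBasis k K
  let e := TensorProduct.equivFinsuppOfBasisLeft (N := C.A₀) b
  have hev : ∀ φ : C.A₀ →ₐ[k] k, ∀ i, φ (e z i) = 0 := by
    intro φ i
    have h0 := eval_eq_zero_of_mem _ (h φ)
    have key : ∀ w : C.B₀ K, Algebra.TensorProduct.lift (AlgHom.id k K)
        ((Algebra.ofId k K).comp φ) (fun _ _ => Commute.all _ _) w =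
        Finsupp.linearCombination k b (Finsupp.mapRange φ (map_zero φ) (e w)) := by
      intro w
      induction w using TensorProduct.induction_on with
      | zero => simp
      | tmul r a =>
        rw [Algebra.TensorProduct.lift_tmul, TensorProduct.equivFinsuppOfBasisLeft_apply_tmul]
        show r * algebraMap k K (φ a) = _
        have hm : Finsupp.mapRange φ (map_zero φ) (Finsupp.mapRange (fun x => x • a)
            (zero_smul k a) (b.repr r)) = φ a • b.repr r := by
          ext l
          simp [mul_comm]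
        rw [hm, map_smul, b.linearCombination_repr, Algebra.smul_def, mul_comm]
      | add p q hp hq =>
        rw [map_add, map_add, hp, hq, Finsupp.mapRange_add (fun _ _ => map_add φ _ _), map_add]
    rw [key] at h0
    have := DFunLike.congr_fun (linearIndependent_iff.1 b.linearIndependent _ h0) i
    simpa using this
  apply hz
  refine e.injective (Finsupp.ext fun i => ?_)
  rw [map_zero, Finsupp.zero_apply]
  haveI : IsJacobsonRing C.A₀ := isJacobsonRing_of_finiteType (A := k)
  have hj : e z i ∈ (⊥ : Ideal C.A₀).jacobson := by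
    rw [Ideal.jacobson, Submodule.mem_sInf]
    rintro m ⟨-, hm⟩
    letI := Ideal.Quotient.field m
    haveI : Algebra.FiniteType k (C.A₀ ⧸ m) :=
      Algebra.FiniteType.of_surjective (Ideal.Quotient.mkₐ k m) Ideal.Quotient.mk_surjective
    haveI : Module.Finite k (C.A₀ ⧸ m) := finite_of_finite_type_of_isJacobsonRing k _
    haveI : Algebra.IsAlgebraic k (C.A₀ ⧸ m) := Algebra.IsAlgebraic.of_finite k _
    let f : k ≃ₐ[k] (C.A₀ ⧸ m) := AlgEquiv.ofBijective (Algebra.ofId k _)
      (IsAlgClosed.algebraMap_bijective_of_isIntegral (k := k) (K := C.A₀ ⧸ m))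
    have h1 := hev ((f.symm : _ →ₐ[k] k).comp (Ideal.Quotient.mkₐ k m)) i
    refine Ideal.Quotient.eq_zero_iff_mem.1 ?_
    have h2 := congrArg f h1
    rw [map_zero] at h2
    rw [← h2]
    exact (f.apply_symm_apply _).symm
  rwa [IsJacobsonRing.out' _ (Ideal.isRadical_bot), Ideal.mem_bot] at hj

/-- Subtracting rational points makes a bundle without first cohomology acyclic. -/
theorem exists_acyclic_of_surjective (d : ℕ) : ∀ (F : Bundle C K), Function.Surjective F.diff →
    F.euler ≤ d → ∃ c : Cls C k, ∀ F' : Bundle C K,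
      cls F' = cls F * mapCls (Algebra.ofId k K) c → F'.Acyclic := by
  have triv : ∀ (F : Bundle C K), Function.Injective F.diff → Function.Surjective F.diff →
      ∃ c : Cls C k, ∀ F' : Bundle C K,
        cls F' = cls F * mapCls (Algebra.ofId k K) c → F'.Acyclic := by
    intro F hi hsur
    refine ⟨1, fun F' hF' => ?_⟩
    rw [map_one, mul_one, cls_eq_iff] at hF'
    exact IsPullback.acyclic (isPullback_of_iso (iso_refl F) (iso_symm hF') (isPullback_id F))
      ⟨hi, hsur⟩
  induction d with
  | zero =>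
    intro F hsur hd
    refine triv F ?_ hsur
    haveI := F.finite_kerDiff.1
    have hd' : (Module.finrank K (LinearMap.ker F.diffLin) : ℤ) -
        Module.finrank K (F.M ⧸ LinearMap.range F.diffLin) ≤ ((0 : ℕ) : ℤ) := hd
    have h0 : Module.finrank K (F.M ⧸ LinearMap.range F.diffLin) = 0 := by
      haveI := F.finite_kerDiff.2
      rw [Module.finrank_zero_iff, Submodule.Quotient.subsingleton_iff, LinearMap.range_eq_top]
      exact hsur
    have hk : Module.finrank K (LinearMap.ker F.diffLin) = 0 := by push_cast at hd'; omega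
    rw [Submodule.finrank_eq_zero, LinearMap.ker_eq_bot] at hk
    exact hk
  | succ d ih =>
    intro F hsur hd
    by_cases hi : Function.Injective F.diff
    · exact triv F hi hsur
    haveI := F.finite_kerDiff.1
    obtain ⟨⟨s₀, s₁⟩, hker, hs⟩ : ∃ p : F.M₀ × F.M₁, F.diff p = 0 ∧ p ≠ 0 := by
      by_contra h
      push Not at h
      exact hi ((injective_iff_map_eq_zero _).2 h)
    have heq : F.ι₀ s₀ = F.ι₁ s₁ := sub_eq_zero.1 hker
    have hs₀ : s₀ ≠ 0 := by
      intro h0
      refine hs (Prod.ext h0 ?_)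
      exact F.inj₁ (by rw [← heq, h0, map_zero]; exact (map_zero F.ι₁).symm)
    haveI := C.dedekind₀ K
    obtain ⟨f, hf⟩ := RankOne.exists_dual_ne_zero (B := C.B₀ K) hs₀
    obtain ⟨φ, hφ⟩ := exists_point_eval_ne_zero hf
    set φK := (Algebra.ofId k K).comp φ
    set F₁ := F.twist (C.fieldPoint₀ φK)
    have he : F₁.euler = F.euler - 1 := euler_point₀ F φK
    let a₀ : F₁.M₀ →ₗ[C.B₀ K] F.M₀ :=
      ((C.fieldPoint₀ φK).J₀ • ⊤ : Submodule (C.B₀ K) F.M₀).subtype
    let a₁ : F₁.M₁ →ₗ[C.B₁ K] F.M₁ :=
      ((C.fieldPoint₀ φK).J₁ • ⊤ : Submodule (C.B₁ K) F.M₁).subtype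
    let ι : LinearMap.ker F₁.diffLin →ₗ[K] LinearMap.ker F.diffLin :=
      LinearMap.codRestrict _
        (((a₀.restrictScalars K).prodMap (a₁.restrictScalars K)) ∘ₗ
          (LinearMap.ker F₁.diffLin).subtype)
        fun p => by
          rw [LinearMap.mem_ker]
          let a : F₁.M →ₗ[C.B K] F.M :=
            ((C.fieldPoint₀ φK).J • ⊤ : Submodule (C.B K) F.M).subtype
          have h : a (F₁.ι₀ (p : F₁.M₀ × F₁.M₁).1 - F₁.ι₁ (p : F₁.M₀ × F₁.M₁).2) = a 0 :=
            congrArg a (LinearMap.mem_ker.1 p.2)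
          rw [map_sub, map_zero] at h
          exact h
    have hι : Function.Injective ι := by
      intro p q hpq
      have h := congrArg Subtype.val hpq
      exact Subtype.ext (Prod.ext (Subtype.ext (congrArg Prod.fst h))
        (Subtype.ext (congrArg Prod.snd h)))
    have hns : (⟨(s₀, s₁), hker⟩ : LinearMap.ker F.diffLin) ∉ LinearMap.range ι := by
      rintro ⟨p, hp⟩
      have h0 : s₀ ∈ (mainIdeal φK • ⊤ : Submodule (C.B₀ K) F.M₀) := by
        rw [← show a₀ (p : F₁.M₀ × F₁.M₁).1 = s₀ from
          congrArg (fun q : LinearMap.ker F.diffLin => (q : F.M₀ × F.M₁).1) hp]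
        exact (p : F₁.M₀ × F₁.M₁).1.2
      refine hφ ?_
      refine Submodule.smul_induction_on h0 (fun a ha x _ => ?_) (fun x y hx hy => ?_)
      · rw [map_smul]; exact Ideal.mul_mem_right _ _ ha
      · rw [map_add]; exact add_mem hx hy
    haveI := F₁.finite_kerDiff.1
    haveI := F₁.finite_kerDiff.2
    have hlt : Module.finrank K (LinearMap.ker F₁.diffLin) <
        Module.finrank K (LinearMap.ker F.diffLin) := by
      rw [(LinearEquiv.ofInjective ι hι).finrank_eq]
      exact Submodule.finrank_lt fun htop => hns (htop ▸ Submodule.mem_top)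
    have h0 : Module.finrank K (F.M ⧸ LinearMap.range F.diffLin) = 0 := by
      haveI := F.finite_kerDiff.2
      rw [Module.finrank_zero_iff, Submodule.Quotient.subsingleton_iff, LinearMap.range_eq_top]
      exact hsur
    have e1 : F₁.euler = (Module.finrank K (LinearMap.ker F₁.diffLin) : ℤ) -
        Module.finrank K (F₁.M ⧸ LinearMap.range F₁.diffLin) := rfl
    have e2 : F.euler = (Module.finrank K (LinearMap.ker F.diffLin) : ℤ) -
        Module.finrank K (F.M ⧸ LinearMap.range F.diffLin) := rfl
    have h1 : Module.finrank K (F₁.M ⧸ LinearMap.range F₁.diffLin) = 0 := by omega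
    rw [Module.finrank_zero_iff, Submodule.Quotient.subsingleton_iff, LinearMap.range_eq_top] at h1
    obtain ⟨c, hc⟩ := ih F₁ h1 (by push_cast at hd; omega)
    refine ⟨pairCls (C.fieldPoint₀ φ) * c, fun F' hF' => hc F' ?_⟩
    rw [hF', map_mul, ← mul_assoc, cls_twist F]
    congr 2
    exact mapCls_pairCls _ _ (map_mainIdeal φ (Algebra.ofId k K))
      (map_sideIdeal C.res₀ C.res₁ C.x φ (Algebra.ofId k K))

/-- Every bundle has an acyclic twist defined over the ground field. -/
theorem exists_twist_acyclic (E : Bundle C K) :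
    ∃ (E₀ : Bundle C k) (E₀' F : Bundle C K), IsPullback (Algebra.ofId k K) E₀ E₀' ∧
      IsTensor E E₀' F ∧ F.Acyclic := by
  obtain ⟨n, hn⟩ := exists_shift_surjective E
  obtain ⟨c, hc⟩ := exists_acyclic_of_surjective (E.shift n).euler.toNat (E.shift n) hn
    (Int.self_le_toNat _)
  obtain ⟨U, hU⟩ := exists_unit C k
  obtain ⟨U', hU'⟩ := exists_unit C K
  obtain ⟨E₀, hE₀⟩ := cls_surjective (cls (U.shift n) * c)
  obtain ⟨E₀', hE₀'⟩ := cls_surjective (mapCls (Algebra.ofId k K) (cls E₀))
  obtain ⟨F, hF⟩ := cls_surjective (cls E * cls E₀')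
  refine ⟨E₀, E₀', F, isPullback_of_cls hE₀'.symm, isTensor_of_cls hF.symm, hc F ?_⟩
  rw [hF, hE₀', hE₀, map_mul,
    cls_pullback (isPullback_shift (IsUnitBundle.isPullback_unit (φ := Algebra.ofId k K) hU hU') n),
    cls_shift E hU', mul_assoc]

end FLTAgent.JacRep.Bundle
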