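import Mathlib
import Fermat.Agent.JacRep.Degree.Chart
import Fermat.Agent.JacRep.Degree.RankOne
import Fermat.Agent.JacRep.Degree.Additive

/-!
# Ideals of the base as ideal pairs

`Cover.constPair` extends a locally principal ideal of the base to the charts.
Its class is trivial when the ideal is principal (`pairCls_const_span`), hence, localising at the
kernel, at every field valued point of the base (`mapCls_const`).
-/

set_option autoImplicit false
set_option linter.style.haveILetI false
set_option linter.unusedSectionVars false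

noncomputable section

open scoped TensorProduct
open FLTAgent.JacRep.PointIdeal
open Algebra.TensorProduct (includeLeftRingHom)

universe u

namespace FLTAgent.JacRep

variable {k : Type u} [Field k] {C : Cover k} {R : Type u} [CommRing R] [Algebra k R]
  {R' : Type u} [CommRing R'] [Algebra k R']

theorem IdealPair.J_eq_map (D : IdealPair C R) : D.J = D.J₀.map (C.resB₀ R) := by
  refine le_antisymm (fun b hb => ?_) (Ideal.map_le_iff_le_comap.2 D.mem₀)
  obtain ⟨n, a, ha, h⟩ := D.loc₀ b hb
  have hu : IsUnit (C.resB₀ R (C.xB R) ^ n) := (IsUnit.of_mul_eq_one _ (C.resB_xy R)).pow n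
  rw [← Ideal.unit_mul_mem_iff_mem _ hu, h]
  exact Ideal.mem_map_of_mem _ ha

theorem IdealPair.pairCls_ext {D D' : IdealPair C R} (h₀ : D.J₀ = D'.J₀) (h₁ : D.J₁ = D'.J₁) :
    Bundle.pairCls D = Bundle.pairCls D' :=
  Bundle.pairCls_congr D D' h₀ h₁ (by rw [D.J_eq_map, D'.J_eq_map, h₀])

theorem map_inl_ne_bot {A : Type u} [CommRing A] [Algebra k A] [Nontrivial A] {I : Ideal R}
    (hI : I ≠ ⊥) : I.map (includeLeftRingHom : R →+* R ⊗[k] A) ≠ ⊥ := fun h =>
  hI ((Ideal.map_eq_bot_iff_of_injective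
    (Algebra.TensorProduct.includeLeft_injective (S := k) (algebraMap k A).injective)).1 h)

theorem map_inl_map {A : Type u} [CommRing A] [Algebra k A] (ψ : R →ₐ[k] R') (I : Ideal R) :
    (I.map (includeLeftRingHom : R →+* R ⊗[k] A)).map
        (Algebra.TensorProduct.map ψ (AlgHom.id k A)).toRingHom =
      (I.map (ψ : R →+* R')).map (includeLeftRingHom : R' →+* R' ⊗[k] A) := by
  rw [Ideal.map_map, Ideal.map_map]
  congr 1

variable (C) in
/-- The ideal pair of an ideal of the base. -/
def Cover.constPair [IsDomain R] (I : Ideal R) (hI : LocPrincipal I) (hne : I ≠ ⊥) :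
    IdealPair C R where
  J₀ := I.map (includeLeftRingHom : R →+* C.B₀ R)
  J₁ := I.map (includeLeftRingHom : R →+* C.B₁ R)
  J := I.map (includeLeftRingHom : R →+* C.B R)
  inv₀ := haveI := C.isDomain_B₀ R; haveI := C.isDomain₀
    (hI.map _).invertible (map_inl_ne_bot hne)
  inv₁ := haveI := C.isDomain_B₁ R; haveI := C.isDomain₁
    (hI.map _).invertible (map_inl_ne_bot hne)
  inv := haveI := C.isDomain_B R; haveI := C.nontrivial_A
    (hI.map _).invertible (map_inl_ne_bot hne)
  mem₀ a ha := by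
    have h : (C.resB₀ R).comp (includeLeftRingHom : R →+* C.B₀ R) = includeLeftRingHom := by
      ext r; simp [Cover.resB₀]
    rw [← h, ← Ideal.map_map]
    exact Ideal.mem_map_of_mem _ ha
  mem₁ a ha := by
    have h : (C.resB₁ R).comp (includeLeftRingHom : R →+* C.B₁ R) = includeLeftRingHom := by
      ext r; simp [Cover.resB₁]
    rw [← h, ← Ideal.map_map]
    exact Ideal.mem_map_of_mem _ ha
  loc₀ b hb := by
    have h : (C.resB₀ R).comp (includeLeftRingHom : R →+* C.B₀ R) = includeLeftRingHom := by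
      ext r; simp [Cover.resB₀]
    rw [← h, ← Ideal.map_map] at hb
    exact exists_pow_mul_mem (C.resB₀ R) (C.xB R) (C.exists_powB₀ R) hb
  loc₁ b hb := by
    have h : (C.resB₁ R).comp (includeLeftRingHom : R →+* C.B₁ R) = includeLeftRingHom := by
      ext r; simp [Cover.resB₁]
    rw [← h, ← Ideal.map_map] at hb
    exact exists_pow_mul_mem (C.resB₁ R) (C.yB R) (C.exists_powB₁ R) hb

namespace Bundle

/-- A pair generated by one element of the base is trivial. -/
theorem pairCls_const_span [IsDomain R] {g : R} (hg : g ≠ 0) (h : LocPrincipal (Ideal.span {g}))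
    (hne : Ideal.span {g} ≠ (⊥ : Ideal R)) :
    pairCls (C.constPair (Ideal.span {g}) h hne) = 1 := by
  set D := C.constPair (Ideal.span {g}) h hne
  obtain ⟨U, hUdef⟩ : ∃ U, U = (exists_unit C R).choose := ⟨_, rfl⟩
  have hU : IsUnitBundle U := hUdef ▸ (exists_unit C R).choose_spec
  rw [pairCls, ← hUdef, ← cls_unit hU, cls_eq_iff]
  obtain ⟨e₀, e₁, e, -, -⟩ := hU
  have key : ∀ (B N : Type u) [CommRing B] [IsDomain B] [AddCommGroup N] [Module B N]
      (e : N ≃ₗ[B] B) (I : Ideal B) (c : B), c ≠ 0 → I = Ideal.span {c} →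
      ∃ f : N ≃ₗ[B] (I • ⊤ : Submodule B N), ∀ z, (f z : N) = c • z := by
    intro B N _ _ _ _ e I c hc hI
    subst hI
    let F : N →ₗ[B] (Ideal.span {c} • ⊤ : Submodule B N) :=
      LinearMap.codRestrict _ (c • LinearMap.id) fun z =>
        Submodule.smul_mem_smul (Ideal.mem_span_singleton_self c) Submodule.mem_top
    have hF : Function.Bijective F := by
      refine ⟨fun a b hab => e.injective ?_, fun z => ?_⟩
      · have h' := congrArg e (congrArg Subtype.val hab)
        simp only [F, LinearMap.codRestrict_apply, LinearMap.smul_apply, LinearMap.id_apply,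
          map_smul, smul_eq_mul] at h'
        exact mul_left_cancel₀ hc h'
      · obtain ⟨w, hw⟩ := z
        rw [Submodule.ideal_span_singleton_smul] at hw
        obtain ⟨v, -, hv⟩ := hw
        exact ⟨v, Subtype.ext hv⟩
    exact ⟨LinearEquiv.ofBijective F hF, fun z => rfl⟩
  haveI := C.isDomain_B₀ R
  haveI := C.isDomain_B₁ R
  haveI := C.isDomain_B R
  haveI := C.isDomain₀
  haveI := C.isDomain₁
  haveI := C.nontrivial_A
  have hJ : ∀ (A : Type u) [CommRing A] [Algebra k A],
      (Ideal.span {g}).map (includeLeftRingHom : R →+* R ⊗[k] A) = Ideal.span {g ⊗ₜ[k] (1 : A)} := by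
    intro A _ _
    rw [Ideal.map_span, Set.image_singleton]
    rfl
  have hne' : ∀ (A : Type u) [CommRing A] [Algebra k A] [Nontrivial A], g ⊗ₜ[k] (1 : A) ≠ 0 :=
    fun A _ _ _ h0 => hg ((Algebra.TensorProduct.includeLeft_injective (S := k)
      (algebraMap k A).injective) (h0.trans (map_zero _).symm))
  obtain ⟨f₀, hf₀⟩ := key (C.B₀ R) U.M₀ e₀ D.J₀ _ (hne' C.A₀) (hJ C.A₀)
  obtain ⟨f₁, hf₁⟩ := key (C.B₁ R) U.M₁ e₁ D.J₁ _ (hne' C.A₁) (hJ C.A₁)
  obtain ⟨f, hf⟩ := key (C.B R) U.M e D.J _ (hne' C.A) (hJ C.A)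
  refine iso_symm ⟨f₀, f₁, f, fun z => Subtype.ext ((hf _).trans ?_), fun z => Subtype.ext ((hf _).trans ?_)⟩
  · show _ = U.ι₀ (f₀ z : U.M₀)
    rw [hf₀, U.ι₀.map_smulₛₗ, resB₀_tmul, map_one]
  · show _ = U.ι₁ (f₁ z : U.M₁)
    rw [hf₁, U.ι₁.map_smulₛₗ, resB₁_tmul, map_one]

/-- An ideal becoming principal after a base change becomes trivial. -/
theorem mapCls_const_principal [IsDomain R] [IsDomain R'] (I : Ideal R) (hI : LocPrincipal I)
    (hne : I ≠ ⊥) (ι : R →ₐ[k] R') {g : R'} (hg : g ≠ 0)
    (hspan : I.map (ι : R →+* R') = Ideal.span {g}) :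
    mapCls ι (pairCls (C.constPair I hI hne)) = 1 := by
  have h : LocPrincipal (Ideal.span {g}) := hspan ▸ hI.map _
  have hne' : Ideal.span {g} ≠ (⊥ : Ideal R') := by rwa [Ne, Ideal.span_singleton_eq_bot]
  rw [← pairCls_const_span (C := C) hg h hne']
  exact mapCls_pairCls (φ := ι) _ _ ((map_inl_map ι I).trans (by rw [hspan]; rfl))
    ((map_inl_map ι I).trans (by rw [hspan]; rfl))

/-- An ideal of the base is trivial at every field valued point. -/
theorem mapCls_const [IsDomain R] (I : Ideal R) (hI : LocPrincipal I) (hne : I ≠ ⊥)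
    {K : Type u} [Field K] [Algebra k K] (φ : R →ₐ[k] K) :
    mapCls φ (pairCls (C.constPair I hI hne)) = 1 := by
  let P : Ideal R := RingHom.ker (φ : R →+* K)
  haveI : P.IsPrime := RingHom.ker_isPrime _
  let L := Localization.AtPrime P
  haveI : IsDomain L := IsLocalization.isDomain_localization P.primeCompl_le_nonZeroDivisors
  let ι : R →ₐ[k] L := IsScalarTower.toAlgHom k R L
  have hι : Function.Injective ι := IsLocalization.injective L P.primeCompl_le_nonZeroDivisors
  have hu : ∀ y : P.primeCompl, IsUnit (φ (y : R)) := fun y => isUnit_iff_ne_zero.2 y.2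
  let ψ : L →ₐ[k] K := IsLocalization.liftAlgHom (M := P.primeCompl) (f := φ) hu
  have hψ : ψ.comp ι = φ := AlgHom.ext fun r => by
    show IsLocalization.liftAlgHom (M := P.primeCompl) (f := φ) hu (algebraMap R L r) = φ r
    rw [IsLocalization.liftAlgHom_apply, IsLocalization.lift_eq]
    rfl
  have hI' : LocPrincipal (I.map (ι : R →+* L)) := hI.map _
  have hne' : I.map (ι : R →+* L) ≠ ⊥ := fun h =>
    hne ((Ideal.map_eq_bot_iff_of_injective hι).1 h)
  obtain ⟨s, hs, g, hg, hsg⟩ := hI' (IsLocalRing.maximalIdeal L) inferInstance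
  have hsu : IsUnit s := IsLocalRing.notMem_maximalIdeal.1 hs
  have hspan : I.map (ι : R →+* L) = Ideal.span {g} := le_antisymm
    (fun z hz => (Ideal.unit_mul_mem_iff_mem _ hsu).1 (hsg z hz))
    ((Ideal.span_singleton_le_iff_mem _).2 hg)
  have hg0 : g ≠ 0 := fun h0 => hne' (by rw [hspan, h0, Ideal.span_singleton_eq_bot])
  rw [← hψ, ← mapCls_comp, mapCls_const_principal I hI hne ι hg0 hspan, map_one]

end Bundle

end FLTAgent.JacRep
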