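import Mathlib
import Fermat.Agent.JacRep.Degree.Const

/-!
# Rigidification of the point families

`isRigidified_of_restrictions`: if `E ⊗ P ≅ W` and `E`, `W` have the same restriction to the base
point, `P` is rigidified. `isRigidified_family` applies this to a point twisted by the ideal of
the base point, using a nonzero derivation at the base point (`Cover.exists_derivation`).
-/

set_option autoImplicit false
set_option linter.style.haveILetI false
set_option linter.unusedSectionVars false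

noncomputable section

open scoped TensorProduct
open FLTAgent.JacRep.PointIdeal
open Algebra.TensorProduct (includeLeftRingHom)

universe u

namespace FLTAgent.JacRep

variable {k : Type u} [Field k] {C : Cover k} {R : Type u} [CommRing R] [Algebra k R]

theorem Cover.baseB_tmul (r : R) (a : C.A₀) : C.baseB R (r ⊗ₜ a) = r * algebraMap k R (C.base a) := by
  show Algebra.TensorProduct.rid k k R (r ⊗ₜ C.base a) = _
  rw [Algebra.TensorProduct.rid_tmul, Algebra.smul_def, mul_comm]

/-- A derivation at the base point which is not zero. -/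
theorem Cover.exists_derivation [IsAlgClosed k] (C : Cover k) :
    ∃ δ : C.A₀ →ₗ[k] k, (∀ a b, δ (a * b) = C.base a * δ b + δ a * C.base b) ∧
      ∃ t, C.base t = 0 ∧ δ t = 1 := by
  haveI := C.isDedekind₀
  set m : Ideal C.A₀ := RingHom.ker (C.base : C.A₀ →+* k)
  haveI : m.IsPrime := RingHom.ker_isPrime _
  have hxm : C.x - algebraMap k C.A₀ (C.base C.x) ∈ m := by simp [m]
  have hne : m ≠ ⊥ := fun h => C.x_not_scalar (C.base C.x)
    (sub_eq_zero.1 ((Submodule.eq_bot_iff _).1 h _ hxm))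
  have hm1 : m ≠ ⊤ := Ideal.IsPrime.ne_top inferInstance
  obtain ⟨t, ht, ht2⟩ : ∃ t ∈ m, t ∉ m ^ 2 :=
    SetLike.exists_of_lt (by simpa using Ideal.pow_succ_lt_pow hne 1)
  let N : Submodule k C.A₀ := (m ^ 2).restrictScalars k ⊔ Submodule.span k {(1 : C.A₀)}
  have htN : t ∉ N := fun h => by
    obtain ⟨w, hw, v, hv, hwv⟩ := Submodule.mem_sup.1 h
    obtain ⟨c, rfl⟩ := Submodule.mem_span_singleton.1 hv
    have hwm : C.base w = 0 := (Ideal.pow_le_self two_ne_zero hw : w ∈ m)
    have htm : C.base t = 0 := ht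
    have h1 := congrArg C.base hwv
    rw [map_add, map_smul, map_one, hwm, htm, zero_add, smul_eq_mul, mul_one] at h1
    rw [h1, zero_smul, add_zero] at hwv
    exact ht2 (hwv ▸ hw)
  obtain ⟨f, hft, hf⟩ := Submodule.exists_dual_map_eq_bot_of_notMem htN inferInstance
  have hfN : ∀ z ∈ N, f z = 0 := fun z hz => by
    have : f z ∈ N.map f := ⟨z, hz, rfl⟩
    rwa [hf, Submodule.mem_bot] at this
  refine ⟨(f t)⁻¹ • f, fun a b => ?_, t, ht, by simp [inv_mul_cancel₀ hft]⟩
  have hab : (a - algebraMap k C.A₀ (C.base a)) * (b - algebraMap k C.A₀ (C.base b)) ∈ m ^ 2 := by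
    rw [pow_two]
    exact Ideal.mul_mem_mul (by simp [m]) (by simp [m])
  have h0 := hfN _ (Submodule.mem_sup_left hab)
  have h1 : f 1 = 0 := hfN 1 (Submodule.mem_sup_right (Submodule.mem_span_singleton_self 1))
  have e : (a - algebraMap k C.A₀ (C.base a)) * (b - algebraMap k C.A₀ (C.base b)) =
      a * b - C.base a • b - C.base b • a + (C.base a * C.base b) • 1 := by
    simp only [Algebra.smul_def, map_mul]
    ring
  rw [e, map_add, map_sub, map_sub, map_smul, map_smul, map_smul, h1, smul_zero, add_zero,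
    smul_eq_mul, smul_eq_mul] at h0
  simp only [LinearMap.smul_apply, smul_eq_mul]
  linear_combination (f t)⁻¹ * h0

namespace Bundle

/-- A bundle tensored into a restriction equal to that of the other factor is rigidified. -/
theorem isRigidified_of_restrictions [IsDedekindDomain R] {E P W : Bundle C R}
    (h : IsTensor E P W) (f : E.M₀ →ₛₗ[C.baseB R] R) (g : W.M₀ →ₛₗ[C.baseB R] R) (m : Ideal R)
    (hm : m ≠ ⊥) (hf : ∀ r, r ∈ m ↔ ∃ e, f e = r) (hg : ∀ r, r ∈ m ↔ ∃ w, g w = r) :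
    P.IsRigidified := by
  obtain ⟨μ₀, μ₁, μ, hs, -, -, -⟩ := h
  obtain ⟨t, htm, ht⟩ := Submodule.exists_mem_ne_zero_of_ne_bot hm
  obtain ⟨e₀, he₀⟩ := (hf t).1 htm
  obtain ⟨n, lam, v, hlv⟩ := RankOne.exists_partition (B := C.B₀ R) (M := E.M₀)
  obtain ⟨i, hi⟩ : ∃ i, C.baseB R (lam i e₀) ≠ 0 := by
    by_contra hall
    push Not at hall
    apply ht
    rw [← he₀, ← one_smul (C.B₀ R) e₀, ← hlv, Finset.sum_smul, map_sum]
    refine Finset.sum_eq_zero fun i _ => ?_
    rw [RankOne.dual_swap, f.map_smulₛₗ, hall, zero_smul]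
  -- the two restrictions are proportional
  have hprop : ∀ (p : P.M₀) (e : E.M₀), g (μ₀ e p) * t = f e * g (μ₀ e₀ p) := by
    intro p e
    have h1 : C.baseB R (lam i e) • f e₀ = C.baseB R (lam i e₀) • f e := by
      rw [← f.map_smulₛₗ, ← f.map_smulₛₗ, RankOne.dual_swap]
    have h2 : C.baseB R (lam i e) • g (μ₀ e₀ p) = C.baseB R (lam i e₀) • g (μ₀ e p) := by
      rw [← g.map_smulₛₗ, ← g.map_smulₛₗ, ← LinearMap.smul_apply, ← map_smul,
        ← LinearMap.smul_apply, ← map_smul, RankOne.dual_swap]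
    rw [smul_eq_mul, smul_eq_mul, he₀] at h1
    rw [smul_eq_mul, smul_eq_mul] at h2
    apply mul_left_cancel₀ hi
    linear_combination g (μ₀ e₀ p) * h1 - t * h2
  have hdiv : ∀ p : P.M₀, ∃ c, c * t = g (μ₀ e₀ p) := by
    intro p
    refine Ideal.mem_span_singleton'.1 ?_
    have hle : Ideal.span {g (μ₀ e₀ p)} * m ≤ Ideal.span {t} * m := by
      refine Ideal.span_singleton_mul_le_iff.2 fun r hr => ?_
      obtain ⟨e, rfl⟩ := (hf r).1 hr
      have e' : g (μ₀ e₀ p) * f e = t * g (μ₀ e p) := by rw [mul_comm, ← hprop p e, mul_comm]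
      rw [e']
      exact Ideal.mul_mem_mul (Ideal.mem_span_singleton_self t) ((hg _).2 ⟨_, rfl⟩)
    rw [← Ideal.dvd_iff_le, mul_dvd_mul_iff_right hm, Ideal.dvd_iff_le] at hle
    exact hle (Ideal.mem_span_singleton_self _)
  choose c hc using hdiv
  let F : P.M₀ →ₛₗ[C.baseB R] R :=
    { toFun := c
      map_add' := fun p q => mul_right_cancel₀ ht (by rw [add_mul, hc, hc, hc, map_add, map_add])
      map_smul' := fun b p => mul_right_cancel₀ ht (by
        rw [smul_eq_mul, mul_assoc, hc, hc, map_smul, g.map_smulₛₗ, smul_eq_mul]) }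
  haveI : RingHomSurjective (C.baseB R) := ⟨C.baseB_surjective⟩
  refine ⟨F, LinearMap.range_eq_top (f := F) |>.1 ?_⟩
  set I : Ideal R := LinearMap.range F
  have hle : m ≤ I * m := by
    intro r hr
    obtain ⟨w, rfl⟩ := (hg r).1 hr
    have hw : w ∈ Submodule.span (C.B₀ R) {z | ∃ a b, μ₀ a b = z} := hs ▸ Submodule.mem_top
    clear hr
    induction hw using Submodule.span_induction with
    | mem z hz =>
      obtain ⟨e, p, rfl⟩ := hz
      have : g (μ₀ e p) = c p * f e := mul_right_cancel₀ ht (by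
        rw [hprop, ← hc]; ring)
      rw [this]
      exact Ideal.mul_mem_mul ⟨p, rfl⟩ ((hf _).2 ⟨e, rfl⟩)
    | zero => rw [map_zero]; exact zero_mem _
    | add a b _ _ ha hb => rw [map_add]; exact add_mem ha hb
    | smul b a _ ha => rw [g.map_smulₛₗ, smul_eq_mul]; exact Ideal.mul_mem_left _ _ ha
  have h1 : (1 : Ideal R) * m ≤ I * m := by rwa [one_mul]
  rw [← Ideal.dvd_iff_le, mul_dvd_mul_iff_right hm, Ideal.dvd_iff_le, Ideal.one_eq_top] at h1
  exact top_le_iff.1 h1

/-- Bundles `O(Q - base)` twisted by the ideal of the base point are rigidified. -/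
theorem isRigidified_family [IsAlgClosed k] [IsDedekindDomain R] (ψ : R →ₐ[k] k)
    (hne : RingHom.ker (ψ : R →+* k) ≠ ⊥) (D : IdealPair C R)
    (hD : D.J₀.map (C.baseB R) = RingHom.ker (ψ : R →+* k))
    (hm : LocPrincipal (RingHom.ker (ψ : R →+* k))) {P : Bundle C R}
    (hP : cls P * pairCls D = pairCls (C.point₀ ((Algebra.ofId k R).comp C.base)) *
      pairCls (C.constPair (RingHom.ker (ψ : R →+* k)) hm hne)) : P.IsRigidified := by
  set m : Ideal R := RingHom.ker (ψ : R →+* k)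
  set Db := C.point₀ ((Algebra.ofId k R).comp C.base)
  set Dm := C.constPair m hm hne
  obtain ⟨U, hU⟩ := exists_unit C R
  obtain ⟨e₀, e₁, e, h₀, h₁⟩ := hU
  have hU : IsUnitBundle U := ⟨e₀, e₁, e, h₀, h₁⟩
  have hT : IsTensor (U.twist D) P ((U.twist Dm).twist Db) := by
    refine isTensor_of_cls ?_
    rw [cls_twist, cls_twist, cls_twist, cls_unit hU, one_mul, one_mul, mul_comm, hP, mul_comm]
  obtain ⟨δ, hδ, t, ht0, ht1⟩ := C.exists_derivation
  -- restriction of a product of ideals to the base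
  have hmem : ∀ (I : Ideal (C.B₀ R)) (z : U.M₀), z ∈ (I • ⊤ : Submodule (C.B₀ R) U.M₀) →
      e₀ z ∈ I := fun I z hz => by
    refine Submodule.smul_induction_on hz (fun a ha w _ => ?_) (fun a b ha hb => ?_)
    · rw [map_smul]; exact I.mul_mem_right _ ha
    · rw [map_add]; exact add_mem ha hb
  have hmem' : ∀ (I : Ideal (C.B₀ R)) (b : C.B₀ R), b ∈ I →
      e₀.symm b ∈ (I • ⊤ : Submodule (C.B₀ R) U.M₀) := fun I b hb => by
    rw [show b = b • (1 : C.B₀ R) from (mul_one b).symm, map_smul]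
    exact Submodule.smul_mem_smul hb trivial
  let f : (U.twist D).M₀ →ₛₗ[C.baseB R] R :=
    { toFun := fun (z : (D.J₀ • ⊤ : Submodule (C.B₀ R) U.M₀)) => C.baseB R (e₀ z.1)
      map_add' := fun (z w : (D.J₀ • ⊤ : Submodule (C.B₀ R) U.M₀)) =>
        (congrArg (C.baseB R) (map_add e₀ z.1 w.1)).trans (map_add _ _ _)
      map_smul' := fun b (z : (D.J₀ • ⊤ : Submodule (C.B₀ R) U.M₀)) =>
        (congrArg (C.baseB R) (map_smul e₀ b z.1)).trans (map_mul _ _ _) }
  have hf : ∀ r, r ∈ m ↔ ∃ z, f z = r := fun r => by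
    rw [← hD, Ideal.mem_map_iff_of_surjective _ C.baseB_surjective]
    constructor
    · rintro ⟨b, hb, rfl⟩
      exact ⟨⟨e₀.symm b, hmem' _ b hb⟩, by
        show C.baseB R (e₀ (e₀.symm b)) = _
        rw [e₀.apply_symm_apply]⟩
    · rintro ⟨z, rfl⟩
      exact ⟨_, hmem _ _ (z : (D.J₀ • ⊤ : Submodule (C.B₀ R) U.M₀)).2, rfl⟩
  let Dv : C.B₀ R →ₗ[k] R :=
    (TensorProduct.rid k R).toLinearMap ∘ₗ TensorProduct.map LinearMap.id δ
  have hDv : ∀ (r : R) (a : C.A₀), Dv (r ⊗ₜ a) = δ a • r := fun r a => by simp [Dv]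
  have hleib : ∀ p q : C.B₀ R, Dv (p * q) = C.baseB R p * Dv q + Dv p * C.baseB R q := by
    intro p q
    induction p using TensorProduct.induction_on with
    | zero => simp
    | add u v hu hv => rw [add_mul, map_add, map_add, map_add, hu, hv]; ring
    | tmul r a =>
      induction q using TensorProduct.induction_on with
      | zero => simp
      | add u v hu hv => rw [mul_add, map_add, map_add, map_add, hu, hv]; ring
      | tmul r' a' =>
        rw [Algebra.TensorProduct.tmul_mul_tmul, hDv, hDv, hDv, Cover.baseB_tmul, Cover.baseB_tmul,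
          hδ, Algebra.smul_def, Algebra.smul_def, Algebra.smul_def, map_add, map_mul, map_mul]
        ring
  have hbJ : ∀ b ∈ Db.J₀, C.baseB R b = 0 := fun b hb => by
    have key : ∀ z : C.B₀ R, C.baseB R z = Algebra.TensorProduct.lift (AlgHom.id k R)
        ((Algebra.ofId k R).comp C.base) (fun _ _ => Commute.all _ _) z := fun z => by
      induction z using TensorProduct.induction_on with
      | zero => simp
      | tmul r a =>
        rw [Cover.baseB_tmul, Algebra.TensorProduct.lift_tmul]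
        rfl
      | add u v hu hv => rw [map_add, map_add, hu, hv]
    rw [key]
    exact eval_eq_zero_of_mem _ hb
  have hval : ∀ z : U.M₀, z ∈ (Dm.J₀ • ⊤ : Submodule (C.B₀ R) U.M₀) →
      ∀ j ∈ Db.J₀, Dv (e₀ (j • z)) ∈ m ∧ C.baseB R (e₀ (j • z)) = 0 := by
    intro z hz j hj
    rw [map_smul, smul_eq_mul, hleib, map_mul, hbJ j hj, zero_mul, zero_mul, zero_add]
    refine ⟨Ideal.mul_mem_left _ _ ?_, rfl⟩
    have h1 : Dm.J₀ ≤ m.comap (C.baseB R) := Ideal.map_le_iff_le_comap.2 fun r hr => by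
      show C.baseB R (r ⊗ₜ 1) ∈ m
      rw [Cover.baseB_tmul, map_one, map_one, mul_one]
      exact hr
    exact h1 (hmem _ z hz)
  let val' : (U.twist Dm).M₀ →ₗ[C.B₀ R] C.B₀ R :=
    e₀.toLinearMap ∘ₗ (Dm.J₀ • ⊤ : Submodule (C.B₀ R) U.M₀).subtype
  let val : ((U.twist Dm).twist Db).M₀ →ₗ[C.B₀ R] C.B₀ R :=
    val' ∘ₗ (Db.J₀ • ⊤ : Submodule (C.B₀ R) (U.twist Dm).M₀).subtype
  have hW' : ∀ x : (U.twist Dm).M₀, x ∈ (Db.J₀ • ⊤ : Submodule (C.B₀ R) (U.twist Dm).M₀) →
      Dv (val' x) ∈ m ∧ C.baseB R (val' x) = 0 := by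
    intro x hx
    refine Submodule.smul_induction_on hx (fun j hj z _ => ?_) (fun a b ha hb => ?_)
    · exact hval _ (z : (Dm.J₀ • ⊤ : Submodule (C.B₀ R) U.M₀)).2 j hj
    · rw [map_add, map_add, map_add, ha.2, hb.2, add_zero]
      exact ⟨add_mem ha.1 hb.1, rfl⟩
  have hW : ∀ w : ((U.twist Dm).twist Db).M₀, Dv (val w) ∈ m ∧ C.baseB R (val w) = 0 :=
    fun w => hW' _ (w : (Db.J₀ • ⊤ : Submodule (C.B₀ R) (U.twist Dm).M₀)).2
  let g : ((U.twist Dm).twist Db).M₀ →ₛₗ[C.baseB R] R :=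
    { toFun := fun w => Dv (val w)
      map_add' := fun a b => by rw [map_add, map_add]
      map_smul' := fun b w => by
        rw [map_smul, smul_eq_mul, hleib, show C.baseB R (val w) = 0 from (hW w).2, mul_zero,
          add_zero, smul_eq_mul] }
  refine isRigidified_of_restrictions hT f g m hne hf fun r => ⟨fun hr => ?_, ?_⟩
  · have hz : e₀.symm ((r : R) ⊗ₜ[k] (1 : C.A₀)) ∈ (Dm.J₀ • ⊤ : Submodule (C.B₀ R) U.M₀) :=
      hmem' _ _ (Ideal.mem_map_of_mem _ hr)
    let j : C.B₀ R := (1 : R) ⊗ₜ[k] t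
    have hj : j ∈ Db.J₀ := by
      have := diff_mem_mainIdeal ((Algebra.ofId k R).comp C.base) t
      rw [show ((Algebra.ofId k R).comp C.base) t = 0 from by simp [ht0], TensorProduct.zero_tmul,
        zero_sub] at this
      exact neg_mem_iff.1 this
    refine ⟨⟨j • (⟨_, hz⟩ : (Dm.J₀ • ⊤ : Submodule (C.B₀ R) U.M₀)),
      Submodule.smul_mem_smul hj trivial⟩, ?_⟩
    show Dv (e₀ (j • e₀.symm ((r : R) ⊗ₜ[k] (1 : C.A₀)))) = r
    rw [map_smul, e₀.apply_symm_apply, smul_eq_mul, Algebra.TensorProduct.tmul_mul_tmul, one_mul,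
      mul_one, hDv, ht1, one_smul]
  · rintro ⟨w, rfl⟩
    exact (hW w).1

end Bundle

end FLTAgent.JacRep
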