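import Mathlib
import Fermat.Agent.JacRep.Degree.Rigid
import Fermat.Agent.JacRep.Degree.Additive

/-!
# The families of points on the two charts

`family₀`, `family₁` are the classes of `O(Q - base)` over the charts, corrected by the ideal of
the base point in the parameter ring so that they are rigidified (`isRigidified_family₀`,
`isRigidified_family₁`). They agree on the overlap (`mapCls_family_overlap`).
`exists_decomposition`: over an algebraically closed field a class of degree zero is a product of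
`g = 1 - χ(O)` members of the families, as its twist by `g` times the base point has a section.
-/

set_option autoImplicit false
set_option linter.style.haveILetI false
set_option linter.unusedSectionVars false

noncomputable section

open scoped TensorProduct
open FLTAgent.JacRep.PointIdeal

universe u

namespace FLTAgent.JacRep

variable {k : Type u} [Field k] (C : Cover k)

/-- The base point as a point of the overlap. -/
theorem Cover.exists_baseA :
    ∃ f : C.A →ₐ[k] k, ∀ a, f (C.res₀ a) = C.base a := by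
  letI := C.res₀.toRingHom.toAlgebra
  haveI : IsLocalization.Away C.x C.A := C.away₀
  have hu : IsUnit ((C.base : C.A₀ →+* k) C.x) := isUnit_iff_ne_zero.2 C.base_x
  have h : ∀ a, IsLocalization.Away.lift C.x (S := C.A) (g := (C.base : C.A₀ →+* k)) hu
      (C.res₀ a) = C.base a := IsLocalization.Away.lift_eq C.x hu
  refine ⟨{ IsLocalization.Away.lift C.x (S := C.A) (g := (C.base : C.A₀ →+* k)) hu with
    commutes' := fun c => ?_ }, h⟩
  show IsLocalization.Away.lift C.x (S := C.A) (g := (C.base : C.A₀ →+* k)) hu (algebraMap k C.A c) = _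
  rw [← C.res₀.commutes c, h, AlgHom.commutes]

/-- The base point as a point of the overlap. -/
def Cover.baseA : C.A →ₐ[k] k := C.exists_baseA.choose

theorem Cover.baseA_res₀ (a : C.A₀) : C.baseA (C.res₀ a) = C.base a := C.exists_baseA.choose_spec a

/-- The base point in the second chart. -/
def Cover.base₁ : C.A₁ →ₐ[k] k := C.baseA.comp C.res₁

theorem Cover.map_ker_base :
    (RingHom.ker (C.base : C.A₀ →+* k)).map (C.res₀ : C.A₀ →+* C.A) =
      RingHom.ker (C.baseA : C.A →+* k) := by
  refine le_antisymm (Ideal.map_le_iff_le_comap.2 fun a ha => ?_) fun a ha => ?_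
  · show C.baseA (C.res₀ a) = 0
    rw [C.baseA_res₀]; exact ha
  · obtain ⟨n, b, hb⟩ := C.exists_pow₀ a
    have ha' : C.baseA a = 0 := ha
    have hb' : b ∈ RingHom.ker (C.base : C.A₀ →+* k) := by
      show C.base b = 0
      rw [← C.baseA_res₀, ← hb, map_mul, ha', mul_zero]
    rw [show a = C.res₁ C.y ^ n * C.res₀ b by
      rw [← hb, ← mul_assoc, ← mul_pow, C.y_mul_x, one_pow, one_mul]]
    exact Ideal.mul_mem_left _ _ (Ideal.mem_map_of_mem _ hb')

theorem Cover.map_ker_base₁ :
    (RingHom.ker (C.base₁ : C.A₁ →+* k)).map (C.res₁ : C.A₁ →+* C.A) =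
      RingHom.ker (C.baseA : C.A →+* k) := by
  refine le_antisymm (Ideal.map_le_iff_le_comap.2 fun a ha => ha) fun a ha => ?_
  obtain ⟨n, b, hb⟩ := C.exists_pow₁ a
  have ha' : C.baseA a = 0 := ha
  have hb' : b ∈ RingHom.ker (C.base₁ : C.A₁ →+* k) := by
    show C.baseA (C.res₁ b) = 0
    rw [← hb, map_mul, ha', mul_zero]
  rw [show a = C.res₀ C.x ^ n * C.res₁ b by
    rw [← hb, ← mul_assoc, ← mul_pow, C.x_mul_y, one_pow, one_mul]]
  exact Ideal.mul_mem_left _ _ (Ideal.mem_map_of_mem _ hb')

theorem Cover.ker_base_ne_bot : RingHom.ker (C.base : C.A₀ →+* k) ≠ ⊥ := fun h =>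
  C.x_not_scalar (C.base C.x)
    (sub_eq_zero.1 ((Submodule.eq_bot_iff _).1 h _ (by simp)))

theorem Cover.ker_base₁_ne_bot : RingHom.ker (C.base₁ : C.A₁ →+* k) ≠ ⊥ := fun h =>
  C.y_not_scalar (C.base₁ C.y)
    (sub_eq_zero.1 ((Submodule.eq_bot_iff _).1 h _ (by simp)))

theorem Cover.isDomain_A : IsDomain C.A := by
  haveI := C.isDomain₀
  letI := C.res₀.toRingHom.toAlgebra
  haveI : IsLocalization.Away C.x C.A := C.away₀
  exact IsLocalization.isDomain_of_le_nonZeroDivisors C.A (M := Submonoid.powers C.x)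
    (powers_le_nonZeroDivisors_of_noZeroDivisors C.x_ne_zero)

namespace Bundle

attribute [local instance] rModule₀ rModule₁ rModule

variable [IsAlgClosed k]

/-- The class of `O(Q - base)` over the first chart. -/
def family₀ : Cls C C.A₀ :=
  haveI := C.isDedekind₀
  pairCls (C.point₀ ((Algebra.ofId k C.A₀).comp C.base)) *
    pairCls (C.constPair (RingHom.ker (C.base : C.A₀ →+* k)) (locPrincipal_of_dedekind _)
      C.ker_base_ne_bot) * (pairCls (C.point₀ (AlgHom.id k C.A₀)))⁻¹

/-- The class of `O(Q - base)` over the second chart. -/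
def family₁ : Cls C C.A₁ :=
  haveI := C.isDedekind₁
  pairCls (C.point₀ ((Algebra.ofId k C.A₁).comp C.base)) *
    pairCls (C.constPair (RingHom.ker (C.base₁ : C.A₁ →+* k)) (locPrincipal_of_dedekind _)
      C.ker_base₁_ne_bot) * (pairCls (C.point₁ (AlgHom.id k C.A₁)))⁻¹

/-- The first family is rigidified. -/
theorem isRigidified_family₀ {P : Bundle C C.A₀} (hP : cls P = family₀ C) : P.IsRigidified := by
  haveI := C.isDedekind₀
  refine isRigidified_family C.base C.ker_base_ne_bot (C.point₀ (AlgHom.id k C.A₀)) ?_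
    (locPrincipal_of_dedekind _) (by rw [hP, family₀, inv_mul_cancel_right])
  show (mainIdeal (AlgHom.id k C.A₀)).map (C.baseB C.A₀) = _
  rw [mainIdeal, Ideal.map_span]
  refine le_antisymm (Ideal.span_le.2 ?_) fun a ha => Ideal.subset_span ⟨_, ⟨a, rfl⟩, ?_⟩
  · rintro _ ⟨_, ⟨a, rfl⟩, rfl⟩
    show C.base _ = 0
    simp [Cover.baseB_tmul]
  · have : C.base a = 0 := ha
    simp [Cover.baseB_tmul, this]

/-- The second family is rigidified. -/
theorem isRigidified_family₁ {P : Bundle C C.A₁} (hP : cls P = family₁ C) : P.IsRigidified := by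
  haveI := C.isDedekind₁
  refine isRigidified_family C.base₁ C.ker_base₁_ne_bot (C.point₁ (AlgHom.id k C.A₁)) ?_
    (locPrincipal_of_dedekind _) (by rw [hP, family₁, inv_mul_cancel_right])
  show (sideIdeal C.res₁ C.res₀ C.y (AlgHom.id k C.A₁)).map (C.baseB C.A₁) = _
  rw [sideIdeal, Ideal.map_span]
  refine le_antisymm (Ideal.span_le.2 ?_) fun b hb => Ideal.subset_span ?_
  · rintro _ ⟨_, ⟨b, m, a, hab, rfl⟩, rfl⟩
    show C.base₁ _ = 0
    have h := congrArg C.baseA hab
    rw [map_mul, map_pow, C.baseA_res₀] at h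
    simp [Cover.baseB_tmul, Cover.base₁, h]
  · obtain ⟨n, a, hna⟩ := C.exists_pow₀ (C.res₁ b)
    have hb0 : C.baseA (C.res₁ b) = 0 := hb
    have ha : C.base a = 0 := by rw [← C.baseA_res₀, ← hna, map_mul, hb0, mul_zero]
    refine ⟨_, ⟨b, n, a, ?_, rfl⟩, ?_⟩
    · rw [← hna, ← mul_assoc, ← mul_pow, C.y_mul_x, one_pow, one_mul]
    · simp [Cover.baseB_tmul, ha]

theorem ofId_comp_comp {R R' : Type u} [CommRing R] [Algebra k R] [CommRing R'] [Algebra k R']
    (φ : R →ₐ[k] R') : φ.comp ((Algebra.ofId k R).comp C.base) = (Algebra.ofId k R').comp C.base :=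
  AlgHom.ext fun a => φ.commutes (C.base a)

theorem mapCls_base {R R' : Type u} [CommRing R] [Algebra k R] [IsDomain R] [CommRing R']
    [Algebra k R'] [IsDomain R'] (φ : R →ₐ[k] R') :
    mapCls φ (pairCls (C.point₀ ((Algebra.ofId k R).comp C.base))) =
      pairCls (C.point₀ ((Algebra.ofId k R').comp C.base)) := by
  refine mapCls_pairCls _ _ ((map_mainIdeal _ φ).trans ?_)
    ((map_sideIdeal C.res₀ C.res₁ C.x _ φ).trans ?_)
  · rw [ofId_comp_comp]; rfl
  · rw [ofId_comp_comp]; rfl

theorem mapCls_family₀ {K : Type u} [Field K] [IsAlgClosed K] [Algebra k K] (φ : C.A₀ →ₐ[k] K) :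
    mapCls φ (family₀ C) = pairCls (C.fieldPoint₀ ((Algebra.ofId k K).comp C.base)) *
      (pairCls (C.fieldPoint₀ φ))⁻¹ := by
  haveI := C.isDedekind₀
  rw [family₀, map_mul, map_mul, map_inv, mapCls_base, mapCls_const, mul_one,
    mapCls_pairCls (C.point₀ (AlgHom.id k C.A₀)) (C.fieldPoint₀ φ) (map_mainIdeal _ φ)
      (map_sideIdeal C.res₀ C.res₁ C.x _ φ)]
  rfl

theorem mapCls_family₁ {K : Type u} [Field K] [IsAlgClosed K] [Algebra k K] (φ : C.A₁ →ₐ[k] K) :
    mapCls φ (family₁ C) = pairCls (C.fieldPoint₀ ((Algebra.ofId k K).comp C.base)) *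
      (pairCls (C.fieldPoint₁ φ))⁻¹ := by
  haveI := C.isDedekind₁
  rw [family₁, map_mul, map_mul, map_inv, mapCls_base, mapCls_const, mul_one,
    mapCls_pairCls (C.point₁ (AlgHom.id k C.A₁)) (C.fieldPoint₁ φ)
      (map_sideIdeal C.res₁ C.res₀ C.y _ φ) (map_mainIdeal _ φ)]
  rfl

/-- The two families agree on the overlap. -/
theorem mapCls_family_overlap : mapCls C.res₀ (family₀ C) = mapCls C.res₁ (family₁ C) := by
  haveI := C.isDedekind₀
  haveI := C.isDedekind₁
  haveI := C.isDomain_A
  rw [family₀, family₁, map_mul, map_mul, map_mul, map_mul, map_inv, map_inv, mapCls_base,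
    mapCls_base]
  have hI : LocPrincipal (RingHom.ker (C.baseA : C.A →+* k)) :=
    C.map_ker_base ▸ (locPrincipal_of_dedekind _).map _
  have hne : RingHom.ker (C.baseA : C.A →+* k) ≠ ⊥ := fun h => C.ker_base_ne_bot
    ((Ideal.map_eq_bot_iff_of_injective C.res₀_injective).1 (C.map_ker_base.trans h))
  rw [mapCls_pairCls (φ := C.res₀) (C.constPair _ _ C.ker_base_ne_bot) (C.constPair _ hI hne)
      ((map_inl_map C.res₀ _).trans (by rw [C.map_ker_base]; rfl))
      ((map_inl_map C.res₀ _).trans (by rw [C.map_ker_base]; rfl)),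
    mapCls_pairCls (φ := C.res₁) (C.constPair _ _ C.ker_base₁_ne_bot) (C.constPair _ hI hne)
      ((map_inl_map C.res₁ _).trans (by rw [C.map_ker_base₁]; rfl))
      ((map_inl_map C.res₁ _).trans (by rw [C.map_ker_base₁]; rfl)),
    mapCls_pairCls (φ := C.res₀) (C.point₀ (AlgHom.id k C.A₀)) (C.point₀ C.res₀)
      (map_mainIdeal _ C.res₀) (map_sideIdeal C.res₀ C.res₁ C.x _ C.res₀),
    mapCls_pairCls (φ := C.res₁) (C.point₁ (AlgHom.id k C.A₁)) (C.point₁ C.res₁)
      (map_sideIdeal C.res₁ C.res₀ C.y _ C.res₁) (map_mainIdeal _ C.res₁)]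
  rw [IdealPair.pairCls_ext (D := C.point₁ C.res₁) (D' := C.point₀ C.res₀) C.sideIdeal_res₁
    C.sideIdeal_res₀.symm]

/-- A difference of two points has degree zero. -/
theorem clsEuler_diff_points {K : Type u} [Field K] [IsAlgClosed K] [Algebra k K] {p q : Cls C K}
    (hp : p ∈ pointClasses C K) (hq : q ∈ pointClasses C K) :
    clsEuler (p * q⁻¹) = clsEuler (1 : Cls C K) := by
  have h1 := clsEuler_mul p q⁻¹
  have h2 := clsEuler_mul q q⁻¹
  have h3 := clsEuler_mul_point hp 1
  have h4 := clsEuler_mul_point hq 1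
  rw [mul_inv_cancel] at h2
  rw [one_mul] at h3 h4
  omega

variable {C}

/-- Degree zero at all algebraically closed points gives degree zero at all field points. -/
theorem degreeZero_of_diff {R : Type u} [CommRing R] [Algebra k R] {P : Bundle C R} {c : Cls C R}
    (hP : cls P = c)
    (h : ∀ (L : Type u) [Field L] [IsAlgClosed L] [Algebra k L] (φ : R →ₐ[k] L),
      clsEuler (mapCls φ c) = clsEuler (1 : Cls C L))
    (K : Type u) [Field K] [Algebra k K] (φ : R →ₐ[k] K) (E' U : Bundle C K)
    (hE : IsPullback φ P E') (hU : IsUnitBundle U) : E'.euler = U.euler := by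
  let f : K →ₐ[k] AlgebraicClosure K := IsScalarTower.toAlgHom k K (AlgebraicClosure K)
  rw [← clsEuler_cls E', ← cls_pullback hE, ← clsEuler_map f, mapCls_comp, hP, h,
    ← map_one (mapCls f), clsEuler_map, ← cls_unit hU, clsEuler_cls]

variable (C)

/-- Degree zero classes are sums of differences of points and the base point. -/
theorem exists_decomposition (K : Type u) [Field K] [IsAlgClosed K] [Algebra k K] (c : Cls C K)
    (hc : clsEuler c = clsEuler (1 : Cls C K)) :
    ∃ Q : Fin (1 - clsEuler (1 : Cls C k)).toNat → Cls C K,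
      (∀ i, (∃ φ : C.A₀ →ₐ[k] K, Q i = mapCls φ (family₀ C)) ∨
        ∃ φ : C.A₁ →ₐ[k] K, Q i = mapCls φ (family₁ C)) ∧ c = ∏ i, Q i := by
  set g := (1 - clsEuler (1 : Cls C k)).toNat
  set b := pairCls (C.fieldPoint₀ ((Algebra.ofId k K).comp C.base))
  have hb : b ∈ pointClasses C K := Or.inl ⟨_, rfl⟩
  have h1 : clsEuler (1 : Cls C K) = clsEuler (1 : Cls C k) := by
    rw [← map_one (mapCls (C := C) (Algebra.ofId k K)), clsEuler_map]
  have hpow : ∀ n : ℕ, clsEuler (c * (b⁻¹) ^ n) = clsEuler (1 : Cls C K) + n := by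
    intro n
    induction n with
    | zero => simp [hc]
    | succ n ih =>
      have h2 := clsEuler_mul_point hb (c * (b⁻¹) ^ (n + 1))
      rw [pow_succ, ← mul_assoc, inv_mul_cancel_right] at h2
      rw [pow_succ, ← mul_assoc]
      push_cast
      omega
  obtain ⟨F, hF⟩ := cls_surjective (c * (b⁻¹) ^ g)
  have hFe : F.euler = clsEuler (1 : Cls C K) + g := by rw [← clsEuler_cls, hF, hpow]
  have hsec : HasSection F := by
    haveI := F.finite_kerDiff.1
    have hpos : 0 < Module.finrank K (LinearMap.ker F.diffLin) := by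
      have : F.euler = (Module.finrank K (LinearMap.ker F.diffLin) : ℤ) -
          Module.finrank K (F.M ⧸ LinearMap.range F.diffLin) := rfl
      omega
    haveI := Module.nontrivial_of_finrank_pos hpos
    obtain ⟨⟨⟨s₀, s₁⟩, hs⟩, hne⟩ := exists_ne (0 : LinearMap.ker F.diffLin)
    have heq : F.ι₀ s₀ = F.ι₁ s₁ := sub_eq_zero.1 (LinearMap.mem_ker.1 hs)
    refine ⟨s₀, s₁, fun h0 => hne (Subtype.ext (Prod.ext h0 ?_)), heq⟩
    exact F.inj₁ (heq.symm.trans ((congrArg F.ι₀ h0).trans ((map_zero _).trans (map_zero _).symm)))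
  obtain ⟨g', p, hp, hprod, hg'⟩ := exists_points_of_section hsec
  obtain rfl : g' = g := by omega
  refine ⟨fun i => b * (p i)⁻¹, fun i => ?_, ?_⟩
  · rcases hp i with ⟨φ, hφ⟩ | ⟨φ, hφ⟩
    · exact Or.inl ⟨φ, by simp only [← hφ, mapCls_family₀]; rfl⟩
    · exact Or.inr ⟨φ, by simp only [← hφ, mapCls_family₁]; rfl⟩
  · rw [Finset.prod_mul_distrib, Finset.prod_const, Finset.card_univ, Fintype.card_fin,
      Finset.prod_inv_distrib]
    rw [hF, mul_eq_one_iff_eq_inv] at hprod
    rw [← hprod, mul_comm c, ← mul_assoc, inv_pow, mul_inv_cancel, one_mul]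

end Bundle

end FLTAgent.JacRep
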